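import Fermat.Agent.S15.B.Export
import Fermat.Agent.S15.F.Proj
import Fermat.Agent.S15.F.Te
import Fermat.Agent.SS.Formal.Core34
import Fermat.Agent.ES.Glue.Iota

/-!
# S15 / B / LocE : `F.IsLocE` (what part F consumes from part B)
-/

set_option autoImplicit false

open AlgebraicCurve ModularCurve

namespace Fermat.Agent.S15.B

open Fermat.Agent.ES Fermat.Agent.S15.W Fermat.Agent.S15.F

/-- helper (task S15/B-LocE-G0): `RedConst` for `1`. -/
theorem LocEG0_redConst_one {N : ℕ} {A : ValuationSubring Qb} : SS.RedConst A (1 : FF N) := by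
  refine ⟨1, 1, 1, one_ne_zero, ?_, ?_, rfl, ?_, ?_⟩
  · rw [map_one]; exact one_mem _
  · rw [map_one]; exact one_mem _
  · rw [map_one]; exact one_ne_zero
  · simp

/-- helper (task S15/B-LocE-G0): `RedConst` is multiplicative. -/
theorem LocEG0_redConst_mul {N : ℕ} {A : ValuationSubring Qb} {u u' : FF N}
    (h : SS.RedConst A u) (h' : SS.RedConst A u') : SS.RedConst A (u * u') := by
  obtain ⟨c, y₁, y₂, hc, h1, h2, h3, h4, h5⟩ := h
  obtain ⟨c', z₁, z₂, hc', k1, k2, k3, k4, k5⟩ := h'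
  refine ⟨c * c', y₁ * z₁, y₂ * z₂, mul_ne_zero hc hc', ?_, ?_, ?_, ?_, ?_⟩
  · rw [map_mul]; exact mul_mem h1 k1
  · rw [map_mul]; exact mul_mem h2 k2
  · rw [map_mul, map_mul, h3, k3]
  · rw [map_mul]; exact mul_ne_zero h4 k4
  · rw [map_mul, map_mul, map_mul, ← h5, ← k5]
    push_cast
    ring

/-- helper (task S15/B-LocE-G0): `RedConst` is stable under inverses. -/
theorem LocEG0_redConst_inv {N : ℕ} {A : ValuationSubring Qb} {u : FF N} (hu : u ≠ 0)
    (h : SS.RedConst A u) : SS.RedConst A u⁻¹ := by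
  obtain ⟨c, y₁, y₂, hc, h1, h2, h3, h4, h5⟩ := h
  have hu' : (u : LaurentSeries Qb) ≠ 0 := fun h0 => hu (Subtype.ext h0)
  have hcc : algebraMap Qb (LaurentSeries Qb) c ≠ 0 := by
    rw [Ne, map_eq_zero]; exact hc
  refine ⟨c⁻¹, y₂, y₁, inv_ne_zero hc, h2, h1, h3.symm, by rw [h3]; exact h4, ?_⟩
  rw [← h5, map_inv₀]
  push_cast
  field_simp

variable (p e : ℕ) [NeZero p]

/-- the classes which have a representative which is constant modulo `A` (kernel of the reduction).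
TASK S15/B-LocE-G0 : the three closure properties.  `SS.RedConst` is stable under products and inverses: look in `Fermat/Agent/SS/` (`RedConst.mul`, `RedConst.inv`, `redConst_one`; if absent prove them:
`(c, y₁, y₂) (c', y₁', y₂') ↦ (c c', y₁ y₁', y₂ y₂')`, inverse `(c⁻¹, y₂, y₁)`; or go through `Raise.red_one_of_redConst` and its converse via `S37.Mod.red_iff`). -/
def G0 (A : ValuationSubring Qb) : AddSubgroup (Kum p e) where
  carrier := {a | ∃ u : Dm p e, Kum.mk u = a ∧ SS.RedConst A ((u : (FF p)ˣ) : FF p)}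
  zero_mem' := ⟨1, Kum.mk_one, LocEG0_redConst_one⟩
  add_mem' := by
    rintro _ _ ⟨u, rfl, hu⟩ ⟨u', rfl, hu'⟩
    exact ⟨u * u', Kum.mk_mul u u', LocEG0_redConst_mul hu hu'⟩
  neg_mem' := by
    rintro _ ⟨u, rfl, hu⟩
    refine ⟨u⁻¹, Kum.mk_inv u, ?_⟩
    have h1 : (((u⁻¹ : Dm p e) : (FF p)ˣ) : FF p) = (((u : (FF p)ˣ) : FF p))⁻¹ := by
      simp
    rw [h1]
    exact LocEG0_redConst_inv (Units.ne_zero _) hu

variable {p e}

/-- TASK S15/B-LocE-Te.  `T_e` is unipotent on `Eis p e`.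
`r := (⟨e, he, hep⟩ : Idx p e)`; `mem_Eis`: `(TK r - (1+e) • 1)^k x = 0`.  `TK_mem_Eis` gives stability.  Let `U := TK r - 1`.  On `Kum p e` multiplication by `e` is `0` (`Kum.nsmul_eq_zero`), so `TK r - (1+e) • 1 = U` as maps, `U^k x = 0`.
Surjectivity on `Eis`: `y' := ∑_{i<k} (-U)^i y ∈ Eis` and `(1 + U) y' = y - (-U)^k y = y` (`mul_neg_geom_sum`/`Commute.mul_geom_sum`..); or: `TK r` is injective on the finite set `Eis` (`TK r x = 0 → U x = -x → U^k x = ± x = 0`), hence surjective (`Finite.injective_iff_surjective` on `↥(Eis p e)`).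
`TK_apply` identifies `TK p e r` with `heckeKum p e he hep e`. -/
theorem heckeKum_eis [NeZero e] (he : e.Prime) (hep : ¬ e ∣ p) :
    (∀ y ∈ Eis p e, heckeKum p e he hep e y ∈ Eis p e) ∧
      ∀ y ∈ Eis p e, ∃ y' ∈ Eis p e, heckeKum p e he hep e y' = y :=
  ⟨fun y hy => heckeKum_e_mem p e he hep y hy, fun y hy => heckeKum_e_surj p e he hep y hy⟩

/-- (helper, LocE-Main) `β a b = 0 ↔ e1N a b = 1`. -/
theorem LocEMain_eq_zero_iff {N e : ℕ} [NeZero N] (he : e ≠ 0) (a b : Kum N e) :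
    e1NHom (N := N) he a b = 0 ↔ e1N a b = 1 := by
  rw [← e1NHom_apply he a b]
  constructor
  · intro h
    rw [h]
    rfl
  · intro h
    have h1 : (e1NHom he a b).toMul = 1 := Units.ext h
    exact h1

/-- TASK S15/B-LocE-Main.  **The export of part B.**
`inertia`: `SS.redConst_gal_div` (grep it in `Fermat/Agent/SS`; it is what `S15/P` uses for the prime `p`) for `u := ⟨galU p σ g / g, hg σ⟩`.
`iso`: `a = Kum.mk u`, `b = Kum.mk u'` from `G0`; `B.isotropic p e he hep hA (Eis p e) ..` (`heckeKum_eis`); `e1NHom_apply`: `β a b = 0 ↔ e1N a b = 1` (`Additive`, `Units.ext`).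
`deep`: `σ ∈ D.deepInertia e A` (`D.mem_deepInertia`, `D.unitRoots`); by contradiction: `F.eis_nondeg p e hβ (coc ..) (hEis σ) h0` gives `b ∈ Eis` with `β (coc ..) b ≠ 0`, but `B.deep .. (ht := hb)` says `e1N (coc ..) b = 1`. -/
theorem isLocE [NeZero e] (he : e.Prime) (hep : ¬ e ∣ p) {A : ValuationSubring Qb}
    (hA : A.LiesOverPrime e) (hβ : IsPairing p e (e1NHom (N := p) he.ne_zero)) :
    IsLocE p e A (e1NHom (N := p) he.ne_zero) (G0 p e A) := by
  obtain ⟨hT, hsurj⟩ := heckeKum_eis (p := p) he hep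
  refine ⟨?_, ?_, ?_⟩
  · intro g hg _ σ hσ
    obtain ⟨s, rfl, hs⟩ := res_galA_of_inertia hσ
    refine ⟨⟨galU p (s : GQ) g / g, hg _⟩, rfl, ?_⟩
    have h1 := SS.redConst_gal_div A s hs (g : FF p) g.ne_zero
    have h2 : ((galU p (s : GQ) g / g : (FF p)ˣ) : FF p)
        = galF p (s : GQ) (g : FF p) * (g : FF p)⁻¹ := by
      simp [div_eq_mul_inv]
    show SS.RedConst A ((galU p (s : GQ) g / g : (FF p)ˣ) : FF p)
    rw [h2]
    exact h1
  · intro g hg hEis σ hσ
    obtain ⟨hσI, hσ'⟩ := S15.D.mem_deepInertia.1 hσ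
    by_contra h0
    have : Finite (Kum p e) := ES.Glue.finite_Kum he.pos
    obtain ⟨b, hb, hne⟩ := eis_nondeg p e hβ _ (hEis σ) h0
    apply hne
    rw [LocEMain_eq_zero_iff]
    exact deep p e he hep hA (Eis p e) hT hsurj g (fun σ _ => hg σ) (fun σ _ => hEis σ) hσI
      (fun z h1 h2 h3 => hσ' z ⟨h1, h2, h3⟩) hb
  · rintro a ⟨⟨u, rfl, hu⟩, ha⟩ b ⟨⟨u', rfl, hu'⟩, hb⟩
    rw [LocEMain_eq_zero_iff]
    exact isotropic p e he hep hA (Eis p e) hT hsurj u u' hu hu' ha hb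

end Fermat.Agent.S15.B
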