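import Mathlib

/-!
# S15 / B / End : the final valuation lemma (pure algebra in a valued field `K ⊇ A`; Mathlib only)

`e` a prime in the maximal ideal of `A`, `ζ` a primitive `e`-th root of unity, `λ = ζ - 1`: `e = unit * λ ^ (e-1)`.
-/

set_option autoImplicit false

namespace Fermat.Agent.S15.B

variable {K : Type*} [Field K] {A : ValuationSubring K}

/-- (helper) roots of unity lie in `A`. -/
private theorem EndA_mem {e : ℕ} (he : 0 < e) {ζ : K} (h : ζ ^ e = 1) : ζ ∈ A := by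
  rcases A.mem_or_inv_mem ζ with h1 | h1
  · exact h1
  · have h2 : ζ = (ζ⁻¹) ^ (e - 1) := by
      obtain ⟨k, rfl⟩ : ∃ k, e = k + 1 := ⟨e - 1, by omega⟩
      rw [Nat.add_sub_cancel, inv_pow]
      exact eq_inv_of_mul_eq_one_left (by rw [← pow_succ', h])
    rw [h2]
    exact pow_mem h1 _

/-- (helper) a primitive root of unity, as an element of `A`. -/
private theorem EndA_prim {e : ℕ} {ζ : K} (hζ : IsPrimitiveRoot ζ e) (hA : ζ ∈ A) :
    IsPrimitiveRoot (⟨ζ, hA⟩ : A) e :=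
  IsPrimitiveRoot.of_map_of_injective (f := A.subtype) hζ Subtype.val_injective

/-- (helper) units of `A`. -/
private theorem EndA_unit (u : (↥A)ˣ) : ((u : A) : K) ∈ A ∧ ((u : A) : K)⁻¹ ∈ A := by
  refine ⟨(u : A).2, ?_⟩
  have h : ((u : A) : K)⁻¹ = (((u⁻¹ : (↥A)ˣ) : A) : K) := by
    have h1 : ((u : A) : K) * (((u⁻¹ : (↥A)ˣ) : A) : K) = 1 := by
      have h2 := congrArg A.subtype (u.mul_inv)
      rwa [map_mul, map_one] at h2
    exact inv_eq_of_mul_eq_one_right h1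
  rw [h]
  exact ((u⁻¹ : (↥A)ˣ) : A).2

/-- TASK S15/B-End-a.  `e = u λ^(e-1)` with `u` a unit of `A`.
`∏_{i=1}^{e-1} (1 - ζ^i) = e` (`IsPrimitiveRoot.…`, e.g. evaluate `∏_{i=1}^{e-1} (X - ζ^i) = 1 + X + .. + X^(e-1)` at `1`: `Polynomial.cyclotomic_prime`, `Polynomial.eval_one_cyclotomic_prime`,
`Polynomial.cyclotomic_eq_prod_X_sub_primitiveRoots`), and `(1 - ζ^i)/(1 - ζ) = 1 + ζ + .. + ζ^(i-1) ∈ A` with inverse `(1 - (ζ^i)^j)/(1 - ζ^i) ∈ A`, `i j ≡ 1 mod e`.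
(`ζ ∈ A`: integral, `ValuationSubring` is integrally closed; or: `ζ ∉ A → ζ⁻¹ ∈ m_A → 1 = (ζ⁻¹)^e ∈ m_A`.)
A version over a domain is `Fermat.Agent.S33…exists_unit_natCast_eq` (`S33/Calc/Cyclo.lean`): you may copy its proof (do not import S33 here). -/
theorem exists_unit_mul_pow {e : ℕ} (he : e.Prime) {ζ : K} (hζ : IsPrimitiveRoot ζ e) :
    ζ ∈ A ∧ ∃ u : K, u ∈ A ∧ u⁻¹ ∈ A ∧ (e : K) = u * (ζ - 1) ^ (e - 1) := by
  have hA : ζ ∈ A := EndA_mem he.pos hζ.pow_eq_one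
  refine ⟨hA, ?_⟩
  have hζ' := EndA_prim hζ hA
  have : Fact e.Prime := ⟨he⟩
  have : NeZero e := ⟨he.ne_zero⟩
  have h : Associated (((⟨ζ, hA⟩ : A) - 1) ^ (e - 1)) (e : A) := by
    rw [← Polynomial.eval_one_cyclotomic_prime (R := A) (p := e),
      Polynomial.cyclotomic_eq_prod_X_sub_primitiveRoots hζ', Polynomial.eval_prod]
    simp only [Polynomial.eval_sub, Polynomial.eval_X, Polynomial.eval_C]
    rw [← Nat.totient_prime he, ← hζ'.card_primitiveRoots, ← Finset.prod_const]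
    refine Associated.prod _ _ _ fun η hη => ?_
    obtain ⟨i, -, hi, rfl⟩ := hζ'.isPrimitiveRoot_iff.1 (isPrimitiveRoot_of_mem_primitiveRoots hη)
    simpa using (hζ'.associated_sub_one_pow_sub_one_of_coprime hi).neg_right
  obtain ⟨u, hu⟩ := h
  refine ⟨((u : A) : K), (EndA_unit u).1, (EndA_unit u).2, ?_⟩
  have h1 := congrArg A.subtype hu
  rw [map_mul, map_pow, map_sub, map_one, map_natCast] at h1
  rw [mul_comm, ← h1]
  rfl

/-- TASK S15/B-End-a.  For `ω ^ e = 1`, `ω ≠ 1`: `ω - 1 = unit * (ζ - 1)` (`ω = ζ ^ i`, `IsPrimitiveRoot.eq_pow_of_pow_eq_one`, as above). -/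
theorem exists_unit_sub_one {e : ℕ} (he : e.Prime) {ζ ω : K} (hζ : IsPrimitiveRoot ζ e)
    (hω : ω ^ e = 1) (h1 : ω ≠ 1) : ∃ u : K, u ∈ A ∧ u⁻¹ ∈ A ∧ ω - 1 = u * (ζ - 1) := by
  have hA : ζ ∈ A := EndA_mem he.pos hζ.pow_eq_one
  have hζ' := EndA_prim hζ hA
  have : NeZero e := ⟨he.ne_zero⟩
  obtain ⟨i, hi, rfl⟩ := hζ.eq_pow_of_pow_eq_one hω
  have hi0 : ¬ e ∣ i := by
    intro hd
    exact h1 ((hζ.pow_eq_one_iff_dvd i).2 hd)
  have hcop : i.Coprime e := ((Nat.Prime.coprime_iff_not_dvd he).2 hi0).symm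
  obtain ⟨u, hu⟩ := hζ'.associated_sub_one_pow_sub_one_of_coprime hcop
  refine ⟨((u : A) : K), (EndA_unit u).1, (EndA_unit u).2, ?_⟩
  have h2 := congrArg A.subtype hu
  rw [map_mul, map_sub, map_sub, map_pow, map_one] at h2
  rw [mul_comm]
  exact h2.symm

theorem EndB_mul_mem_nonunits {x y : K} (hx : x ∈ A) (hy : y ∈ A.nonunits) :
    x * y ∈ A.nonunits := by
  rw [A.mem_nonunits_iff] at hy ⊢
  rw [← A.valuation_le_one_iff] at hx
  rw [map_mul]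
  calc A.valuation x * A.valuation y ≤ 1 * A.valuation y := mul_le_mul_left hx _
    _ = A.valuation y := one_mul _
    _ < 1 := hy

theorem EndB_one_add_unit {x : K} (hx : x ∈ A.nonunits) :
    1 + x ≠ 0 ∧ 1 + x ∈ A ∧ (1 + x)⁻¹ ∈ A := by
  rw [A.mem_nonunits_iff] at hx
  have h1 : A.valuation (1 + x) = 1 := Valuation.map_one_add_of_lt _ hx
  refine ⟨?_, ?_, ?_⟩
  · intro h0
    rw [h0, map_zero] at h1
    exact zero_ne_one h1
  · rw [← A.valuation_le_one_iff, h1]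
  · rw [← A.valuation_le_one_iff, map_inv₀, h1, inv_one]

/-- TASK S15/B-End-b.  `μ_e ∩ (1 + λ m_A) = 1`.  If `ω ≠ 1` then `u λ = λ b`, `λ ≠ 0`, so `u = b ∈ m_A`, but `u` is a unit. -/
theorem eq_one_of_lambda {e : ℕ} (he : e.Prime) {ζ ω b : K} (hζ : IsPrimitiveRoot ζ e)
    (hω : ω ^ e = 1) (hb : b ∈ A.nonunits) (h : ω = 1 + (ζ - 1) * b) : ω = 1 := by
  by_contra h1
  obtain ⟨u, -, hu', hu⟩ := exists_unit_sub_one (A := A) he hζ hω h1
  have hl : ζ - 1 ≠ 0 := sub_ne_zero.mpr (hζ.ne_one he.one_lt)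
  have hub : u = b := by
    apply mul_right_cancel₀ hl
    rw [← hu, h]
    ring
  rcases A.mem_nonunits_iff_or.mp hb with h0 | h0
  · apply h1
    rw [h, h0, mul_zero, add_zero]
  · exact h0 (hub ▸ hu')

/-- TASK S15/B-End-b.  `μ_e ∩ (1 + e m_A) = 1`  (`e = u λ^(e-1) ∈ λ A`; a primitive root exists: `IsAlgClosed`, `CharZero`: `HasEnoughRootsOfUnity` / `IsCyclotomicExtension`/ `Complex`-free:
`(IsAlgClosed.exists_root (Polynomial.cyclotomic e K) ..)` and `Polynomial.isRoot_cyclotomic_iff`). -/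
theorem eq_one_of_prime [IsAlgClosed K] [CharZero K] {e : ℕ} (he : e.Prime) {ω b : K}
    (hω : ω ^ e = 1) (hb : b ∈ A.nonunits) (h : ω = 1 + (e : K) * b) : ω = 1 := by
  have : NeZero (e : K) := ⟨Nat.cast_ne_zero.mpr he.ne_zero⟩
  have : NeZero e := ⟨he.ne_zero⟩
  obtain ⟨ζ, hζ⟩ := HasEnoughRootsOfUnity.exists_primitiveRoot K e
  obtain ⟨hζA, u, hu, -, hue⟩ := exists_unit_mul_pow (A := A) he hζ
  have hlA : ζ - 1 ∈ A := sub_mem hζA (one_mem A)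
  refine eq_one_of_lambda (A := A) (b := u * (ζ - 1) ^ (e - 2) * b) he hζ hω
    (EndB_mul_mem_nonunits (mul_mem hu (pow_mem hlA _)) hb) ?_
  obtain ⟨m, rfl⟩ : ∃ m, e = m + 2 := ⟨e - 2, by have := he.two_le; omega⟩
  rw [h, hue]
  have e1 : m + 2 - 1 = m + 1 := by omega
  have e2 : m + 2 - 2 = m := by omega
  rw [e1, e2]
  ring

/-- TASK S15/B-End-c.  `θ ^ e ∈ 1 + e² A ⟹ θ ∈ 1 + λ A`.
`∏_{i < e} (θ - ζ^i) = θ^e - 1 = e² a ∈ λ^e A` (`2 (e-1) ≥ e`; `IsPrimitiveRoot.pow_sub_one_eq_prod` or `X_pow_sub_one_eq_prod`).  If no factor lies in `λ A` then `λ / (θ - ζ^i) ∈ m_A` for all `i`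
(valuation ring), so `λ^e / (θ^e - 1) ∈ m_A`, while `(θ^e - 1)/λ^e ∈ A`: contradiction (`θ^e = 1` is the trivial case: `θ = ζ^i`).  So `θ - ζ^i ∈ λ A` and `ζ^i - 1 ∈ λ A`. -/
theorem exists_eq_one_add_lambda {e : ℕ} (he : e.Prime) {ζ θ a : K} (hζ : IsPrimitiveRoot ζ e)
    (ha : a ∈ A) (h : θ ^ e = 1 + (e : K) ^ 2 * a) : ∃ ξ ∈ A, θ = 1 + (ζ - 1) * ξ := by
  classical
  have hne0 : NeZero e := ⟨he.ne_zero⟩
  obtain ⟨hζA, u, hu, -, heu⟩ := exists_unit_mul_pow (A := A) he hζ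
  have hl0 : ζ - 1 ≠ 0 := sub_ne_zero.mpr (hζ.ne_one he.one_lt)
  have hlA : ζ - 1 ∈ A := sub_mem hζA (one_mem A)
  have hvl0 : 0 < A.valuation (ζ - 1) := zero_lt_iff.mpr ((A.valuation.ne_zero_iff).mpr hl0)
  have hvl1 : A.valuation (ζ - 1) ≤ 1 := (A.valuation_le_one_iff _).mpr hlA
  -- the product formula
  have hprod : θ ^ e - 1 = ∏ ω ∈ Polynomial.nthRootsFinset e (1 : K), (θ - ω) := by
    have := congrArg (Polynomial.eval θ) (Polynomial.X_pow_sub_one_eq_prod he.pos hζ)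
    simpa [Polynomial.eval_prod] using this
  -- the valuation of the product
  have hle : A.valuation (θ ^ e - 1) ≤ A.valuation (ζ - 1) ^ e := by
    have h1 : θ ^ e - 1 = (u ^ 2 * a * (ζ - 1) ^ (e - 2)) * (ζ - 1) ^ e := by
      rw [h, heu, add_sub_cancel_left, mul_assoc, ← pow_add, mul_pow, ← pow_mul]
      have h2 : (e - 1) * 2 = e - 2 + e := by
        have := he.two_le
        omega
      rw [h2]
      ring
    rw [h1, map_mul, map_pow]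
    have h3 : A.valuation (u ^ 2 * a * (ζ - 1) ^ (e - 2)) ≤ 1 :=
      (A.valuation_le_one_iff _).mpr (mul_mem (mul_mem (pow_mem hu 2) ha) (pow_mem hlA _))
    calc A.valuation (u ^ 2 * a * (ζ - 1) ^ (e - 2)) * A.valuation (ζ - 1) ^ e
        ≤ 1 * A.valuation (ζ - 1) ^ e := mul_le_mul' h3 le_rfl
      _ = A.valuation (ζ - 1) ^ e := one_mul _
  -- one factor is small
  have hex : ∃ ω ∈ Polynomial.nthRootsFinset e (1 : K),
      A.valuation (θ - ω) ≤ A.valuation (ζ - 1) := by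
    by_contra hcon
    push Not at hcon
    have hne : (Polynomial.nthRootsFinset e (1 : K)).Nonempty := by
      rw [← Finset.card_pos, hζ.card_nthRootsFinset]
      exact he.pos
    have hlt := Finset.prod_lt_prod_of_nonempty
      (f := fun _ : K => A.valuation (ζ - 1)) (g := fun ω : K => A.valuation (θ - ω))
      (fun _ _ => hvl0) hcon hne
    rw [Finset.prod_const, hζ.card_nthRootsFinset, ← map_prod, ← hprod] at hlt
    exact absurd hle (not_le.mpr hlt)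
  obtain ⟨ω, hω, hvω⟩ := hex
  rw [Polynomial.mem_nthRootsFinset he.pos] at hω
  obtain ⟨i, -, rfl⟩ := hζ.eq_pow_of_pow_eq_one hω
  have h1 : (θ - ζ ^ i) / (ζ - 1) ∈ A := by
    rw [← A.valuation_le_one_iff, map_div₀]
    exact (div_le_one₀ hvl0).mpr hvω
  have h2 : ∑ j ∈ Finset.range i, ζ ^ j ∈ A := sum_mem fun j _ => pow_mem hζA j
  refine ⟨(θ - ζ ^ i) / (ζ - 1) + ∑ j ∈ Finset.range i, ζ ^ j, add_mem h1 h2, ?_⟩
  rw [mul_add, mul_div_cancel₀ _ hl0, mul_comm (ζ - 1), geom_sum_mul]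
  ring

theorem EndD_mul_mem_nonunits {x y : K} (hx : x ∈ A) (hy : y ∈ A.nonunits) :
    x * y ∈ A.nonunits := by
  rw [A.mem_nonunits_iff] at hy ⊢
  rw [← A.valuation_le_one_iff] at hx
  rw [map_mul]
  calc A.valuation x * A.valuation y ≤ 1 * A.valuation y := mul_le_mul_left hx _
    _ = A.valuation y := one_mul _
    _ < 1 := hy

theorem EndD_one_add_unit {x : K} (hx : x ∈ A.nonunits) :
    1 + x ≠ 0 ∧ 1 + x ∈ A ∧ (1 + x)⁻¹ ∈ A := by
  rw [A.mem_nonunits_iff] at hx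
  have h1 : A.valuation (1 + x) = 1 := Valuation.map_one_add_of_lt _ hx
  refine ⟨?_, ?_, ?_⟩
  · intro h0
    rw [h0, map_zero] at h1
    exact zero_ne_one h1
  · rw [← A.valuation_le_one_iff, h1]
  · rw [← A.valuation_le_one_iff, map_inv₀, h1, inv_one]

/-- TASK S15/B-End-d.  **The end game.**  `s` an automorphism of `K` preserving `A` and trivial on the residue field; `u` a unit of `A`; `s` fixes the `e`-th roots of `u` and of `1`;
`β^e = u (1 + e² a)`; `ω ∈ μ_e` with `ω s(β) = β (1 + e b)`, `b ∈ m_A`.  Then `ω = 1`.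
Proof.  `γ^e = u` (`IsAlgClosed.exists_pow_nat_eq`), `s γ = γ`, `γ ≠ 0`.  `θ := β / γ`, `θ^e = 1 + e² a`, so `θ = 1 + λ ξ`, `ξ ∈ A` (`exists_eq_one_add_lambda`); `s ζ = ζ`, so
`s θ = 1 + λ s ξ` and `s θ - θ = λ (s ξ - ξ) ∈ λ m_A`.  `θ` and `s θ` are units of `A` (they are `≡ 1 mod m_A`, as `λ ∈ m_A`: `λ^(e-1) u = e ∈ m_A`).
`ω s θ = θ (1 + e b)`, so `ω - 1 = (θ - s θ + θ e b) / s θ ∈ λ m_A`; `eq_one_of_lambda`. -/
theorem end_lemma [IsAlgClosed K] [CharZero K] {e : ℕ} (he : e.Prime) (heA : (e : K) ∈ A.nonunits)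
    (s : K ≃+* K) (hsA : ∀ a ∈ A, s a ∈ A ∧ s a - a ∈ A.nonunits)
    {u : K} (hu0 : u ≠ 0) (hu : u ∈ A) (hu' : u⁻¹ ∈ A) (hdeep : ∀ z : K, (z ^ e = u ∨ z ^ e = 1) → s z = z)
    {β a b ω : K} (ha : a ∈ A) (hβ : β ^ e = u * (1 + (e : K) ^ 2 * a)) (hb : b ∈ A.nonunits)
    (hω : ω ^ e = 1) (h : ω * s β = β * (1 + (e : K) * b)) : ω = 1 := by
  have : NeZero (e : K) := ⟨Nat.cast_ne_zero.mpr he.ne_zero⟩
  have : NeZero e := ⟨he.ne_zero⟩
  obtain ⟨ζ, hζ⟩ := HasEnoughRootsOfUnity.exists_primitiveRoot K e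
  obtain ⟨hζA, w, hw, hw', hew⟩ := exists_unit_mul_pow (A := A) he hζ
  have hlA : ζ - 1 ∈ A := sub_mem hζA (one_mem A)
  have he0 : (e : K) ≠ 0 := Nat.cast_ne_zero.mpr he.ne_zero
  have hw0 : w ≠ 0 := by
    rintro rfl
    rw [zero_mul] at hew
    exact he0 hew
  -- `λ ∈ m_A`
  have hlm : ζ - 1 ∈ A.nonunits := by
    have h1 : (ζ - 1) ^ (e - 1) ∈ A.nonunits := by
      have : (ζ - 1) ^ (e - 1) = w⁻¹ * (e : K) := by
        rw [hew, inv_mul_cancel_left₀ hw0]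
      rw [this]
      exact EndD_mul_mem_nonunits hw' heA
    rw [A.mem_nonunits_iff, map_pow] at h1
    rw [A.mem_nonunits_iff]
    exact (pow_lt_one_iff (by have := he.two_le; omega)).mp h1
  obtain ⟨γ, hγ⟩ := IsAlgClosed.exists_pow_nat_eq u he.pos
  have hsγ : s γ = γ := hdeep γ (Or.inl hγ)
  have hsζ : s ζ = ζ := hdeep ζ (Or.inr hζ.pow_eq_one)
  have hγ0 : γ ≠ 0 := by
    rintro rfl
    rw [zero_pow he.ne_zero] at hγ
    exact hu0 hγ.symm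
  have hθe : (β / γ) ^ e = 1 + (e : K) ^ 2 * a := by
    rw [div_pow, hβ, hγ, mul_div_cancel_left₀ _ hu0]
  obtain ⟨ξ, hξ, hθ⟩ := exists_eq_one_add_lambda (A := A) he hζ ha hθe
  have hsθ : s β / γ = 1 + (ζ - 1) * s ξ := by
    have := congrArg s hθ
    rwa [map_div₀, hsγ, map_add, map_one, map_mul, map_sub, map_one, hsζ] at this
  obtain ⟨hsξ, hsξ'⟩ := hsA ξ hξ
  obtain ⟨h10, -, h1A'⟩ := EndD_one_add_unit
    (show (ζ - 1) * s ξ ∈ A.nonunits by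
      rw [mul_comm]; exact EndD_mul_mem_nonunits hsξ hlm)
  have hθA : 1 + (ζ - 1) * ξ ∈ A := add_mem (one_mem A) (mul_mem hlA hξ)
  have h' : ω * (1 + (ζ - 1) * s ξ) = (1 + (ζ - 1) * ξ) * (1 + (e : K) * b) := by
    rw [← hsθ, ← hθ, mul_div_assoc', h]
    ring
  refine eq_one_of_lambda (A := A)
    (b := (1 + (ζ - 1) * s ξ)⁻¹ *
      (-(s ξ - ξ) + (1 + (ζ - 1) * ξ) * (w * (ζ - 1) ^ (e - 2)) * b)) he hζ hω
    (EndD_mul_mem_nonunits h1A' (add_mem (neg_mem hsξ')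
      (EndD_mul_mem_nonunits (mul_mem hθA (mul_mem hw (pow_mem hlA _))) hb))) ?_
  obtain ⟨m, rfl⟩ : ∃ m, e = m + 2 := ⟨e - 2, by have := he.two_le; omega⟩
  have e1 : m + 2 - 1 = m + 1 := by omega
  have e2 : m + 2 - 2 = m := by omega
  rw [e1] at hew
  rw [e2]
  rw [hew] at h'
  field_simp
  linear_combination h'

/-- TASK S15/B-End-b.  `(1 + c b₁) / ((1 + c b₂)(1 + c b₃)) = 1 + c b`, `b ∈ m_A`  (`c ∈ A`, `b_i ∈ m_A`; `1 + c b_i` is a unit of `A`). -/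
theorem one_add_div_mul {c b₁ b₂ b₃ : K} (hc : c ∈ A) (h₁ : b₁ ∈ A.nonunits) (h₂ : b₂ ∈ A.nonunits)
    (h₃ : b₃ ∈ A.nonunits) :
    ∃ b ∈ A.nonunits, (1 + c * b₁) / ((1 + c * b₂) * (1 + c * b₃)) = 1 + c * b := by
  obtain ⟨h20, h2A, h2A'⟩ := EndB_one_add_unit (EndB_mul_mem_nonunits hc h₂)
  obtain ⟨h30, h3A, h3A'⟩ := EndB_one_add_unit (EndB_mul_mem_nonunits hc h₃)
  refine ⟨(1 + c * b₂)⁻¹ * (1 + c * b₃)⁻¹ * (b₁ - b₂ - b₃ - c * b₂ * b₃),
    EndB_mul_mem_nonunits (mul_mem h2A' h3A') ?_, ?_⟩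
  · exact sub_mem (sub_mem (sub_mem h₁ h₂) h₃)
      (EndB_mul_mem_nonunits (mul_mem hc (A.nonunits_subset h₂)) h₃)
  · field_simp
    ring

end Fermat.Agent.S15.B
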