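import Fermat.Agent.S15.B.Depth

/-!
# S15 / B / Eval0 : values of functions of `1 + c O` on divisors which reduce to `0`   ((E0), (E5))
-/

set_option autoImplicit false
set_option linter.unusedSectionVars false

namespace Fermat.Agent.S15.B

open AlgebraicCurve Fermat.Agent.S26 Fermat.Agent.S37.Red Fermat.Agent.S19.Geo0 Fermat.Agent.S15.W

variable {K k : Type*} [Field K] [Field k] {A : ValuationSubring K} {π : A →+* k}
variable {F Ft : Type*} [Field F] [Field Ft] [Algebra K F] [Algebra k Ft]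
variable [IsAlgClosed K] [CharZero K] [FF1 K F] [IsAlgClosed k] [FF1 k Ft]
variable {V : VFF A π F Ft} {y : F} {yt : Ft}
variable {Γ : Type*} [Group Γ] {α : Γ →* SemilinearAut K F}

/-- TASK S15/B-Eval-a.  One point.  `val_red hG hx` (for `Q = rP v`): `x(v) ∈ A`, `res (x(v)) = xt(rP v)`.  `val v (1 + c x) = 1 + c x(v)` (`val_add`, `val_mul`, `val_algebraMap`-type lemmas of `S37/Red/Val`, all need `Reg`),
which is a unit of `A` (`c ∈ m_A`), in particular `≠ 0`, so `ord_v (1 + c x) = 0` (regular and not vanishing: `val_eq_zero_iff`, `reg_iff_ord`, `ord_pos_of_van`). -/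
theorem val_one_add (hG : Good V y yt) {c : K} (hc : c ∈ A.nonunits) {x : F} {xt : Ft}
    (hx : V.Red x xt) {v : Place K F} (hreg : ∀ v', rP hG v' = rP hG v → Reg v' x) :
    val v x ∈ A ∧ res π (val v x) = val (rP hG v) xt ∧
      val v (1 + algebraMap K F c * x) = 1 + c * val v x ∧ v.ord (1 + algebraMap K F c * x) = 0 := by
  obtain ⟨-, h2⟩ := val_red hG hx (Q := rP hG v) hreg
  obtain ⟨hA, hres⟩ := h2 v rfl
  have hxr : Reg v x := hreg v rfl
  have hcr : Reg v (algebraMap K F c) := reg_algebraMap v c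
  have hval : val v (1 + algebraMap K F c * x) = 1 + c * val v x := by
    have h1 : val v (1 : F) = 1 := by
      apply val_eq_of_van
      rw [map_one, sub_self]
      exact van_zero v
    have hc' : val v (algebraMap K F c) = c := by
      apply val_eq_of_van
      rw [sub_self]
      exact van_zero v
    rw [val_add v (reg_one v) (hcr.mul v hxr), val_mul v hcr hxr, h1, hc']
  refine ⟨hA, hres, hval, ?_⟩
  have hreg1 : Reg v (1 + algebraMap K F c * x) := (reg_one v).add v (hcr.mul v hxr)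
  apply ord_eq_zero_of_reg_of_not_van v hreg1
  intro hvan
  have h0 := (val_eq_zero_iff v hreg1).2 hvan
  rw [hval] at h0
  -- `c * x(v) ∈ m_A` and `= -1`
  have hm : c * val v x ∈ A.nonunits := by
    have h3 : (⟨c, A.nonunits_subset hc⟩ : A) ∈ IsLocalRing.maximalIdeal A :=
      (ValuationSubring.mem_nonunits_iff_exists_mem_maximalIdeal.1 hc).2
    have h4 := Ideal.mul_mem_right (⟨val v x, hA⟩ : A) _ h3
    exact ValuationSubring.mem_nonunits_iff_exists_mem_maximalIdeal.2 ⟨A.mul_mem _ _ (A.nonunits_subset hc) hA, h4⟩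
  have h5 : c * val v x = -1 := by linear_combination h0
  rw [h5] at hm
  have h6 : A.valuation (-1 : K) < 1 := (ValuationSubring.mem_nonunits_iff A).1 hm
  rw [Valuation.map_neg, map_one] at h6
  exact lt_irrefl _ h6

theorem EvalB_res_c (hπ : Function.Surjective π) {c : K} (hc : c ∈ A.nonunits) : res π c = 0 :=
  (res_eq_zero_iff hπ (mem_of_mem_nonunits hc)).2 hc

theorem EvalB_mul (hπ : Function.Surjective π) {c : K} (hc : c ∈ A.nonunits) {a b : K}
    (ha : a ∈ A) (hb : b ∈ A) :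
    ∃ d ∈ A, (1 + c * a) * (1 + c * b) = 1 + c * d ∧ res π d = res π a + res π b := by
  have hcA : c ∈ A := mem_of_mem_nonunits hc
  refine ⟨a + b + c * (a * b), add_mem (add_mem ha hb) (mul_mem hcA (mul_mem ha hb)), by ring, ?_⟩
  rw [res_add (add_mem ha hb) (mul_mem hcA (mul_mem ha hb)), res_add ha hb,
    res_mul hcA (mul_mem ha hb), EvalB_res_c hπ hc, zero_mul, add_zero]

theorem EvalB_inv (hπ : Function.Surjective π) {c : K} (hc : c ∈ A.nonunits) {a : K}
    (ha : a ∈ A) :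
    ∃ d ∈ A, (1 + c * a)⁻¹ = 1 + c * d ∧ res π d = - res π a := by
  have hcA : c ∈ A := mem_of_mem_nonunits hc
  have h1 : res π (1 + c * a) = 1 := by
    rw [res_add (one_mem _) (mul_mem hcA ha), res_mul hcA ha, EvalB_res_c hπ hc, zero_mul,
      add_zero, res_one]
  have h1' : res π (1 + c * a) ≠ 0 := by rw [h1]; exact one_ne_zero
  obtain ⟨_, h2⟩ := inv_mem_of_res_ne_zero hπ h1'
  have h3 : res π (1 + c * a)⁻¹ = 1 := by rw [res_inv hπ h1', h1, inv_one]
  have h0 : 1 + c * a ≠ 0 := by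
    intro h
    rw [h, res_zero] at h1
    exact zero_ne_one h1
  refine ⟨-a * (1 + c * a)⁻¹, mul_mem (neg_mem ha) h2, ?_, ?_⟩
  · field_simp
    ring
  · rw [res_mul (neg_mem ha) h2, h3, mul_one, res_neg ha]

theorem EvalB_pow (hπ : Function.Surjective π) {c : K} (hc : c ∈ A.nonunits) {a : K}
    (ha : a ∈ A) (n : ℕ) :
    ∃ d ∈ A, (1 + c * a) ^ n = 1 + c * d ∧ res π d = n • res π a := by
  induction n with
  | zero => exact ⟨0, zero_mem _, by simp, by simp⟩
  | succ n ih =>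
    obtain ⟨d, hd, h1, h2⟩ := ih
    obtain ⟨e, he, h3, h4⟩ := EvalB_mul hπ hc hd ha
    refine ⟨e, he, ?_, ?_⟩
    · rw [pow_succ, h1, h3]
    · rw [h4, h2, succ_nsmul]

theorem EvalB_zpow (hπ : Function.Surjective π) {c : K} (hc : c ∈ A.nonunits) {a : K}
    (ha : a ∈ A) (n : ℤ) :
    ∃ d ∈ A, (1 + c * a) ^ n = 1 + c * d ∧ res π d = n • res π a := by
  obtain ⟨m, rfl | rfl⟩ := n.eq_nat_or_neg
  · obtain ⟨d, hd, h1, h2⟩ := EvalB_pow hπ hc ha m
    exact ⟨d, hd, by rw [zpow_natCast, h1], by rw [h2, natCast_zsmul]⟩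
  · obtain ⟨d, hd, h1, h2⟩ := EvalB_pow hπ hc ha m
    obtain ⟨e, he, h3, h4⟩ := EvalB_inv hπ hc hd
    exact ⟨e, he, by rw [zpow_neg, zpow_natCast, h1, h3], by rw [h4, h2, neg_zsmul, natCast_zsmul]⟩

/-- TASK S15/B-Eval-b.  Pure algebra in `A`: `∏ (1 + c a_i)^{n_i} = 1 + c a`, `a ∈ A`, `res a = ∑ n_i res a_i`  (`c ∈ m_A`).
Induction on the finset; `(1 + c a)^n` for `n : ℤ` by `Int.induction_on` (or: `n ≥ 0` by induction, `(1 + c a)⁻¹ = 1 + c (-a (1 + c a)⁻¹)`, `res ((1 + c a)⁻¹) = 1`). -/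
theorem prod_one_add {ι : Type*} (hπ : Function.Surjective π) {c : K} (hc : c ∈ A.nonunits)
    (s : Finset ι) (a : ι → K) (n : ι → ℤ) (ha : ∀ i ∈ s, a i ∈ A) :
    ∃ b ∈ A, ∏ i ∈ s, (1 + c * a i) ^ n i = 1 + c * b ∧ res π b = ∑ i ∈ s, n i • res π (a i) := by
  classical
  induction s using Finset.induction_on with
  | empty => exact ⟨0, zero_mem _, by simp, by simp⟩
  | insert i s hi ih =>
    obtain ⟨b, hb, h1, h2⟩ := ih (fun j hj => ha j (Finset.mem_insert_of_mem hj))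
    obtain ⟨d, hd, h3, h4⟩ := EvalB_zpow hπ hc (ha i (Finset.mem_insert_self i s)) (n i)
    obtain ⟨e, he, h5, h6⟩ := EvalB_mul hπ hc hd hb
    refine ⟨e, he, ?_, ?_⟩
    · rw [Finset.prod_insert hi, h1, h3, h5]
    · rw [Finset.sum_insert hi, h6, h4, h2]

/-- TASK S15/B-Eval-c.  **(V1)**  `evalD_eq_prod` over `D.support`, `val_one_add`, `prod_one_add`; `∑_{v ∈ supp D} D v • xt(rP v) = ∑_Q (rD D Q) • xt(Q) = 0`
(`rD = Finsupp.mapDomain (rP hG)`: `Finsupp.sum_mapDomain_index` for `h Q n := n • val Q xt`); `res b = 0 ↔ b ∈ m_A` (`res_eq_zero_iff V.π_surjective`). -/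
theorem evalD_one_add (hG : Good V y yt) {c : K} (hc : c ∈ A.nonunits) {x : F} {xt : Ft}
    (hx : V.Red x xt) (D : Divisor K F)
    (hreg : ∀ v, D v ≠ 0 → ∀ v', rP hG v' = rP hG v → Reg v' x) (hD : rD hG D = 0) :
    UnitOn (1 + algebraMap K F c * x) D ∧
      ∃ b ∈ A.nonunits, evalD (1 + algebraMap K F c * x) D = 1 + c * b := by
  classical
  have hv : ∀ v, D v ≠ 0 → val v x ∈ A ∧ res π (val v x) = val (rP hG v) xt ∧
      val v (1 + algebraMap K F c * x) = 1 + c * val v x ∧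
      v.ord (1 + algebraMap K F c * x) = 0 := fun v h => val_one_add hG hc hx (hreg v h)
  have hne : (1 + algebraMap K F c * x : F) ≠ 0 := by
    intro h0
    have hcx : V.Red (algebraMap K F c * x) (algebraMap k Ft (res π c) * xt) :=
      (V.red_const (A.nonunits_subset hc)).mul hx
    rw [(res_eq_zero_iff V.π_surjective (A.nonunits_subset hc)).2 hc, map_zero, zero_mul] at hcx
    have h1 : V.Red (1 + algebraMap K F c * x) (1 + 0) := V.red_one.add hcx
    rw [h0, add_zero] at h1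
    exact one_ne_zero (h1.unique V.red_zero)
  refine ⟨⟨hne, fun v h => (hv v h).2.2.2⟩, ?_⟩
  obtain ⟨b, hbA, hb, hres⟩ := prod_one_add V.π_surjective hc D.support (fun v => val v x)
    (fun v => D v) (fun v h => (hv v (Finsupp.mem_support_iff.1 h)).1)
  refine ⟨b, ?_, ?_⟩
  · rw [← res_eq_zero_iff V.π_surjective hbA, hres]
    have h1 : ∑ v ∈ D.support, D v • res π (val v x) =
        D.sum fun v n => n • val (rP hG v) xt := by
      rw [Finsupp.sum]
      exact Finset.sum_congr rfl fun v h => by rw [(hv v (Finsupp.mem_support_iff.1 h)).2.1]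
    have h2 : (Finsupp.mapDomain (rP hG) D).sum (fun Q n => n • val Q xt) =
        D.sum fun v n => n • val (rP hG v) xt :=
      Finsupp.sum_mapDomain_index (fun _ => zero_smul _ _) (fun _ _ _ => add_smul _ _ _)
    have h3 : Finsupp.mapDomain (rP hG) D = 0 := hD
    rw [h1, ← h2, h3, Finsupp.sum_zero_index]
  · rw [evalD_eq_prod _ D D.support subset_rfl, ← hb]
    exact Finset.prod_congr rfl fun v h => by rw [(hv v (Finsupp.mem_support_iff.1 h)).2.2.1]

/-- TASK S15/B-Eval-d.  **(V2)**  (`x` is NOT fixed.)  `Q := rP P`.  `exists_param_fix_at hG hR {Q} hP (by simp)`: `z` fixed, `Red z zt`, regular on the disc of `Q`, `z(P) = 0`, `ord_Q zt = 1`.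
`z(P') ∈ A` with residue `zt(Q) = 0` (`val_red`), and `FixK α (z(P'))` (`fixK_val`); a fixed element of `m_A` is in `ϖ A` (`hR.unif`: `c ϖ^n` a unit; `n ≥ 0` is impossible.. i.e. `c = unit * ϖ^(-n)` with `-n ≥ 1`;
or apply `hR.div_unif_mem` to the constant function `algebraMap K F c` and `V.algebraMap_mem_iff`).
`w := (x - x(P)) / z`: `Red w ((xt - xt(Q))/zt)` (`VFF.Red.div`, `zt ≠ 0`, `V.red_const`).  `w` is regular on the disc: `z` has a simple zero at `P` and no other zero in the disc (`exists_simple_zero_aux` / `ord_sub_val_eq_one` with `a = 0`),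
`x - x(P)` vanishes at `P` (`van_sub_val`).  `val_red` for `w`: `w(P') ∈ A`.  `x(P') - x(P) = w(P') z(P')` (`val_mul`; if `P' = P` trivial). -/
theorem val_sub_val_mem (hG : Good V y yt) {ϖ : K} (hR : RatStr α V ϖ y) {x : F} {xt : Ft}
    (hx : V.Red x xt) {P P' : Place K F} (hP : FixP α P) (hP' : FixP α P')
    (h : rP hG P' = rP hG P) (hreg : ∀ v, rP hG v = rP hG P → Reg v x) :
    ∃ a ∈ A, val P' x - val P x = ϖ * a := by
  obtain ⟨z, zt, hzfix, hzred, hzreg0, hzP, hzord, -⟩ :=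
    exists_param_fix_at hG hR {rP hG P} hP (Finset.mem_singleton_self _)
  have hzreg : ∀ v : Place K F, rP hG v = rP hG P → Reg v z := fun v hv =>
    hzreg0 v (by rw [hv]; exact Finset.mem_singleton_self _)
  have hzt0 : zt ≠ 0 := by
    rintro rfl
    rw [Place.ord_zero] at hzord
    exact zero_ne_one hzord
  have hz0 : z ≠ 0 := hzred.ne_zero hzt0
  have hvalzt : val (rP hG P) zt = 0 :=
    val_eq_zero_of_van _ (van_of_ord_pos _ (by rw [hzord]; exact one_pos))
  -- `z(P') ∈ ϖ A`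
  obtain ⟨hcA, hcres⟩ := (val_red hG hzred hzreg).2 P' h
  have hcfix : FixK α (val P' z) := fixK_val hP' hzfix
  have hcϖ : ϖ⁻¹ * val P' z ∈ A := by
    have h1 := V.red_const hcA
    rw [hcres, hvalzt, map_zero] at h1
    have h2 := hR.div_unif_mem (FixF.algebraMap hcfix) h1
    rw [← map_mul] at h2
    exact (V.algebraMap_mem_iff _).1 h2
  -- the zeros of `z` on the disc
  obtain ⟨-, v₁, hv₁, hv₁ord, hv₁other⟩ := exists_simple_zero_aux hG hzred hzreg
    (by rw [hvalzt, map_zero, sub_zero]; exact hzord) (a := 0) (zero_mem A)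
    (by rw [res_zero, hvalzt])
  rw [map_zero, sub_zero] at hv₁ord
  simp only [map_zero, sub_zero] at hv₁other
  have hPv₁ : P = v₁ := by
    by_contra hne
    have h1 := ord_pos_of_van P ((val_eq_zero_iff P (hzreg P rfl)).1 hzP) hz0
    rw [hv₁other P rfl hne] at h1
    exact lt_irrefl _ h1
  subst hPv₁
  -- the quotient
  obtain ⟨hx₀A, hx₀res⟩ := (val_red hG hx hreg).2 P rfl
  have hwred := (hx.sub (V.red_const hx₀A)).div hzred hzt0
  have hnumreg : ∀ v : Place K F, rP hG v = rP hG P → Reg v (x - algebraMap K F (val P x)) :=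
    fun v hv => (hreg v hv).sub v (reg_algebraMap v _)
  have hwreg : ∀ v : Place K F, rP hG v = rP hG P →
      Reg v ((x - algebraMap K F (val P x)) / z) := by
    intro v hv
    by_cases hnum : x - algebraMap K F (val P x) = 0
    · rw [hnum, zero_div]
      exact reg_zero v
    rw [reg_iff_ord, div_eq_mul_inv, v.ord_mul hnum (inv_ne_zero hz0), v.ord_inv]
    by_cases hvP : v = P
    · subst hvP
      have h1 := ord_pos_of_van v (van_sub_val v (hreg v rfl)) hnum
      rw [hv₁ord]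
      omega
    · rw [hv₁other v hv hvP]
      have h1 := (reg_iff_ord v).1 (hnumreg v hv)
      omega
  obtain ⟨hwA, -⟩ := (val_red hG hwred hwreg).2 P' h
  refine ⟨val P' ((x - algebraMap K F (val P x)) / z) * (ϖ⁻¹ * val P' z), mul_mem hwA hcϖ, ?_⟩
  have e1 : x - algebraMap K F (val P x) = (x - algebraMap K F (val P x)) / z * z :=
    (div_mul_cancel₀ _ hz0).symm
  have e2 := congrArg (val P') e1
  rw [val_sub P' (hreg P' h) (reg_algebraMap P' _), val_algebraMap,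
    val_mul P' (hwreg P' h) (hzreg P' h)] at e2
  rw [e2]
  have hϖ := hR.unif_ne
  field_simp

/-- helper (S15/B-Eval-e): `evalD` on a sum of points. -/
theorem EvalE_evalD_sum {ι : Type*} {f : F} (hf : f ≠ 0) (T : Finset ι) (P : ι → Place K F)
    (h : ∀ Q ∈ T, (P Q).ord f = 0) :
    UnitOn f (∑ Q ∈ T, Finsupp.single (P Q) (1 : ℤ) : Divisor K F) ∧
      evalD f (∑ Q ∈ T, Finsupp.single (P Q) (1 : ℤ) : Divisor K F) = ∏ Q ∈ T, val (P Q) f := by
  classical
  induction T using Finset.induction_on with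
  | empty =>
    refine ⟨?_, ?_⟩
    · rw [Finset.sum_empty]
      exact unitOn_zero hf
    · rw [Finset.sum_empty, Finset.prod_empty, evalD_zero]
  | insert Q T hQ ih =>
    obtain ⟨ih1, ih2⟩ := ih fun Q' hQ' => h Q' (Finset.mem_insert_of_mem hQ')
    have h1 : UnitOn f (Finsupp.single (P Q) (1 : ℤ) : Divisor K F) :=
      unitOn_single hf (h Q (Finset.mem_insert_self Q T)) 1
    refine ⟨?_, ?_⟩
    · rw [Finset.sum_insert hQ]
      exact h1.add ih1
    · rw [Finset.sum_insert hQ, Finset.prod_insert hQ, evalD_add h1 ih1, ih2, evalD_single,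
        zpow_one]

/-- helper (S15/B-Eval-e): a product of elements of `1 + c A` is in `1 + c A`  (`c ∈ A`). -/
theorem EvalE_prod_mem {ι : Type*} {c : K} (hc : c ∈ A) (T : Finset ι) (u : ι → K)
    (h : ∀ Q ∈ T, ∃ a ∈ A, u Q = 1 + c * a) : ∃ a ∈ A, ∏ Q ∈ T, u Q = 1 + c * a := by
  classical
  induction T using Finset.induction_on with
  | empty => exact ⟨0, A.zero_mem, by rw [Finset.prod_empty, mul_zero, add_zero]⟩
  | insert Q T hQ ih =>
    obtain ⟨b, hb, ihb⟩ := ih fun Q' hQ' => h Q' (Finset.mem_insert_of_mem hQ')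
    obtain ⟨a, ha, hua⟩ := h Q (Finset.mem_insert_self Q T)
    refine ⟨a + b + c * (a * b), A.add_mem _ _ (A.add_mem _ _ ha hb)
      (A.mul_mem _ _ hc (A.mul_mem _ _ ha hb)), ?_⟩
    rw [Finset.prod_insert hQ, ihb, hua]
    ring

/-- helper (S15/B-Eval-e): `1 + c a` is a unit of `A`. -/
theorem EvalE_one_add_unit {c a : K} (hc : c ∈ A.nonunits) (ha : a ∈ A) :
    1 + c * a ≠ 0 ∧ (1 + c * a)⁻¹ ∈ A := by
  have h1 : A.valuation (c * a) < 1 := by
    rw [map_mul]
    exact mul_lt_one_of_lt_of_le (A.mem_nonunits_iff.1 hc)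
      ((A.valuation_le_one_iff a).2 ha)
  have h2 : A.valuation (1 + c * a) = 1 := Valuation.map_one_add_of_lt _ h1
  refine ⟨fun h0 => ?_, ?_⟩
  · rw [h0, map_zero] at h2
    exact zero_ne_one h2
  · rw [← A.valuation_le_one_iff, map_inv₀, h2, inv_one]

/-- TASK S15/B-Eval-e.  **(V3)**  `evalD = ∏_{Q ∈ T} (1 + ϖ x(P' Q)) / (1 + ϖ x(P Q))` (`evalD_sub`, `evalD_add`/`Finset` induction, `evalD_single`, `val_one_add`); each factor is
`1 + ϖ (x(P'Q) - x(PQ)) / (1 + ϖ x(PQ)) = 1 + ϖ² a_Q`, `a_Q ∈ A` (`val_sub_val_mem`); a product of elements of `1 + ϖ² A` is in `1 + ϖ² A`. -/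
theorem evalD_one_add_fix (hG : Good V y yt) {ϖ : K} (hR : RatStr α V ϖ y) {x : F} {xt : Ft}
    (hx : V.Red x xt) (T : Finset (Place k Ft)) (P P' : Place k Ft → Place K F)
    (hP : ∀ Q ∈ T, FixP α (P Q) ∧ rP hG (P Q) = Q) (hP' : ∀ Q ∈ T, FixP α (P' Q) ∧ rP hG (P' Q) = Q)
    (hreg : ∀ v, rP hG v ∈ T → Reg v x) :
    ∃ a ∈ A, evalD (1 + algebraMap K F ϖ * x)
      (∑ Q ∈ T, Finsupp.single (P' Q) (1 : ℤ) - ∑ Q ∈ T, Finsupp.single (P Q) (1 : ℤ)) = 1 + ϖ ^ 2 * a := by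
  classical
  have hϖ : ϖ ∈ A.nonunits := hR.unif_nonunit
  have hϖA : ϖ ∈ A :=
    (A.valuation_le_one_iff ϖ).1 (A.mem_nonunits_iff.1 hϖ).le
  have hv : ∀ Q ∈ T, ∀ v : Place K F, rP hG v = Q →
      val v x ∈ A ∧ val v (1 + algebraMap K F ϖ * x) = 1 + ϖ * val v x ∧
        v.ord (1 + algebraMap K F ϖ * x) = 0 := by
    intro Q hQ v hvQ
    obtain ⟨h1, -, h3, h4⟩ := val_one_add hG hϖ hx (v := v)
      (fun v' hv' => hreg v' (by rw [hv', hvQ]; exact hQ))
    exact ⟨h1, h3, h4⟩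
  rcases T.eq_empty_or_nonempty with rfl | ⟨Q₀, hQ₀⟩
  · refine ⟨0, A.zero_mem, ?_⟩
    rw [Finset.sum_empty, Finset.sum_empty, sub_zero, evalD_zero, mul_zero, add_zero]
  have hf : (1 + algebraMap K F ϖ * x) ≠ 0 := by
    intro h0
    obtain ⟨h1, h3, -⟩ := hv Q₀ hQ₀ (P Q₀) (hP Q₀ hQ₀).2
    rw [h0, val_eq_zero_of_van (P Q₀) (van_zero (P Q₀))] at h3
    exact (EvalE_one_add_unit hϖ h1).1 h3.symm
  obtain ⟨hU, hE⟩ := EvalE_evalD_sum hf T P fun Q hQ => (hv Q hQ (P Q) (hP Q hQ).2).2.2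
  obtain ⟨hU', hE'⟩ := EvalE_evalD_sum hf T P' fun Q hQ => (hv Q hQ (P' Q) (hP' Q hQ).2).2.2
  rw [evalD_sub hU' hU, hE, hE', ← Finset.prod_div_distrib]
  refine EvalE_prod_mem (A.pow_mem hϖA 2) T _ fun Q hQ => ?_
  obtain ⟨h1, h3, -⟩ := hv Q hQ (P Q) (hP Q hQ).2
  obtain ⟨h1', h3', -⟩ := hv Q hQ (P' Q) (hP' Q hQ).2
  obtain ⟨a, ha, hsub⟩ := val_sub_val_mem hG hR hx (hP Q hQ).1 (hP' Q hQ).1
    (by rw [(hP Q hQ).2, (hP' Q hQ).2])
    (fun v hvv => hreg v (by rw [hvv, (hP Q hQ).2]; exact hQ))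
  obtain ⟨hne, hinv⟩ := EvalE_one_add_unit hϖ h1
  refine ⟨a * (1 + ϖ * val (P Q) x)⁻¹, A.mul_mem _ _ ha hinv, ?_⟩
  rw [h3, h3']
  have h5 : val (P' Q) x = val (P Q) x + ϖ * a := by rw [← hsub]; ring
  rw [h5]
  field_simp
  ring

/-- (helper, `S15/B-Eval-f`) integer powers of units of `A`. -/
theorem EvalF_zpow_mem {a : K} (ha : a ∈ A ∧ a⁻¹ ∈ A) (n : ℤ) : a ^ n ∈ A ∧ (a ^ n)⁻¹ ∈ A := by
  obtain ⟨m, rfl | rfl⟩ := n.eq_nat_or_neg
  · rw [zpow_natCast, ← inv_pow]
    exact ⟨pow_mem ha.1 m, pow_mem ha.2 m⟩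
  · rw [zpow_neg, zpow_natCast, inv_inv, ← inv_pow]
    exact ⟨pow_mem ha.2 m, pow_mem ha.1 m⟩

/-- (helper, `S15/B-Eval-f`) products of units of `A`. -/
theorem EvalF_prod_mem {ι : Type*} (s : Finset ι) (a : ι → K) (ha : ∀ i ∈ s, a i ∈ A ∧ (a i)⁻¹ ∈ A) :
    ∏ i ∈ s, a i ∈ A ∧ (∏ i ∈ s, a i)⁻¹ ∈ A := by
  refine Finset.prod_induction a (fun x => x ∈ A ∧ x⁻¹ ∈ A) ?_ ?_ ha
  · rintro x y ⟨hx, hx'⟩ ⟨hy, hy'⟩
    refine ⟨mul_mem hx hy, ?_⟩
    rw [mul_inv]
    exact mul_mem hx' hy'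
  · exact ⟨one_mem _, by rw [inv_one]; exact one_mem _⟩

/-- TASK S15/B-Eval-f.  **(V4)**  Scale: `Red (c f) ft`, `ft ≠ 0` (`V.exists_scale'`).  For `v` in the support: `ord_{rP v} ft = 0` (`ord_red_eq_zero`), `c f` is regular on the disc, so `(c f)(v) ∈ A` with residue `ft(rP v) ≠ 0`
(`val_red`, `cenA_val_ne_zero_of_ord_eq_zero`): a unit (`inv_mem_of_res_ne_zero`).  `evalD (c f) D = c^(deg D) evalD f D = evalD f D` (`evalD_mul`, `evalD_algebraMap`).  A product of integer powers of units is a unit. -/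
theorem evalD_mem_units (hG : Good V y yt) {f : F} (hf : f ≠ 0) (D : Divisor K F)
    (hdeg : Divisor.degree D = 0)
    (h : ∀ v, D v ≠ 0 → ∀ v', rP hG v' = rP hG v → v'.ord f = 0) :
    evalD f D ∈ A ∧ (evalD f D)⁻¹ ∈ A := by
  obtain ⟨c, ft, hc, hft, hred⟩ := V.exists_scale' hf
  have hcF : algebraMap K F c ≠ 0 := (map_ne_zero (algebraMap K F)).2 hc
  have hord : ∀ v' : Place K F, v'.ord (algebraMap K F c * f) = v'.ord f := by
    intro v'
    rw [Place.ord_mul _ hcF hf, Fermat.Agent.S24.FF.ord_algebraMap, zero_add]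
  have hU : UnitOn f D := ⟨hf, fun v hv => h v hv v rfl⟩
  have heq : evalD (algebraMap K F c * f) D = evalD f D := by
    rw [evalD_mul (unitOn_algebraMap hc D) hU, evalD_algebraMap hc, hdeg, zpow_zero, one_mul]
  rw [← heq, evalD_eq_prod _ D D.support subset_rfl]
  refine EvalF_prod_mem _ _ fun v hv => EvalF_zpow_mem ?_ _
  have hv' : D v ≠ 0 := Finsupp.mem_support_iff.1 hv
  have h0 : ∀ v' : Place K F, rP hG v' = rP hG v → v'.ord (algebraMap K F c * f) = 0 :=
    fun v' hv'' => by rw [hord, h v hv' v' hv'']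
  have h1 : (rP hG v).ord ft = 0 := ord_red_eq_zero hG hred hft h0
  obtain ⟨-, h2⟩ := Fermat.Agent.S19.Geo0.val_red hG hred
    (fun v' hv'' => (reg_iff_ord v').2 (h0 v' hv'').ge)
  obtain ⟨-, h3⟩ := h2 v rfl
  apply inv_mem_of_res_ne_zero V.π_surjective
  rw [h3]
  exact cenA_val_ne_zero_of_ord_eq_zero hft h1

/-- TASK S15/B-Eval-g.  **(V5)**  `Finsupp.induction_linear`; `σ • single v n = single (σ • v) n`, `rD_single`, `rP_smul`. -/
theorem rD_smul (hG : Good V y yt) {ϖ : K} (hR : RatStr α V ϖ y) (σ : Γ) (D : Divisor K F) :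
    rD hG (α σ • D) = rD hG D := by
  induction D using Finsupp.induction_linear with
  | zero => rw [smul_zero]
  | add D E hD hE => rw [smul_add, map_add, map_add, hD, hE]
  | single v n => rw [SemilinearAut.smul_single, rD_single, rD_single, rP_smul hG hR]

/-- TASK S15/B-Eval-g.  a divisor supported on fixed places is fixed. -/
theorem fixD_sum_single {ι : Type*} (s : Finset ι) (P : ι → Place K F) (n : ι → ℤ)
    (h : ∀ i ∈ s, FixP α (P i)) : FixD α (∑ i ∈ s, Finsupp.single (P i) (n i)) := by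
  intro σ
  rw [Finset.smul_sum]
  refine Finset.sum_congr rfl fun i hi => ?_
  rw [SemilinearAut.smul_single, h i hi σ]

/-- TASK S15/B-Eval-g.  `rD (∑ single (P Q) 1) = sumDiv T`. -/
theorem rD_sum_single (hG : Good V y yt) (T : Finset (Place k Ft)) (P : Place k Ft → Place K F)
    (h : ∀ Q ∈ T, rP hG (P Q) = Q) :
    rD hG (∑ Q ∈ T, Finsupp.single (P Q) (1 : ℤ)) = sumDiv T := by
  rw [map_sum, sumDiv]
  refine Finset.sum_congr rfl fun Q hQ => ?_
  rw [rD_single, h Q hQ]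

/-- TASK S15/B-Eval-g.  the support of an effective divisor lies over the support of its reduction (`RatPolar_apply_le_rD`, `sumDiv_apply_of_notMem`). -/
theorem rP_mem_of_ne_zero (hG : Good V y yt) {T : Finset (Place k Ft)} {D : Divisor K F}
    (hD : ∀ v, 0 ≤ D v) (hr : rD hG D = sumDiv T) {v : Place K F} (hv : D v ≠ 0) : rP hG v ∈ T := by
  by_contra hn
  have h1 := RatPolar_apply_le_rD hG hD v
  rw [hr, sumDiv_apply_of_notMem hn] at h1
  exact hv (le_antisymm h1 (hD v))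

end Fermat.Agent.S15.B
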