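import Fermat.Agent.S15.W.Interface

/-!
# S15 / B / Formula : (E4)  the Weil pairing of `σ g / g` with `t` as a Kummer cocycle   (pure `W`-calculus, no valuation)

`div g = e Y' - Y`, `σ Y = Y`, `div t = e Dt`, the supports of `Y', Y, σ Y'` are disjoint from those of `div t`, `div σ t`.
`β := t(Y') / g(Dt)`.  Then `β^e = t(Y)` and `e1(σ g / g, t) σ(β) = β * [(σ t / t)(σ Y') / (σ g)(σ Dt - Dt)]`.
-/

set_option autoImplicit false
set_option linter.unusedSectionVars false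

namespace Fermat.Agent.S15.B

open AlgebraicCurve Fermat.Agent.S26 Fermat.Agent.S37.Red Fermat.Agent.S15.W

variable {K F : Type*} [Field K] [Field F] [Algebra K F] [IsAlgClosed K] [CharZero K] [FF1 K F]

/-- the hypotheses of the formula. -/
structure FData (e : ℕ) (σ : SemilinearAut K F) (g t : F) (Y' Y Dt : Divisor K F) : Prop where
  g_ne : g ≠ 0
  t_ne : t ≠ 0
  div_g : divisorOf (Ω := K) g = (e : ℤ) • Y' - Y
  fix_Y : σ • Y = Y
  div_t : (e : ℤ) • Dt = divisorOf (Ω := K) t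
  disj : ∀ v : Place K F, (Y' v ≠ 0 ∨ Y v ≠ 0 ∨ (σ • Y') v ≠ 0) → v.ord t = 0 ∧ v.ord (σ • t) = 0

variable {e : ℕ} {σ : SemilinearAut K F} {g t : F} {Y' Y Dt : Divisor K F}

/-- TASK S15/B-Formula-a.  All the `UnitOn` facts.  (`Dt v ≠ 0 → ord_v t = e Dt v ≠ 0 → Y' v = Y v = (σ Y') v = 0 → ord_v g = 0` and `ord_v (σ g) = e (σ Y') v - (σ Y) v = 0`;
`(σ • Dt) v ≠ 0 → ord_v (σ t) ≠ 0` (`divisorOf (σ • t) = σ • divisorOf t`: see `W.Dv_smul`, `SemilinearAut.ord_smul`) → the same.) -/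
theorem FData.unitOn (he : e ≠ 0) (h : FData e σ g t Y' Y Dt) :
    UnitOn t Y' ∧ UnitOn t Y ∧ UnitOn t (σ • Y') ∧ UnitOn (σ • t) (σ • Y') ∧
      UnitOn g Dt ∧ UnitOn (σ • g) Dt ∧ UnitOn (σ • g) (σ • Dt) ∧ Disj K g t := by
  have heZ : (e : ℤ) ≠ 0 := Int.natCast_ne_zero.2 he
  have hσ : ∀ (f : F) (v : Place K F), v.ord (σ • f) = (σ⁻¹ • v).ord f := by
    intro f v
    have h1 := SemilinearAut.ord_smul σ (σ⁻¹ • v) f
    rwa [smul_inv_smul] at h1
  have hg : ∀ v : Place K F, v.ord g = (e : ℤ) * Y' v - Y v := by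
    intro v
    have h1 := DFunLike.congr_fun h.div_g v
    rwa [divisorOf_apply, Finsupp.sub_apply, Finsupp.smul_apply, smul_eq_mul] at h1
  have ht : ∀ v : Place K F, (e : ℤ) * Dt v = v.ord t := by
    intro v
    have h1 := DFunLike.congr_fun h.div_t v
    rwa [divisorOf_apply, Finsupp.smul_apply, smul_eq_mul] at h1
  have hσg : ∀ v : Place K F, v.ord (σ • g) = (e : ℤ) * (σ • Y') v - Y v := by
    intro v
    rw [hσ, hg, SemilinearAut.divisor_smul_apply]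
    congr 1
    rw [← SemilinearAut.divisor_smul_apply, h.fix_Y]
  have key : ∀ v : Place K F, (v.ord t ≠ 0 ∨ v.ord (σ • t) ≠ 0) →
      Y' v = 0 ∧ Y v = 0 ∧ (σ • Y') v = 0 := by
    intro v hv
    by_contra hn
    have h1 : Y' v ≠ 0 ∨ Y v ≠ 0 ∨ (σ • Y') v ≠ 0 := by
      by_contra h2
      push Not at h2
      exact hn h2
    obtain ⟨h2, h3⟩ := h.disj v h1
    rcases hv with hv | hv
    · exact hv h2
    · exact hv h3
  have hg0 : ∀ v : Place K F, (v.ord t ≠ 0 ∨ v.ord (σ • t) ≠ 0) →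
      v.ord g = 0 ∧ v.ord (σ • g) = 0 := by
    intro v hv
    obtain ⟨h1, h2, h3⟩ := key v hv
    rw [hg, hσg, h1, h2, h3]
    simp
  have hσg_ne : σ • g ≠ 0 := by simpa using h.g_ne
  have hσt_ne : σ • t ≠ 0 := by simpa using h.t_ne
  have hDt : ∀ v : Place K F, Dt v ≠ 0 → v.ord t ≠ 0 := by
    intro v hv
    rw [← ht]
    exact mul_ne_zero heZ hv
  refine ⟨⟨h.t_ne, fun v hv => (h.disj v (Or.inl hv)).1⟩,
    ⟨h.t_ne, fun v hv => (h.disj v (Or.inr (Or.inl hv))).1⟩,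
    ⟨h.t_ne, fun v hv => (h.disj v (Or.inr (Or.inr hv))).1⟩,
    ⟨hσt_ne, fun v hv => (h.disj v (Or.inr (Or.inr hv))).2⟩,
    ⟨h.g_ne, fun v hv => (hg0 v (Or.inl (hDt v hv))).1⟩,
    ⟨hσg_ne, fun v hv => (hg0 v (Or.inl (hDt v hv))).2⟩,
    ⟨hσg_ne, fun v hv => ?_⟩, fun v => ?_⟩
  · rw [SemilinearAut.divisor_smul_apply] at hv
    refine (hg0 v (Or.inr ?_)).2
    rw [hσ]
    exact hDt _ hv
  · by_cases h0 : v.ord t = 0
    · exact Or.inr h0
    · exact Or.inl (hg0 v (Or.inl h0)).1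

/-- TASK S15/B-Formula-b.  **(F1)**  `β^e = t(eY') / g(e Dt) = t(eY') / g(div t) = t(eY') / t(div g) = t(eY' - div g) = t(Y)`
(`evalD_zsmul`, `weil_reciprocity`, `evalD_sub`, `FData.unitOn`). -/
theorem FData.beta_pow (he : e ≠ 0) (h : FData e σ g t Y' Y Dt) :
    evalD t Y' / evalD g Dt ≠ 0 ∧ (evalD t Y' / evalD g Dt) ^ e = evalD t Y := by
  obtain ⟨h1, h2, -, -, h5, -, -, h8⟩ := h.unitOn he
  have n1 := h1.evalD_ne_zero
  have n2 := h2.evalD_ne_zero
  have n5 := h5.evalD_ne_zero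
  refine ⟨div_ne_zero n1 n5, ?_⟩
  have hA : evalD g Dt ^ e = evalD t Y' ^ e / evalD t Y := by
    have h9 := evalD_zsmul g Dt (e : ℤ)
    rw [h.div_t, weil_reciprocity h.g_ne h.t_ne h8, h.div_g, evalD_sub (h1.zsmul e) h2,
      evalD_zsmul, zpow_natCast, zpow_natCast] at h9
    exact h9.symm
  rw [div_pow, hA, div_div_eq_mul_div, mul_div_cancel_left₀ _ (pow_ne_zero e n1)]

/-- TASK S15/B-Formula-c.  **(F2)**  `div (σ g / g) = e (σ Y' - Y')` (as `σ Y = Y`), so `e1_eq_of_divisors` (`Df = σ Y' - Y'`, `Dg = Dt`) gives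
`e1 = (σ g / g)(Dt) / t(σ Y' - Y') = [(σ g)(Dt) / g(Dt)] [t(Y') / t(σ Y')]`;  `σ β = (σ t)(σ Y') / (σ g)(σ Dt)` (`evalD_smul`, `map_div₀`).  Multiply out (`evalD_div`, `evalD_sub`, `field_simp`; all values are `≠ 0`: `UnitOn.evalD_ne_zero`). -/
theorem FData.formula (he : e ≠ 0) (h : FData e σ g t Y' Y Dt) :
    e1 K e (σ • g / g) t * SemilinearAut.baseAut σ (evalD t Y' / evalD g Dt) =
      evalD t Y' / evalD g Dt * (evalD (σ • t / t) (σ • Y') / evalD (σ • g) (σ • Dt - Dt)) := by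
  obtain ⟨u1, -, u3, u4, u5, u6, u7, -⟩ := h.unitOn he
  have he' : (e : ℤ) ≠ 0 := Int.natCast_ne_zero.2 he
  have hσg : σ • g ≠ 0 := u6.1
  have hordg : ∀ v : Place K F, v.ord g = (e : ℤ) * Y' v - Y v := fun v => by
    have h1 := DFunLike.congr_fun h.div_g v
    rw [divisorOf_apply, Finsupp.sub_apply, Finsupp.smul_apply, smul_eq_mul] at h1
    exact h1
  have hordσg : ∀ v : Place K F, v.ord (σ • g) = (e : ℤ) * (σ • Y') v - Y v := fun v => by
    have h1 := SemilinearAut.ord_smul σ (σ⁻¹ • v) g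
    rw [smul_inv_smul] at h1
    have h2 : Y v = Y (σ⁻¹ • v) := by
      conv_lhs => rw [← h.fix_Y]
      rw [SemilinearAut.divisor_smul_apply]
    rw [h1, hordg, SemilinearAut.divisor_smul_apply, h2]
  have hDf : (e : ℤ) • (σ • Y' - Y') = divisorOf (Ω := K) (σ • g / g) := by
    ext v
    rw [divisorOf_apply, div_eq_mul_inv, v.ord_mul hσg (inv_ne_zero h.g_ne), v.ord_inv, hordσg,
      hordg, Finsupp.smul_apply, Finsupp.sub_apply, smul_eq_mul]
    ring
  have hdisj : ∀ v : Place K F, (σ • Y' - Y') v = 0 ∨ Dt v = 0 := by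
    intro v
    by_cases hv : Dt v = 0
    · exact Or.inr hv
    · left
      have h1 := DFunLike.congr_fun h.div_t v
      rw [divisorOf_apply, Finsupp.smul_apply, smul_eq_mul] at h1
      have h2 : v.ord t ≠ 0 := by
        rw [← h1]
        exact mul_ne_zero he' hv
      have h3 : Y' v = 0 := by
        by_contra h4
        exact h2 (h.disj v (Or.inl h4)).1
      have h5 : (σ • Y') v = 0 := by
        by_contra h4
        exact h2 (h.disj v (Or.inr (Or.inr h4))).1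
      rw [Finsupp.sub_apply, h3, h5, sub_zero]
  rw [e1_eq_of_divisors he (div_ne_zero hσg h.g_ne) h.t_ne hDf h.div_t hdisj, evalD_div u6 u5,
    evalD_sub u3 u1, map_div₀, ← evalD_smul, ← evalD_smul, evalD_div u4 u3, evalD_sub u7 u6]
  have n1 := u1.evalD_ne_zero
  have n3 := u3.evalD_ne_zero
  have n4 := u4.evalD_ne_zero
  have n5 := u5.evalD_ne_zero
  have n6 := u6.evalD_ne_zero
  have n7 := u7.evalD_ne_zero
  field_simp

end Fermat.Agent.S15.B
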