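import Fermat.Agent.S15.B.Move
import Fermat.Agent.S15.B.Eval0
import Fermat.Agent.S15.B.Formula
import Fermat.Agent.S15.B.End

/-!
# S15 / B / Core : the two abstract theorems (isotropy (E6), local condition at `e` (LOC_e))
-/

set_option autoImplicit false
set_option linter.unusedSectionVars false

namespace Fermat.Agent.S15.B

open AlgebraicCurve Fermat.Agent.S26 Fermat.Agent.S37.Red Fermat.Agent.S19.Geo0 Fermat.Agent.S15.W

variable {K k : Type*} [Field K] [Field k] {A : ValuationSubring K} {π : A →+* k}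
variable {F Ft : Type*} [Field F] [Field Ft] [Algebra K F] [Algebra k Ft]
variable [IsAlgClosed K] [CharZero K] [FF1 K F] [IsAlgClosed k] [FF1 k Ft]
variable {V : VFF A π F Ft} {y : F} {yt : Ft}
variable {Γ : Type*} [Group Γ] {α : Γ →* SemilinearAut K F}

/-- (helper) one half of the computation of `iso_norm`. -/
theorem CoreIso0_half (hG : Good V y yt) {e : ℕ} (he : e.Prime) (heA : (e : K) ∈ A.nonunits)
    {f g x : F} {xt : Ft} (hx : V.Red x xt) (hf : f = 1 + algebraMap K F (e : K) * x)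
    (hg : IsDm K e g) (hgr : V.Red g 1)
    (hdj : ∀ v v' : Place K F, rP hG v = rP hG v' → v.ord f = 0 ∨ v'.ord g = 0) :
    ∃ b ∈ A.nonunits, evalD f (Dv K e g) = 1 + (e : K) * b := by
  have he0 : e ≠ 0 := he.ne_zero
  have heK : (e : K) ≠ 0 := Nat.cast_ne_zero.2 he0
  have hrD : rD hG (Dv K e g) = 0 := by
    have h1 : (e : ℤ) • rD hG (Dv K e g) = 0 := by
      rw [← map_zsmul, nsmul_Dv hg, rD_divisorOf hG hgr one_ne_zero]
      ext Q
      rw [divisorOf_apply, Place.ord_one]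
      rfl
    exact (smul_eq_zero.1 h1).resolve_left (Int.natCast_ne_zero.2 he0)
  have hreg : ∀ v, Dv K e g v ≠ 0 → ∀ v', rP hG v' = rP hG v → Reg v' x := by
    intro v hv v' hvv'
    have hgv : v.ord g ≠ 0 := by
      intro h0
      apply hv
      rw [Dv_apply, h0, Int.zero_ediv]
    have h1 : v'.ord f = 0 := (hdj v' v hvv').resolve_right hgv
    have h2 : Reg v' f := (reg_iff_ord v').2 h1.ge
    have h3 : x = algebraMap K F (e : K)⁻¹ * (f - 1) := by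
      rw [hf, add_sub_cancel_left, ← mul_assoc, ← map_mul, inv_mul_cancel₀ heK, map_one, one_mul]
    rw [h3]
    exact Reg.mul v' (reg_algebraMap v' _) (Reg.sub v' h2 (reg_one v'))
  obtain ⟨-, b, hb, hbe⟩ := evalD_one_add hG heA hx (Dv K e g) hreg hrD
  exact ⟨b, hb, by rw [hf]; exact hbe⟩

/-- TASK S15/B-Core-Iso0.  The normalised case of (E6): `f₁ = 1 + e x₁`, `f₂ = 1 + e x₂` in `Dm`, and no residue disc meets both `div f₁` and `div f₂`.
Proof.  `Disj K f₁ f₂` (take `v' = v`), `e1_eq_E`, `E = evalD f₁ (Dv f₂) / evalD f₂ (Dv f₁)`.  `rD (Dv f₂) = 0`: `e • rD (Dv f₂) = rD (div f₂) = div 1 = 0` (`nsmul_Dv`, `rD_divisorOf` with `Red f₂ 1` from `One.red`), divisors are torsion free.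
`x₁` is regular on the discs meeting `Dv f₂`: there `ord f₁ = 0`, so `f₁` is regular and `x₁ = (f₁ - 1)/e`.  `evalD_one_add` twice: `E = (1 + e b₁)/(1 + e b₂) = 1 + e b` (`one_add_div_mul` with `b₃ = 0`); `E^e = 1` (`E_pow` / `e1_pow`); `eq_one_of_prime`. -/
theorem iso_norm (hG : Good V y yt) {e : ℕ} (he : e.Prime) (heA : (e : K) ∈ A.nonunits)
    {f₁ f₂ x₁ x₂ : F} {xt₁ xt₂ : Ft} (h₁ : V.Red x₁ xt₁) (h₂ : V.Red x₂ xt₂)
    (e₁ : f₁ = 1 + algebraMap K F (e : K) * x₁) (e₂ : f₂ = 1 + algebraMap K F (e : K) * x₂)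
    (hf₁ : IsDm K e f₁) (hf₂ : IsDm K e f₂)
    (hdisj : ∀ v v' : Place K F, rP hG v = rP hG v' → v.ord f₁ = 0 ∨ v'.ord f₂ = 0) :
    e1 K e f₁ f₂ = 1 := by
  have he0 : e ≠ 0 := he.ne_zero
  have hd : Disj K f₁ f₂ := fun v => hdisj v v rfl
  have r₁ : V.Red f₁ 1 := One.red heA ⟨x₁, xt₁, h₁, e₁⟩
  have r₂ : V.Red f₂ 1 := One.red heA ⟨x₂, xt₂, h₂, e₂⟩
  obtain ⟨b₁, hb₁, E₁⟩ := CoreIso0_half hG he heA h₁ e₁ hf₂ r₂ hdisj
  obtain ⟨b₂, hb₂, E₂⟩ := CoreIso0_half hG he heA h₂ e₂ hf₁ r₁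
    (fun v v' h => (hdisj v' v h.symm).symm)
  have h0 : (0 : K) ∈ A.nonunits := by
    rw [A.mem_nonunits_iff, map_zero]
    exact zero_lt_one
  obtain ⟨b, hb, hE⟩ := one_add_div_mul (A.nonunits_subset heA) hb₁ hb₂ h0
  rw [mul_zero, add_zero, mul_one] at hE
  refine eq_one_of_prime (A := A) he (e1_pow he0 hf₁ hf₂) hb ?_
  rw [e1_eq_E he0 hf₁ hf₂ hd, E, E₁, E₂, hE]

/-- TASK S15/B-Core-Iso.  **(E6) isotropy.**
Proof.  `iso_move hG he heA hf hd ∅`: `f₁ := c (f m^e) = 1 + e x₁`.  `B := rP '' {v | ord_v f₁ ≠ 0}` (finite: support of `divisorOf f₁`).  `iso_move .. hf' hd' B`: `f₂ := c' (f' m'^e) = 1 + e x₂` with `ord_v f₂ = 0` whenever `rP v ∈ B`.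
`iso_norm`.  `e1 f f' = e1 f₁ f₂`: `c = c₁^e` (`IsAlgClosed.exists_pow_nat_eq`), `f₁ = f (c₁ m)^e`, `e1_mul_pow_left`, `e1_mul_pow_right`. -/
theorem iso (hG : Good V y yt) {e : ℕ} (he : e.Prime) (heA : (e : K) ∈ A.nonunits) {f f' : F}
    (hf : IsDm K e f) (hf' : IsDm K e f') (hd : Dp V e f) (hd' : Dp V e f') : e1 K e f f' = 1 := by
  obtain ⟨c, m, x₁, xt₁, hc, hm, hx₁, e₁, -⟩ := iso_move hG he heA hf hd ∅ Set.finite_empty
  have hcF : algebraMap K F c ≠ 0 := (map_ne_zero (algebraMap K F)).2 hc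
  have hf₁0 : algebraMap K F c * (f * m ^ e) ≠ 0 :=
    mul_ne_zero hcF (mul_ne_zero hf.1 (pow_ne_zero _ hm))
  have hB : (rP hG '' {v : Place K F | v.ord (algebraMap K F c * (f * m ^ e)) ≠ 0}).Finite :=
    (finite_ord_ne_zero (Ω := K) hf₁0).image _
  obtain ⟨c', m', x₂, xt₂, hc', hm', hx₂, e₂, hoff⟩ := iso_move hG he heA hf' hd' _ hB
  have hcF' : algebraMap K F c' ≠ 0 := (map_ne_zero (algebraMap K F)).2 hc'
  obtain ⟨c₁, hc₁⟩ := IsAlgClosed.exists_pow_nat_eq c he.pos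
  obtain ⟨c₂, hc₂⟩ := IsAlgClosed.exists_pow_nat_eq c' he.pos
  have hc₁0 : c₁ ≠ 0 := by
    rintro rfl
    rw [zero_pow he.ne_zero] at hc₁
    exact hc hc₁.symm
  have hc₂0 : c₂ ≠ 0 := by
    rintro rfl
    rw [zero_pow he.ne_zero] at hc₂
    exact hc' hc₂.symm
  have hk₁ : algebraMap K F c₁ * m ≠ 0 := mul_ne_zero ((map_ne_zero (algebraMap K F)).2 hc₁0) hm
  have hk₂ : algebraMap K F c₂ * m' ≠ 0 := mul_ne_zero ((map_ne_zero (algebraMap K F)).2 hc₂0) hm'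
  have E₁ : algebraMap K F c * (f * m ^ e) = f * (algebraMap K F c₁ * m) ^ e := by
    rw [← hc₁, map_pow, mul_pow]
    ring
  have E₂ : algebraMap K F c' * (f' * m' ^ e) = f' * (algebraMap K F c₂ * m') ^ e := by
    rw [← hc₂, map_pow, mul_pow]
    ring
  have hD₁ : IsDm K e (algebraMap K F c * (f * m ^ e)) := by
    rw [E₁]
    exact hf.mul (isDm_pow e hk₁)
  have hD₂ : IsDm K e (algebraMap K F c' * (f' * m' ^ e)) := by
    rw [E₂]
    exact hf'.mul (isDm_pow e hk₂)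
  have hdisj : ∀ v v' : Place K F, rP hG v = rP hG v' →
      v.ord (algebraMap K F c * (f * m ^ e)) = 0 ∨
        v'.ord (algebraMap K F c' * (f' * m' ^ e)) = 0 := by
    intro v v' hvv
    by_cases h0 : v.ord (algebraMap K F c * (f * m ^ e)) = 0
    · exact Or.inl h0
    · right
      have hmem : rP hG v' ∈
          rP hG '' {v : Place K F | v.ord (algebraMap K F c * (f * m ^ e)) ≠ 0} :=
        ⟨v, h0, hvv⟩
      rw [v'.ord_mul hcF' (mul_ne_zero hf'.1 (pow_ne_zero _ hm')),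
        Fermat.Agent.S24.FF.ord_algebraMap, (hoff v' hmem).1, add_zero]
  have key := iso_norm hG he heA hx₁ hx₂ e₁ e₂ hD₁ hD₂ hdisj
  rw [E₁, E₂, e1_mul_pow_left he.ne_zero hf (hf'.mul (isDm_pow e hk₂)) hk₁,
    e1_mul_pow_right he.ne_zero hf hf' hk₂] at key
  exact key

/-- the data after moving: `g = 1 + e x`, `div g = e D₂ - ∑ P₃ - (e-1) ∑ P₀`, everything over `T`; `t = n w`, `n` fixed, `w = 1 + e xw`, `n` and `w` without zeros and poles over `T`. -/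
structure LData (hG : Good V y yt) (α : Γ →* SemilinearAut K F) (e : ℕ) (g n w x xw : F) (xt xwt : Ft)
    (T : Finset (Place k Ft)) (P₀ P₃ : Place k Ft → Place K F) (D₂ : Divisor K F) : Prop where
  red_x : V.Red x xt
  g_eq : g = 1 + algebraMap K F (e : K) * x
  fix₀ : ∀ Q ∈ T, FixP α (P₀ Q) ∧ rP hG (P₀ Q) = Q
  fix₃ : ∀ Q ∈ T, FixP α (P₃ Q) ∧ rP hG (P₃ Q) = Q
  D₂_nonneg : ∀ v, 0 ≤ D₂ v
  rD_D₂ : rD hG D₂ = sumDiv T
  div_g : divisorOf (Ω := K) g = (e : ℤ) • D₂ - ∑ Q ∈ T, Finsupp.single (P₃ Q) (1 : ℤ)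
        - ((e : ℤ) - 1) • ∑ Q ∈ T, Finsupp.single (P₀ Q) (1 : ℤ)
  n_ne : n ≠ 0
  fix_n : FixF α n
  red_xw : V.Red xw xwt
  w_eq : w = 1 + algebraMap K F (e : K) * xw
  isDm : IsDm K e (n * w)
  off : ∀ v : Place K F, rP hG v ∈ T → v.ord n = 0 ∧ v.ord w = 0

variable {hG : Good V y yt} {e : ℕ} {g n w x xw : F} {xt xwt : Ft} {T : Finset (Place k Ft)}
  {P₀ P₃ : Place k Ft → Place K F} {D₂ : Divisor K F}

theorem CoreFData_rP_mem (hG : Good V y yt) (T : Finset (Place k Ft))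
    (P : Place k Ft → Place K F) (h : ∀ Q ∈ T, rP hG (P Q) = Q) {v : Place K F}
    (hv : (∑ Q ∈ T, Finsupp.single (P Q) (1 : ℤ)) v ≠ 0) : rP hG v ∈ T := by
  classical
  rw [Finsupp.finsetSum_apply] at hv
  obtain ⟨Q, hQ, hQv⟩ := Finset.exists_ne_zero_of_sum_ne_zero hv
  have hPv : P Q = v := by
    by_contra hne
    exact hQv (Finsupp.single_eq_of_ne' hne)
  rw [← hPv, h Q hQ]
  exact hQ

/-- TASK S15/B-Core-FData.  `Y' := D₂ - ∑ P₀`, `Y := ∑ P₃ - ∑ P₀`, `Dt := Dv K e (n w)`.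
`div_g`: `e Y' - Y = e D₂ - ∑ P₃ - (e-1) ∑ P₀` (`module`/`abel` after `sub_smul`).  `fix_Y`: `fixD_sum_single`.  `div_t`: `nsmul_Dv`.
`disj`: a place in the support of `Y'`, `Y` lies over `T` (`rP_mem_of_ne_zero` for `D₂`; `Finsupp.single`/`Finset.sum` for the others); `(σ • Y') v = Y' (σ⁻¹ • v)` and `rP (σ⁻¹ v) = rP v` (`rP_smul`);
over `T`: `ord (n w) = ord n + ord w = 0`; `ord_v (σ • t) = ord_{σ⁻¹ v} t` (`SemilinearAut.ord_smul`). -/
theorem LData.fdata (h : LData hG α e g n w x xw xt xwt T P₀ P₃ D₂) (he : e.Prime)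
    (hR : RatStr α V (e : K) y) (s : Γ) :
    FData e (α s) g (n * w) (D₂ - ∑ Q ∈ T, Finsupp.single (P₀ Q) (1 : ℤ))
      (∑ Q ∈ T, Finsupp.single (P₃ Q) (1 : ℤ) - ∑ Q ∈ T, Finsupp.single (P₀ Q) (1 : ℤ))
      (Dv K e (n * w)) := by
  have hY' : ∀ v : Place K F, (D₂ - ∑ Q ∈ T, Finsupp.single (P₀ Q) (1 : ℤ)) v ≠ 0 →
      rP hG v ∈ T := by
    intro v hv
    by_cases h2 : D₂ v = 0
    · refine CoreFData_rP_mem hG T P₀ (fun Q hQ => (h.fix₀ Q hQ).2) (v := v) fun h0 => hv ?_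
      rw [Finsupp.sub_apply, h2, h0, sub_zero]
    · exact rP_mem_of_ne_zero hG h.D₂_nonneg h.rD_D₂ h2
  have hY : ∀ v : Place K F, (∑ Q ∈ T, Finsupp.single (P₃ Q) (1 : ℤ) -
      ∑ Q ∈ T, Finsupp.single (P₀ Q) (1 : ℤ)) v ≠ 0 → rP hG v ∈ T := by
    intro v hv
    by_cases h2 : (∑ Q ∈ T, Finsupp.single (P₃ Q) (1 : ℤ)) v = 0
    · refine CoreFData_rP_mem hG T P₀ (fun Q hQ => (h.fix₀ Q hQ).2) (v := v) fun h0 => hv ?_
      rw [Finsupp.sub_apply, h2, h0, sub_zero]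
    · exact CoreFData_rP_mem hG T P₃ (fun Q hQ => (h.fix₃ Q hQ).2) h2
  have hinv : ∀ v : Place K F, rP hG ((α s)⁻¹ • v) = rP hG v := by
    intro v
    rw [← map_inv]
    exact rP_smul hG hR s⁻¹ v
  have hord : ∀ v : Place K F, rP hG v ∈ T → v.ord (n * w) = 0 := by
    intro v hv
    have hw0 : w ≠ 0 := right_ne_zero_of_mul h.isDm.1
    rw [v.ord_mul h.n_ne hw0, (h.off v hv).1, (h.off v hv).2, add_zero]
  refine ⟨?_, h.isDm.1, ?_, ?_, nsmul_Dv h.isDm, ?_⟩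
  · exact One.ne_zero hR.unif_nonunit ⟨x, xt, h.red_x, h.g_eq⟩
  · rw [h.div_g]
    module
  · rw [smul_sub, fixD_sum_single (α := α) T P₃ (fun _ => 1) (fun Q hQ => (h.fix₃ Q hQ).1) s,
      fixD_sum_single (α := α) T P₀ (fun _ => 1) (fun Q hQ => (h.fix₀ Q hQ).1) s]
  · intro v hv
    have hvT : rP hG v ∈ T := by
      rcases hv with hv | hv | hv
      · exact hY' v hv
      · exact hY v hv
      · rw [SemilinearAut.divisor_smul_apply] at hv
        rw [← hinv v]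
        exact hY' _ hv
    refine ⟨hord v hvT, ?_⟩
    have h1 := SemilinearAut.ord_smul (α s) ((α s)⁻¹ • v) (n * w)
    rw [smul_inv_smul] at h1
    rw [h1]
    exact hord _ (by rw [hinv v]; exact hvT)

theorem CoreBeta_supp (h : LData hG α e g n w x xw xt xwt T P₀ P₃ D₂) (v : Place K F)
    (hv : (∑ Q ∈ T, Finsupp.single (P₃ Q) (1 : ℤ) - ∑ Q ∈ T, Finsupp.single (P₀ Q) (1 : ℤ)) v ≠ 0) :
    rP hG v ∈ T := by
  classical
  by_contra hT
  apply hv
  have key : ∀ P : Place k Ft → Place K F, (∀ Q ∈ T, rP hG (P Q) = Q) →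
      (∑ Q ∈ T, Finsupp.single (P Q) (1 : ℤ)) v = 0 := by
    intro P hP
    rw [Finsupp.finsetSum_apply]
    refine Finset.sum_eq_zero fun Q hQ => ?_
    rw [Finsupp.single_apply, if_neg]
    intro hPv
    apply hT
    rw [← hPv, hP Q hQ]
    exact hQ
  rw [Finsupp.sub_apply, key P₃ (fun Q hQ => (h.fix₃ Q hQ).2), key P₀ (fun Q hQ => (h.fix₀ Q hQ).2),
    sub_zero]

theorem CoreBeta_deg (T : Finset (Place k Ft)) (P₀ P₃ : Place k Ft → Place K F) :
    Divisor.degree (∑ Q ∈ T, Finsupp.single (P₃ Q) (1 : ℤ) - ∑ Q ∈ T, Finsupp.single (P₀ Q) (1 : ℤ))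
      = 0 := by
  rw [map_sub, map_sum, map_sum]
  simp only [Divisor.degree_single, deg_eq_one_of_isAlgClosed]
  simp

/-- TASK S15/B-Core-Beta.  `t(Y) = n(Y) w(Y)` (`evalD_mul`; `UnitOn` from `off`).  `u := n(Y)`: fixed (`evalD_smul`, `fix_n`, `fixD_sum_single`), a unit (`evalD_mem_units`: `deg Y = #T - #T = 0`, `off`).
`w(Y) = 1 + e² a` (`evalD_one_add_fix` with `ϖ = e`, `x = xw`; `xw = (w - 1)/e` is regular over `T` because `ord w = 0` there). -/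
theorem LData.beta (h : LData hG α e g n w x xw xt xwt T P₀ P₃ D₂) (he : e.Prime)
    (hR : RatStr α V (e : K) y) :
    ∃ u a : K, u ∈ A ∧ u⁻¹ ∈ A ∧ FixK α u ∧ a ∈ A ∧
      evalD (n * w) (∑ Q ∈ T, Finsupp.single (P₃ Q) (1 : ℤ) - ∑ Q ∈ T, Finsupp.single (P₀ Q) (1 : ℤ))
        = u * (1 + (e : K) ^ 2 * a) := by
  have hw0 : w ≠ 0 := right_ne_zero_of_mul h.isDm.1
  have he0 : (e : K) ≠ 0 := Nat.cast_ne_zero.2 he.ne_zero
  have hUn : UnitOn n (∑ Q ∈ T, Finsupp.single (P₃ Q) (1 : ℤ) - ∑ Q ∈ T, Finsupp.single (P₀ Q) (1 : ℤ)) :=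
    ⟨h.n_ne, fun v hv => (h.off v (CoreBeta_supp h v hv)).1⟩
  have hUw : UnitOn w (∑ Q ∈ T, Finsupp.single (P₃ Q) (1 : ℤ) - ∑ Q ∈ T, Finsupp.single (P₀ Q) (1 : ℤ)) :=
    ⟨hw0, fun v hv => (h.off v (CoreBeta_supp h v hv)).2⟩
  have hreg : ∀ v, rP hG v ∈ T → Reg v xw := by
    intro v hv
    have hrw : Reg v w := (reg_iff_ord v).2 (h.off v hv).2.ge
    have hxw : xw = algebraMap K F ((e : K)⁻¹) * (w - 1) := by
      rw [h.w_eq, add_sub_cancel_left, ← mul_assoc, ← map_mul, inv_mul_cancel₀ he0, map_one, one_mul]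
    rw [hxw]
    exact Reg.mul v (reg_algebraMap v _) (Reg.sub v hrw (reg_one v))
  obtain ⟨a, ha, hea⟩ := evalD_one_add_fix hG hR h.red_xw T P₀ P₃ h.fix₀ h.fix₃ hreg
  obtain ⟨hu1, hu2⟩ := evalD_mem_units hG h.n_ne _ (CoreBeta_deg T P₀ P₃)
    (fun v hv v' hv' => (h.off v' (hv' ▸ CoreBeta_supp h v hv)).1)
  refine ⟨_, a, hu1, hu2, ?_, ha, ?_⟩
  · intro σ
    have hD : FixD α (∑ Q ∈ T, Finsupp.single (P₃ Q) (1 : ℤ) - ∑ Q ∈ T, Finsupp.single (P₀ Q) (1 : ℤ)) :=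
      (fixD_sum_single T P₃ (fun _ => 1) (fun Q hQ => (h.fix₃ Q hQ).1)).sub
        (fixD_sum_single T P₀ (fun _ => 1) (fun Q hQ => (h.fix₀ Q hQ).1))
    have := evalD_smul (α σ) n
      (∑ Q ∈ T, Finsupp.single (P₃ Q) (1 : ℤ) - ∑ Q ∈ T, Finsupp.single (P₀ Q) (1 : ℤ))
    rw [h.fix_n σ, hD σ] at this
    exact this.symm
  · rw [evalD_mul hUn hUw, ← hea, ← h.w_eq]

/-- (helper, Eps) `x = (f - 1)/c` is regular where `f = 1 + c x` has order `0`. -/
theorem CoreEps_reg {c : K} (hc : c ≠ 0) {f x : F} (hf : f = 1 + algebraMap K F c * x)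
    {v : Place K F} (hv : v.ord f = 0) : Reg v x := by
  have hx : x = algebraMap K F c⁻¹ * (f - 1) := by
    rw [hf, add_sub_cancel_left, ← mul_assoc, ← map_mul, inv_mul_cancel₀ hc, map_one, one_mul]
  rw [hx]
  exact Reg.mul v (reg_algebraMap v _) (Reg.sub v ((reg_iff_ord v).2 hv.ge) (reg_one v))

/-- (helper, Eps) `σ (1 + e x) = 1 + e σ x`. -/
theorem CoreEps_smul (σ : SemilinearAut K F) (e : ℕ) (x : F) :
    σ • (1 + algebraMap K F (e : K) * x) = 1 + algebraMap K F (e : K) * (σ • x) := by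
  rw [smul_add, smul_one, smul_mul', SemilinearAut.smul_algebraMap, map_natCast]

/-- (helper, Eps) a sum of points over `T` vanishes off `T`. -/
theorem CoreEps_sum_single_apply (hG : Good V y yt) (T : Finset (Place k Ft))
    (P : Place k Ft → Place K F) (hP : ∀ Q ∈ T, rP hG (P Q) = Q) {v : Place K F}
    (hv : rP hG v ∉ T) : (∑ Q ∈ T, Finsupp.single (P Q) (1 : ℤ)) v = 0 := by
  classical
  rw [Finsupp.finsetSum_apply]
  refine Finset.sum_eq_zero fun Q hQ => ?_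
  rw [Finsupp.single_apply, if_neg]
  rintro rfl
  exact hv (by rw [hP Q hQ]; exact hQ)

/-- (helper, Eps) `rP (σ⁻¹ v) = rP v`. -/
theorem CoreEps_rP_inv_smul (hG : Good V y yt) {ϖ : K} (hR : RatStr α V ϖ y) (s : Γ)
    (v : Place K F) : rP hG ((α s)⁻¹ • v) = rP hG v := by
  have h := rP_smul hG hR s ((α s)⁻¹ • v)
  rw [smul_inv_smul] at h
  exact h.symm

/-- (helper, Eps) the support of `Y'` lies over `T`. -/
theorem LData.CoreEps_supp (h : LData hG α e g n w x xw xt xwt T P₀ P₃ D₂) {v : Place K F}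
    (hv : (D₂ - ∑ Q ∈ T, Finsupp.single (P₀ Q) (1 : ℤ)) v ≠ 0) : rP hG v ∈ T := by
  by_contra hT
  apply hv
  rw [Finsupp.sub_apply, CoreEps_sum_single_apply hG T P₀ (fun Q hQ => (h.fix₀ Q hQ).2) hT,
    sub_zero]
  by_contra h0
  exact hT (rP_mem_of_ne_zero hG h.D₂_nonneg h.rD_D₂ h0)

/-- (helper, Eps) `g` has order `0` off `T`. -/
theorem LData.CoreEps_ord_g (h : LData hG α e g n w x xw xt xwt T P₀ P₃ D₂) {v : Place K F}
    (hv : rP hG v ∉ T) : v.ord g = 0 := by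
  have h1 := DFunLike.congr_fun h.div_g v
  have h2 : D₂ v = 0 := by
    by_contra h0
    exact hv (rP_mem_of_ne_zero hG h.D₂_nonneg h.rD_D₂ h0)
  rw [divisorOf_apply, Finsupp.sub_apply, Finsupp.sub_apply, Finsupp.smul_apply,
    Finsupp.smul_apply, CoreEps_sum_single_apply hG T P₀ (fun Q hQ => (h.fix₀ Q hQ).2) hv,
    CoreEps_sum_single_apply hG T P₃ (fun Q hQ => (h.fix₃ Q hQ).2) hv, h2] at h1
  simpa using h1

/-- (helper, Eps) the support of `Dt` lies off `T`. -/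
theorem LData.CoreEps_supp_Dt (h : LData hG α e g n w x xw xt xwt T P₀ P₃ D₂) {v : Place K F}
    (hv : Dv K e (n * w) v ≠ 0) : rP hG v ∉ T := by
  intro hT
  apply hv
  obtain ⟨h1, h2⟩ := h.off v hT
  rw [Dv_apply, v.ord_mul h.n_ne (right_ne_zero_of_mul h.isDm.1), h1, h2, add_zero,
    Int.zero_ediv]

/-- TASK S15/B-Core-Eps.  `σ := α s`.  `σ (n w) / (n w) = σ w / w` (`fix_n`), `σ w = 1 + e (σ xw)` (`smul_add`, `smul_mul'`, `σ • algebraMap c = algebraMap (baseAut σ c)`, `map_natCast`), `Red (σ xw) xwt` (`hR.red_smul`).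
(1) `(σ w)(σ Y') = 1 + e b₁`, `w(σ Y') = 1 + e b₂`: `evalD_one_add` with `D = σ Y'`, `rD (σ Y') = rD Y' = sumDiv T - sumDiv T = 0` (`rD_smul`, `rD_sum_single`), regularity over `T` as in `LData.beta` (for `σ xw`: `Reg v (σ • f) ↔ Reg (σ⁻¹ v) f`, `rP_smul`).
(2) `(σ g)(σ Dt - Dt) = 1 + e b₃`: `σ g = 1 + e (σ x)`; `rD (σ Dt - Dt) = 0`; the support of `Dt`, `σ Dt` lies over places `Q ∉ T` (by `off`: over `T`, `ord (n w) = 0`); over `Q ∉ T` `g` has order `0` (`div_g`, `rP_mem_of_ne_zero`), so `x` and `σ x` are regular.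
`one_add_div_mul`. -/
theorem LData.eps (h : LData hG α e g n w x xw xt xwt T P₀ P₃ D₂) (he : e.Prime)
    (hR : RatStr α V (e : K) y) (s : Γ) :
    ∃ b ∈ A.nonunits,
      evalD (α s • (n * w) / (n * w)) (α s • (D₂ - ∑ Q ∈ T, Finsupp.single (P₀ Q) (1 : ℤ))) /
        evalD (α s • g) (α s • Dv K e (n * w) - Dv K e (n * w)) = 1 + (e : K) * b := by
  have he0 : (e : K) ≠ 0 := Nat.cast_ne_zero.2 he.ne_zero
  have heA : (e : K) ∈ A.nonunits := hR.unif_nonunit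
  -- step 0
  have e0 : α s • (n * w) / (n * w) = α s • w / w := by
    rw [smul_mul', h.fix_n s, mul_div_mul_left _ _ h.n_ne]
  have ew : α s • w = 1 + algebraMap K F (e : K) * (α s • xw) := by
    conv_lhs => rw [h.w_eq]
    exact CoreEps_smul _ _ _
  have eg : α s • g = 1 + algebraMap K F (e : K) * (α s • x) := by
    conv_lhs => rw [h.g_eq]
    exact CoreEps_smul _ _ _
  -- regularity over `T`
  have hregw : ∀ v : Place K F, rP hG v ∈ T → Reg v xw := fun v hv =>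
    CoreEps_reg he0 h.w_eq (h.off v hv).2
  have hregw' : ∀ v : Place K F, rP hG v ∈ T → Reg v (α s • xw) := by
    intro v hv
    have h1 := reg_smul_iff ((α s)⁻¹ • v) (α s) (f := xw)
    rw [smul_inv_smul] at h1
    rw [h1]
    exact hregw _ (by rw [CoreEps_rP_inv_smul hG hR]; exact hv)
  -- regularity off `T`
  have hregx : ∀ v : Place K F, rP hG v ∉ T → Reg v x := fun v hv =>
    CoreEps_reg he0 h.g_eq (h.CoreEps_ord_g hv)
  have hregx' : ∀ v : Place K F, rP hG v ∉ T → Reg v (α s • x) := by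
    intro v hv
    have h1 := reg_smul_iff ((α s)⁻¹ • v) (α s) (f := x)
    rw [smul_inv_smul] at h1
    rw [h1]
    exact hregx _ (by rw [CoreEps_rP_inv_smul hG hR]; exact hv)
  -- the divisor `σ Y'`
  have hsupp : ∀ v : Place K F,
      (α s • (D₂ - ∑ Q ∈ T, Finsupp.single (P₀ Q) (1 : ℤ))) v ≠ 0 → rP hG v ∈ T := by
    intro v hv
    rw [SemilinearAut.divisor_smul_apply] at hv
    have h1 := h.CoreEps_supp hv
    rwa [CoreEps_rP_inv_smul hG hR] at h1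
  have hrD : rD hG (α s • (D₂ - ∑ Q ∈ T, Finsupp.single (P₀ Q) (1 : ℤ))) = 0 := by
    rw [rD_smul hG hR, map_sub, h.rD_D₂, rD_sum_single hG T P₀ (fun Q hQ => (h.fix₀ Q hQ).2),
      sub_self]
  obtain ⟨hu₁, b₁, hb₁, hv₁⟩ := evalD_one_add hG heA (hR.red_smul s _ _ h.red_xw) _
    (fun v hv v' hv' => hregw' v' (by rw [hv']; exact hsupp v hv)) hrD
  obtain ⟨hu₂, b₂, hb₂, hv₂⟩ := evalD_one_add hG heA h.red_xw _
    (fun v hv v' hv' => hregw v' (by rw [hv']; exact hsupp v hv)) hrD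
  -- the divisor `σ Dt - Dt`
  have hsupp' : ∀ v : Place K F,
      (α s • Dv K e (n * w) - Dv K e (n * w)) v ≠ 0 → rP hG v ∉ T := by
    intro v hv
    by_cases h0 : Dv K e (n * w) v = 0
    · rw [Finsupp.sub_apply, h0, sub_zero, SemilinearAut.divisor_smul_apply] at hv
      have h1 := h.CoreEps_supp_Dt hv
      rwa [CoreEps_rP_inv_smul hG hR] at h1
    · exact h.CoreEps_supp_Dt h0
  have hrD' : rD hG (α s • Dv K e (n * w) - Dv K e (n * w)) = 0 := by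
    rw [map_sub, rD_smul hG hR, sub_self]
  obtain ⟨-, b₃, hb₃, hv₃⟩ := evalD_one_add hG heA (hR.red_smul s _ _ h.red_x) _
    (fun v hv v' hv' => hregx' v' (by rw [hv']; exact hsupp' v hv)) hrD'
  obtain ⟨b, hb, hbe⟩ := one_add_div_mul (A.nonunits_subset heA) hb₁ hb₂ hb₃
  refine ⟨b, hb, ?_⟩
  rw [← ew] at hu₁ hv₁
  rw [← h.w_eq] at hu₂ hv₂
  rw [← eg] at hv₃
  rw [e0, evalD_div hu₁ hu₂, hv₁, hv₂, hv₃, div_div, hbe]

/-- (helper for `LData.e1_eq_one`) `div (σ g / g) = e (σ Y' - Y')`. -/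
theorem CoreLocN_isDm {σ : SemilinearAut K F} {g' t' : F} {Y' Y Dt : Divisor K F}
    (hF : FData e σ g' t' Y' Y Dt) : IsDm K e (σ • g' / g') := by
  have hσg : σ • g' ≠ 0 := (smul_ne_zero_iff_ne σ).2 hF.g_ne
  refine ⟨div_ne_zero hσg hF.g_ne, fun v => ?_⟩
  rw [Fermat.Agent.S24.FF.ord_div v hσg hF.g_ne]
  have h1 : ∀ v : Place K F, v.ord g' = e * Y' v - Y v := by
    intro v
    have := DFunLike.congr_fun hF.div_g v
    rw [divisorOf_apply, Finsupp.sub_apply, Finsupp.smul_apply, smul_eq_mul] at this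
    exact this
  have h2 : v.ord (σ • g') = e * Y' (σ⁻¹ • v) - Y v := by
    have h3 := SemilinearAut.ord_smul σ (σ⁻¹ • v) g'
    rw [smul_inv_smul] at h3
    rw [h3, h1]
    have h4 : Y (σ⁻¹ • v) = Y v := by
      rw [← SemilinearAut.divisor_smul_apply, hF.fix_Y]
    rw [h4]
  rw [h1 v, h2]
  exact ⟨Y' (σ⁻¹ • v) - Y' v, by ring⟩

/-- TASK S15/B-Core-LocN.  The normalised case of (LOC_e).
`FData.beta_pow`, `FData.formula` (for `h.fdata he hR s`), `h.beta`, `h.eps`; `end_lemma he hR.unif_nonunit (baseAut (α s))` with `ω := e1 ..` (`e1_pow`; `IsDm (σ g / g)`: its divisor is `e (σ Y' - Y')`),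
`hsA` from `hR.base_mem s` and `res_eq_res_iff`, `hdeep` from `hs` (`1` and `u` are fixed units). -/
theorem LData.e1_eq_one (h : LData hG α e g n w x xw xt xwt T P₀ P₃ D₂) (he : e.Prime)
    (hR : RatStr α V (e : K) y) (s : Γ)
    (hs : ∀ z : K, z ^ e ∈ A → (z ^ e)⁻¹ ∈ A → FixK α (z ^ e) → SemilinearAut.baseAut (α s) z = z) :
    e1 K e (α s • g / g) (n * w) = 1 := by
  have hF := h.fdata he hR s
  obtain ⟨hβ0, hβe⟩ := hF.beta_pow he.ne_zero
  have hform := hF.formula he.ne_zero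
  obtain ⟨u, a, hu, hu', hufix, ha, hY⟩ := h.beta he hR
  obtain ⟨b, hb, heps⟩ := h.eps he hR s
  have hu0 : u ≠ 0 := by
    rintro rfl
    rw [hY, zero_mul] at hβe
    exact hβ0 (pow_eq_zero_iff he.ne_zero |>.1 hβe)
  have hω : e1 K e (α s • g / g) (n * w) ^ e = 1 :=
    e1_pow he.ne_zero (CoreLocN_isDm hF) h.isDm
  refine end_lemma he hR.unif_nonunit (SemilinearAut.baseAut (α s)) ?_ hu0 hu hu' ?_ ha
    (hβe.trans hY) hb hω ?_
  · intro a' ha'
    obtain ⟨h1, h2⟩ := hR.base_mem s ha'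
    exact ⟨h1, (res_eq_res_iff V.π_surjective h1 ha').1 h2⟩
  · rintro z (hz | hz)
    · exact hs z (by rw [hz]; exact hu) (by rw [hz]; exact hu') (by rw [hz]; exact hufix)
    · exact hs z (by rw [hz]; exact one_mem A) (by rw [hz, inv_one]; exact one_mem A)
        (by rw [hz]; exact FixK.one)
  · rw [hform, heps]

/-- TASK S15/B-Core-Loc.  **(LOC_e)**
Proof.  `t = c n m^e w` (`htE`), `w = 1 + e xw`.  `B := rP '' ({v | ord_v n ≠ 0} ∪ {v | ord_v w ≠ 0})`, finite.  `loc_move hG he hR hg0 hg hgE B`: `g' := c' (g m'^e / n') = 1 + e x` etc.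
`LData hG α e g' n w x xw ..` (`isDm`: `n w = t * ((c₁ m)⁻¹)^e`, `c₁^e = c`; `off`: `Q ∈ T → Q ∉ B`; `div_g`: a constant does not change the divisor).  `LData.e1_eq_one`.
`α s • g' / g' = (α s • g / g) * k^e`, `k := c₂ (α s • m' / m')`, `c₂^e = baseAut (α s) c' / c'` (`n'` is fixed): `e1_mul_pow_left`; `t = (n w) (c₁ m)^e`: `e1_mul_pow_right`. -/
theorem loc (hG : Good V y yt) {e : ℕ} (he : e.Prime) (hR : RatStr α V (e : K) y) {g t : F}
    (hg0 : g ≠ 0) (hg : ∀ σ : Γ, IsDm K e (α σ • g / g)) (hgE : GE α V e g)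
    (ht : IsDm K e t) (htE : GE α V e t) (s : Γ)
    (hs : ∀ z : K, z ^ e ∈ A → (z ^ e)⁻¹ ∈ A → FixK α (z ^ e) → SemilinearAut.baseAut (α s) z = z) :
    e1 K e (α s • g / g) t = 1 := by
  classical
  obtain ⟨c, n, m, w, hc, hn, hnfix, hm, ⟨xw, xwt, hxw, hw⟩, hteq⟩ := htE
  have heA := hR.unif_nonunit
  have hw0 : w ≠ 0 := One.ne_zero heA ⟨xw, xwt, hxw, hw⟩
  have hB : (rP hG '' ({v : Place K F | v.ord n ≠ 0} ∪ {v : Place K F | v.ord w ≠ 0})).Finite :=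
    ((finite_ord_ne_zero (Ω := K) hn).union (finite_ord_ne_zero (Ω := K) hw0)).image _
  obtain ⟨c', m', n', x, xt, T, P₀, P₃, D₂, hc', hm', hn', hn'fix, hx, hgeq, hTB, hP₀, hP₃, hD₂,
    hrD₂, hdiv⟩ := loc_move hG he hR hg0 hg hgE _ hB
  obtain ⟨c₁, hc₁⟩ := IsAlgClosed.exists_pow_nat_eq c he.pos
  have hc₁0 : c₁ ≠ 0 := by
    rintro rfl
    rw [zero_pow he.ne_zero] at hc₁
    exact hc hc₁.symm
  have hac : algebraMap K F c ≠ 0 := (map_ne_zero _).2 hc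
  have hac₁ : algebraMap K F c₁ ≠ 0 := (map_ne_zero _).2 hc₁0
  have hac' : algebraMap K F c' ≠ 0 := (map_ne_zero _).2 hc'
  have hk0 : algebraMap K F c₁ * m ≠ 0 := mul_ne_zero hac₁ hm
  have ht' : t = n * w * (algebraMap K F c₁ * m) ^ e := by
    rw [hteq, mul_pow, ← map_pow, hc₁]
    ring
  have hnw : n * w = t * ((algebraMap K F c₁ * m)⁻¹) ^ e := by
    rw [ht', inv_pow, mul_assoc, mul_inv_cancel₀ (pow_ne_zero _ hk0), mul_one]
  have hDmnw : IsDm K e (n * w) := by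
    rw [hnw]
    exact ht.mul (isDm_pow e (inv_ne_zero hk0))
  have hgm0 : g * m' ^ e / n' ≠ 0 := div_ne_zero (mul_ne_zero hg0 (pow_ne_zero _ hm')) hn'
  have hL : LData hG α e (algebraMap K F c' * (g * m' ^ e / n')) n w x xw xt xwt T P₀ P₃ D₂ :=
    { red_x := hx
      g_eq := hgeq
      fix₀ := hP₀
      fix₃ := hP₃
      D₂_nonneg := hD₂
      rD_D₂ := hrD₂
      div_g := by
        rw [divisorOf_mul hac' hgm0, hdiv]
        have h0 : divisorOf (Ω := K) (algebraMap K F c') = 0 := by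
          ext v
          rw [divisorOf_apply, Fermat.Agent.S24.FF.ord_algebraMap, Finsupp.zero_apply]
        rw [h0, zero_add]
      n_ne := hn
      fix_n := hnfix
      red_xw := hxw
      w_eq := hw
      isDm := hDmnw
      off := fun v hv => by
        have hvB := hTB _ hv
        constructor
        · by_contra h0
          exact hvB ⟨v, Or.inl h0, rfl⟩
        · by_contra h0
          exact hvB ⟨v, Or.inr h0, rfl⟩ }
  have h1 := hL.e1_eq_one he hR s hs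
  obtain ⟨c₂, hc₂⟩ := IsAlgClosed.exists_pow_nat_eq (SemilinearAut.baseAut (α s) c' / c') he.pos
  have hbc' : SemilinearAut.baseAut (α s) c' ≠ 0 := (map_ne_zero _).2 hc'
  have hc₂0 : c₂ ≠ 0 := by
    rintro rfl
    rw [zero_pow he.ne_zero] at hc₂
    exact div_ne_zero hbc' hc' hc₂.symm
  have hsm' : α s • m' ≠ 0 := (smul_ne_zero_iff_ne (α s)).2 hm'
  have hkey : α s • (algebraMap K F c' * (g * m' ^ e / n')) /
      (algebraMap K F c' * (g * m' ^ e / n')) =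
      (α s • g / g) * (algebraMap K F c₂ * (α s • m' / m')) ^ e := by
    rw [smul_mul', SemilinearAut.smul_algebraMap, div_eq_mul_inv (g * m' ^ e) n', smul_mul',
      smul_mul', smul_pow', smul_inv'', hn'fix s, mul_pow, ← map_pow, hc₂, map_div₀, div_pow]
    generalize α s • g = G
    generalize α s • m' = Mm
    generalize algebraMap K F (SemilinearAut.baseAut (α s) c') = a
    field_simp
  rw [hkey, e1_mul_pow_left he.ne_zero (hg s) hDmnw
    (mul_ne_zero ((map_ne_zero _).2 hc₂0) (div_ne_zero hsm' hm'))] at h1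
  rw [ht', e1_mul_pow_right he.ne_zero (hg s) hDmnw hk0]
  exact h1

end Fermat.Agent.S15.B
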