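import Fermat.Agent.S19.Geo0.Rat
import Fermat.Agent.S15.W.Interface

/-!
# S15 / B (the prime `e`, good reduction) : depth predicates

Abstract setting of `S19/Geo0`: `K ⊇ A → k`, `F/K`, `Ft/k` function fields, `V : VFF A π F Ft` the Gauss valuation, `Γ` acting through `α` (inertia).

* `One V c f` : `f = 1 + c x`, `x ∈ O`                                   (`f ∈ 1 + c O`);
* `Dp V e f`  : `f = c m ^ e w`, `c ∈ K^×`, `w ∈ 1 + e O`                  (depth `≥ 1` up to constants and `e`-th powers);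
* `GE α V e f`: `f = c n m ^ e w`, `n` fixed by `Γ`, `w ∈ 1 + e O`.
-/

set_option autoImplicit false
set_option linter.unusedSectionVars false

namespace Fermat.Agent.S15.B

open AlgebraicCurve Fermat.Agent.S26 Fermat.Agent.S37.Red Fermat.Agent.S19.Geo0 Fermat.Agent.S15.W

variable {K k : Type*} [Field K] [Field k] {A : ValuationSubring K} {π : A →+* k}
variable {F Ft : Type*} [Field F] [Field Ft] [Algebra K F] [Algebra k Ft]
variable {Γ : Type*} [Group Γ]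

/-- `f ∈ 1 + c O`. -/
def One (V : VFF A π F Ft) (c : K) (f : F) : Prop :=
  ∃ (x : F) (xt : Ft), V.Red x xt ∧ f = 1 + algebraMap K F c * x

/-- `f ∈ K^× (F^×)^e (1 + e O)`. -/
def Dp (V : VFF A π F Ft) (e : ℕ) (f : F) : Prop :=
  ∃ (c : K) (m w : F), c ≠ 0 ∧ m ≠ 0 ∧ One V (e : K) w ∧ f = algebraMap K F c * m ^ e * w

/-- `f ∈ K^× (F^Γ)^× (F^×)^e (1 + e O)`. -/
def GE (α : Γ →* SemilinearAut K F) (V : VFF A π F Ft) (e : ℕ) (f : F) : Prop :=
  ∃ (c : K) (n m w : F), c ≠ 0 ∧ n ≠ 0 ∧ FixF α n ∧ m ≠ 0 ∧ One V (e : K) w ∧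
    f = algebraMap K F c * n * m ^ e * w

variable {V : VFF A π F Ft} {α : Γ →* SemilinearAut K F}

/-! ### TASK S15/B-Depth : formal properties (all 5-15 lines; `VFF.Red.add/mul/inv`, `VFF.red_const`, `res_eq_zero_iff`) -/

theorem one_one (c : K) : One V c (1 : F) := by
  exact ⟨0, 0, V.red_zero, by rw [mul_zero, add_zero]⟩

/-- `c ∈ m_A`: `Red (c x) 0` (`V.red_const`, `res_eq_zero_iff V.π_surjective`), so `Red (1 + c x) 1`. -/
theorem One.red {c : K} (hc : c ∈ A.nonunits) {f : F} (h : One V c f) : V.Red f 1 := by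
  obtain ⟨x, xt, hx, rfl⟩ := h
  have hcA : c ∈ A := mem_of_mem_nonunits hc
  have h1 := (V.red_const hcA).mul hx
  rw [(res_eq_zero_iff V.π_surjective hcA).2 hc, map_zero, zero_mul] at h1
  have h2 := V.red_one.add h1
  rwa [add_zero] at h2

theorem One.ne_zero {c : K} (hc : c ∈ A.nonunits) {f : F} (h : One V c f) : f ≠ 0 := by
  exact (h.red hc).ne_zero one_ne_zero

/-- `(1 + c x)(1 + c x') = 1 + c (x + x' + c x x')`  (`c ∈ A`). -/
theorem One.mul {c : K} (hc : c ∈ A) {f f' : F} (h : One V c f) (h' : One V c f') :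
    One V c (f * f') := by
  obtain ⟨x, xt, hx, rfl⟩ := h
  obtain ⟨x', xt', hx', rfl⟩ := h'
  exact ⟨x + x' + algebraMap K F c * (x * x'), _,
    (hx.add hx').add ((V.red_const hc).mul (hx.mul hx')), by ring⟩

/-- `(1 + c x)⁻¹ = 1 + c (- x (1 + c x)⁻¹)`, and `Red (1 + c x)⁻¹ 1`. -/
theorem One.inv {c : K} (hc : c ∈ A.nonunits) {f : F} (h : One V c f) : One V c f⁻¹ := by
  have hred := (h.red hc).inv one_ne_zero
  have hf0 := h.ne_zero hc
  obtain ⟨x, xt, hx, rfl⟩ := h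
  refine ⟨-(x * (1 + algebraMap K F c * x)⁻¹), _, (hx.mul hred).neg, ?_⟩
  field_simp
  ring

theorem One.div {c : K} (hc : c ∈ A.nonunits) {f f' : F} (h : One V c f) (h' : One V c f') :
    One V c (f / f') := by
  rw [div_eq_mul_inv]
  exact h.mul (mem_of_mem_nonunits hc) (h'.inv hc)

/-- `1 + c (d x)`. -/
theorem One.mono {c d : K} (hd : d ∈ A) {f : F} (h : One V (c * d) f) : One V c f := by
  obtain ⟨x, xt, hx, rfl⟩ := h
  exact ⟨algebraMap K F d * x, _, (V.red_const hd).mul hx, by rw [map_mul, mul_assoc]⟩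

theorem Dp.ne_zero {e : ℕ} (he : (e : K) ∈ A.nonunits) {f : F} (h : Dp V e f) : f ≠ 0 := by
  obtain ⟨c, m, w, hc, hm, hw, rfl⟩ := h
  exact mul_ne_zero (mul_ne_zero ((map_ne_zero _).2 hc) (pow_ne_zero _ hm)) (hw.ne_zero he)

theorem Dp.mul_pow {e : ℕ} {f m : F} (h : Dp V e f) (hm : m ≠ 0) : Dp V e (f * m ^ e) := by
  obtain ⟨c, m', w, hc, hm', hw, rfl⟩ := h
  exact ⟨c, m' * m, w, hc, mul_ne_zero hm' hm, hw, by rw [_root_.mul_pow]; ring⟩

theorem Dp.const_mul {e : ℕ} {f : F} (h : Dp V e f) {c : K} (hc : c ≠ 0) :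
    Dp V e (algebraMap K F c * f) := by
  obtain ⟨c', m, w, hc', hm, hw, rfl⟩ := h
  exact ⟨c * c', m, w, mul_ne_zero hc hc', hm, hw, by rw [map_mul]; ring⟩

theorem One.dp {e : ℕ} {f : F} (h : One V (e : K) f) : Dp V e f := by
  exact ⟨1, 1, f, one_ne_zero, one_ne_zero, h, by rw [map_one, one_pow, one_mul, one_mul]⟩

theorem Dp.gE {e : ℕ} {f : F} (h : Dp V e f) : GE α V e f := by
  obtain ⟨c, m, w, hc, hm, hw, rfl⟩ := h
  exact ⟨c, 1, m, w, hc, one_ne_zero, FixF.one, hm, hw, by rw [mul_one]⟩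

theorem GE.ne_zero {e : ℕ} (he : (e : K) ∈ A.nonunits) {f : F} (h : GE α V e f) : f ≠ 0 := by
  obtain ⟨c, n, m, w, hc, hn, -, hm, hw, rfl⟩ := h
  exact mul_ne_zero (mul_ne_zero (mul_ne_zero ((map_ne_zero _).2 hc) hn) (pow_ne_zero _ hm))
    (hw.ne_zero he)

/-- multiply by `m ^ e / n`, `n` fixed. -/
theorem GE.mul_pow_div {e : ℕ} {f m n : F} (h : GE α V e f) (hm : m ≠ 0) (hn : n ≠ 0)
    (hfix : FixF α n) : GE α V e (f * m ^ e / n) := by
  obtain ⟨c, n', m', w, hc, hn', hfix', hm', hw, rfl⟩ := h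
  refine ⟨c, n' * n⁻¹, m' * m, w, hc, mul_ne_zero hn' (inv_ne_zero hn), hfix'.mul hfix.inv,
    mul_ne_zero hm' hm, hw, ?_⟩
  rw [mul_pow, div_eq_mul_inv]
  ring

end Fermat.Agent.S15.B
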