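import Fermat.Agent.S15.B.Core
import Fermat.Agent.S15.B.Raise.Main
import Fermat.Agent.S15.B.Desc.Main
import Fermat.Agent.S15.W.Mod
import Fermat.Agent.ES.Glue.Iota

/-!
# S15 / B / Export : the two theorems of `B/Core` for the modular function field `FF N` at a prime `e ∤ N`

`Y ≤ Kum N e` a subgroup on which `T_e` is bijective (e.g. the Eisenstein part, on which `T_e - 1 - e` is nilpotent).
* `isotropic` : the classes of `Y` with a representative which is constant mod `A` (`SS.RedConst A`) are pairwise orthogonal for the Weil pairing `W.e1N`;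
* `deep`      : for `g` with `[σ g / g] ∈ Y` (`σ ∈ I_A`) and `s` in the deep inertia group: `[s g / g] ⊥ Y`.
-/

set_option autoImplicit false

open AlgebraicCurve ModularCurve

namespace Fermat.Agent.S15.B

open Fermat.Agent.ES Fermat.Agent.S37.Mod Fermat.Agent.S19.Mod Fermat.Agent.S15.W

/-- TASK S15/B-Exp-Iter (Mathlib only).  `g : Y → Y`, `y ↦ T y` is surjective, hence bijective (`Finite.injective_iff_surjective`), an element of the finite group `Equiv.Perm Y`: `n := orderOf`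
(`orderOf_pos`, `pow_orderOf_eq_one`); same proof as `S33.Good.Pkg.exists_iterate_eq` (`S33/Good/G2.lean`, l. 49-73: copy it). -/
theorem exists_iterate_eq {Q : Type*} [AddCommGroup Q] [Finite Q] (T : Q →+ Q) (Y : AddSubgroup Q)
    (hT : ∀ y ∈ Y, T y ∈ Y) (hsurj : ∀ y ∈ Y, ∃ y' ∈ Y, T y' = y) :
    ∃ n : ℕ, 1 ≤ n ∧ ∀ y ∈ Y, T^[n] y = y := by
  classical
  let g : Y → Y := fun y => ⟨T y, hT y y.2⟩
  have hgs : Function.Surjective g := by
    rintro ⟨y, hy⟩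
    obtain ⟨y', hy', e⟩ := hsurj y hy
    exact ⟨⟨y', hy'⟩, Subtype.ext e⟩
  have hgb : Function.Bijective g := ⟨Finite.injective_iff_surjective.mpr hgs, hgs⟩
  let e : Equiv.Perm Y := Equiv.ofBijective g hgb
  have hiter : ∀ (n : ℕ) (y : Y), ((g^[n] y : Y) : Q) = T^[n] (y : Q) := by
    intro n y
    induction n with
    | zero => rfl
    | succ n ih =>
      rw [Function.iterate_succ_apply', Function.iterate_succ_apply', ← ih]
  refine ⟨orderOf e, orderOf_pos e, fun y hy => ?_⟩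
  have h1 : (e ^ orderOf e) ⟨y, hy⟩ = ⟨y, hy⟩ := by
    rw [pow_orderOf_eq_one]
    rfl
  rw [← Equiv.Perm.iterate_eq_pow] at h1
  have h2 := hiter (orderOf e) ⟨y, hy⟩
  have h3 : (g^[orderOf e] ⟨y, hy⟩ : Y) = ⟨y, hy⟩ := h1
  rw [h3] at h2
  exact h2.symm

variable (N e : ℕ) [NeZero N] [NeZero e] (he : e.Prime) (heN : ¬ e ∣ N) {A : ValuationSubring Qb}

/-- TASK S15/B-Exp-Iter. -/
theorem iterate_heckeU_mem_Dm (k : ℕ) {f : (FF N)ˣ} (hf : f ∈ Dm N e) :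
    (heckeU N e he heN)^[k] f ∈ Dm N e := by
  induction k with
  | zero => exact hf
  | succ k ih =>
    rw [Function.iterate_succ_apply']
    exact heckeU_mem_Dm N e he heN ih

/-- TASK S15/B-Exp-Iter.  induction on `k`, `Function.iterate_succ_apply'`, `heckeKum_mk`. -/
theorem iterate_heckeKum_mk (k : ℕ) (f : Dm N e) :
    (heckeKum N e he heN e)^[k] (Kum.mk f)
      = Kum.mk ⟨(heckeU N e he heN)^[k] f, iterate_heckeU_mem_Dm N e he heN k f.2⟩ := by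
  induction k with
  | zero => rfl
  | succ k ih =>
    rw [Function.iterate_succ_apply', ih, heckeKum_mk]
    congr 1
    apply Subtype.ext
    show heckeU N e he heN ((heckeU N e he heN)^[k] (f : (FF N)ˣ))
      = (heckeU N e he heN)^[k + 1] (f : (FF N)ˣ)
    rw [Function.iterate_succ_apply']

/-- TASK S15/B-Exp-Iter.  `galU_heckeU`, `map_div`; induction on `k`. -/
theorem iterate_heckeU_gal_div (k : ℕ) (σ : GQ) (g : (FF N)ˣ) :
    galU N σ ((heckeU N e he heN)^[k] g) / (heckeU N e he heN)^[k] g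
      = (heckeU N e he heN)^[k] (galU N σ g / g) := by
  induction k with
  | zero => rfl
  | succ k ih =>
    rw [Function.iterate_succ_apply', Function.iterate_succ_apply', ← ih, map_div, galU_heckeU]

/-- iterating a period. -/
theorem ExpIso_iterate_mul {Q : Type*} (T : Q → Q) (Y : Set Q) {n : ℕ} (hn : ∀ y ∈ Y, T^[n] y = y)
    (k : ℕ) : ∀ y ∈ Y, T^[n * k] y = y := by
  intro y hy
  rw [Function.iterate_mul]
  induction k with
  | zero => rfl
  | succ k ih => rw [Function.iterate_succ_apply, hn y hy, ih]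

omit [NeZero e] in
/-- the output of `Raise.raise_redConst` is `B.Dp`. -/
theorem ExpIso_dp {f : FF N} {c : Qb} {m : (FF N)ˣ} {x : FF N} (hc : c ≠ 0)
    (hx : x ∈ (gaussVFF N A).O)
    (h : f = algebraMap Qb (FF N) c * (m : FF N) ^ e * (1 + algebraMap Qb (FF N) (e : Qb) * x)) :
    Dp (gaussVFF N A) e f := by
  obtain ⟨xt, hxt⟩ := (gaussVFF N A).exists_red hx
  exact ⟨c, m, _, hc, m.ne_zero, ⟨x, xt, hxt, rfl⟩, h⟩

/-- TASK S15/B-Exp-Iso.  **isotropy.**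
Proof.  `Desc.exists_good N e he heN hA`: `hG`, `hR` (`Geo0.Inst.αI = S19.Mod.αI` by `rfl`: `exact`/`show`).  `Finite (Kum N e)`: `ES.Glue.finite_Kum he.pos`.  `exists_iterate_eq`: `T^[n] = id` on `Y`, so `T^[n * k] = id` on `Y` (`Function.iterate_mul`, induction).
`a = Kum.mk u`, `u` `RedConst`: `Raise.raise_redConst he heN hA hG hR u hu`: for `k ≥ k₀`: `heckeU^[k] u = c * m^e * (1 + e x)`, `x ∈ O`, i.e. `B.Dp (gaussVFF N A) e _` (`VFF.exists_red`).  The same for `b = Kum.mk u'`.  Take `k := n * max k₀ k₀'` (`≥ max` as `n ≥ 1`).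
`a = T^[k] a = Kum.mk ⟨heckeU^[k] u, _⟩` (`iterate_heckeKum_mk`), `e1N_mk he.ne_zero`, `B.iso hG he hR.unif_nonunit` (`IsDm Qb e f := ⟨f.ne_zero, hf⟩`). -/
theorem isotropic (hA : A.LiesOverPrime e) (Y : AddSubgroup (Kum N e))
    (hT : ∀ y ∈ Y, heckeKum N e he heN e y ∈ Y)
    (hsurj : ∀ y ∈ Y, ∃ y' ∈ Y, heckeKum N e he heN e y' = y)
    (u u' : Dm N e) (hu : SS.RedConst A ((u : (FF N)ˣ) : FF N))
    (hu' : SS.RedConst A ((u' : (FF N)ˣ) : FF N)) (ha : Kum.mk u ∈ Y) (hb : Kum.mk u' ∈ Y) :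
    e1N (Kum.mk u) (Kum.mk u') = 1 := by
  obtain ⟨y, yt, hG, hR⟩ := Desc.exists_good N e he heN hA
  have hR' : S19.Geo0.RatStr (S19.Mod.αI N A) (gaussVFF N A) (e : Qb) y := hR
  have hfin : Finite (Kum N e) := ES.Glue.finite_Kum he.pos
  obtain ⟨n, hn1, hn⟩ := exists_iterate_eq (heckeKum N e he heN e) Y hT hsurj
  obtain ⟨k₀, hk₀⟩ := Raise.raise_redConst he heN hA hG hR' u hu
  obtain ⟨k₁, hk₁⟩ := Raise.raise_redConst he heN hA hG hR' u' hu'
  have hk : max k₀ k₁ ≤ n * max k₀ k₁ := Nat.le_mul_of_pos_left _ hn1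
  obtain ⟨c, m, x, hc, hx, h⟩ := hk₀ (n * max k₀ k₁) ((le_max_left _ _).trans hk)
  obtain ⟨c', m', x', hc', hx', h'⟩ := hk₁ (n * max k₀ k₁) ((le_max_right _ _).trans hk)
  have e₁ := ExpIso_iterate_mul (heckeKum N e he heN e) (Y : Set (Kum N e)) hn (max k₀ k₁) _ ha
  have e₂ := ExpIso_iterate_mul (heckeKum N e he heN e) (Y : Set (Kum N e)) hn (max k₀ k₁) _ hb
  rw [iterate_heckeKum_mk] at e₁ e₂
  rw [← e₁, ← e₂, e1N_mk he.ne_zero]
  exact iso hG he hR'.unif_nonunit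
    ⟨Units.ne_zero _, iterate_heckeU_mem_Dm N e he heN _ u.2⟩
    ⟨Units.ne_zero _, iterate_heckeU_mem_Dm N e he heN _ u'.2⟩
    (ExpIso_dp N e hc hx h) (ExpIso_dp N e hc' hx' h')

/-- TASK S15/B-Exp-Deep.  **the local condition at `e`.**
Proof.  `hG`, `hR`, `n` as for `isotropic`.  `t = Kum.mk f`.  `Raise.raise .. g`, `Raise.raise .. f`: for `k` large `g_k := heckeU^[k] g` and `f_k := heckeU^[k] f` satisfy `B.GE (αI N A) (gaussVFF N A) e _`
(`FixF` from `S19.Mod.fixF_iff`).  `k := n * max ..`.  `Kum.mk f = Kum.mk ⟨f_k, _⟩`;  `Kum.mk ⟨galU s g / g, _⟩ = T^[k] (..) = Kum.mk ⟨heckeU^[k] (galU s g / g), _⟩ = Kum.mk ⟨galU s g_k / g_k, _⟩` (`iterate_heckeU_gal_div`).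
`e1N_mk`; `B.loc hG he hR` with `Γ = ↥(A.inertiaSubgroupIn ℚ)`, `α = αI N A`, `s := ⟨s, hs⟩`: `αI N A σ • (g : FF N) = galF N σ g` is `rfl` (`S19.Mod.gal_smul_eq_galF`), `baseAut (αI N A σ) z = σ z` is `rfl` (`baseAut_gal`),
`FixK` via `S19.Mod.fixK_iff`; `hg` for `g_k`: `iterate_heckeU_gal_div` + `iterate_heckeU_mem_Dm`. -/
theorem deep (hA : A.LiesOverPrime e) (Y : AddSubgroup (Kum N e))
    (hT : ∀ y ∈ Y, heckeKum N e he heN e y ∈ Y)
    (hsurj : ∀ y ∈ Y, ∃ y' ∈ Y, heckeKum N e he heN e y' = y)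
    (g : (FF N)ˣ) (hg : ∀ σ ∈ A.inertiaSubgroupIn ℚ, galU N σ g / g ∈ Dm N e)
    (hgY : ∀ (σ : GQ) (hσ : σ ∈ A.inertiaSubgroupIn ℚ), Kum.mk ⟨galU N σ g / g, hg σ hσ⟩ ∈ Y)
    {s : GQ} (hs : s ∈ A.inertiaSubgroupIn ℚ)
    (hs' : ∀ z : Qb, z ^ e ∈ A → (z ^ e)⁻¹ ∈ A → (∀ σ ∈ A.inertiaSubgroupIn ℚ, σ (z ^ e) = z ^ e) →
      s z = z)
    {t : Kum N e} (ht : t ∈ Y) :
    e1N (Kum.mk ⟨galU N s g / g, hg s hs⟩) t = 1 := by
  obtain ⟨y, yt, hG, hR0⟩ := Desc.exists_good N e he heN hA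
  have hR : S19.Geo0.RatStr (S19.Mod.αI N A) (gaussVFF N A) (e : Qb) y := hR0
  have : Finite (Kum N e) := ES.Glue.finite_Kum he.pos
  obtain ⟨n, hn1, hn⟩ := exists_iterate_eq (heckeKum N e he heN e) Y hT hsurj
  have hnk : ∀ k : ℕ, ∀ y ∈ Y, (heckeKum N e he heN e)^[n * k] y = y := by
    intro k
    induction k with
    | zero =>
      intro y _
      rw [mul_zero]
      rfl
    | succ k ih =>
      intro y hy
      rw [Nat.mul_succ, Function.iterate_add_apply, hn y hy, ih y hy]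
  obtain ⟨f, rfl⟩ := Kum.mk_surjective t
  obtain ⟨k₁, hk₁⟩ := Raise.raise he heN hA hG hR g
  obtain ⟨k₂, hk₂⟩ := Raise.raise he heN hA hG hR (f : (FF N)ˣ)
  have hmax : max k₁ k₂ ≤ n * max k₁ k₂ := Nat.le_mul_of_pos_left _ hn1
  have hkk₁ : n * max k₁ k₂ ≥ k₁ := le_trans (le_max_left _ _) hmax
  have hkk₂ : n * max k₁ k₂ ≥ k₂ := le_trans (le_max_right _ _) hmax
  have hGE : ∀ h : (FF N)ˣ, (∃ (c : Qb) (n m : (FF N)ˣ) (x : FF N), c ≠ 0 ∧
      (∀ σ ∈ A.inertiaSubgroupIn ℚ, galF N σ (n : FF N) = n) ∧ x ∈ (gaussVFF N A).O ∧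
      (h : FF N) = algebraMap Qb (FF N) c * n * (m : FF N) ^ e *
        (1 + algebraMap Qb (FF N) (e : Qb) * x)) →
      GE (S19.Mod.αI N A) (gaussVFF N A) e (h : FF N) := by
    rintro h ⟨c, n', m, x, hc, hfix, hx, hh⟩
    obtain ⟨xt, hxt⟩ := (gaussVFF N A).exists_red hx
    exact ⟨c, n', m, _, hc, n'.ne_zero, S19.Mod.fixF_iff.2 hfix, m.ne_zero, ⟨x, xt, hxt, rfl⟩, hh⟩
  have hgE := hGE _ (hk₁ _ hkk₁)
  have hfE := hGE _ (hk₂ _ hkk₂)
  have hf_eq : Kum.mk f = Kum.mk ⟨(heckeU N e he heN)^[n * max k₁ k₂] f,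
      iterate_heckeU_mem_Dm N e he heN _ f.2⟩ := by
    rw [← iterate_heckeKum_mk, hnk _ _ ht]
  have hgD : ∀ σ ∈ A.inertiaSubgroupIn ℚ,
      galU N σ ((heckeU N e he heN)^[n * max k₁ k₂] g) / (heckeU N e he heN)^[n * max k₁ k₂] g
        ∈ Dm N e := by
    intro σ hσ
    rw [iterate_heckeU_gal_div]
    exact iterate_heckeU_mem_Dm N e he heN _ (hg σ hσ)
  have hg_eq : Kum.mk ⟨galU N s g / g, hg s hs⟩ = Kum.mk ⟨_, hgD s hs⟩ := by
    refine (hnk (max k₁ k₂) _ (hgY s hs)).symm.trans ((iterate_heckeKum_mk N e he heN _ _).trans ?_)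
    refine congrArg Kum.mk (Subtype.ext ?_)
    exact (iterate_heckeU_gal_div N e he heN _ s g).symm
  rw [hg_eq, hf_eq, e1N_mk he.ne_zero]
  have key := loc (α := S19.Mod.αI N A) hG he hR
    (g := (((heckeU N e he heN)^[n * max k₁ k₂] g : (FF N)ˣ) : FF N))
    (t := (((heckeU N e he heN)^[n * max k₁ k₂] (f : (FF N)ˣ) : (FF N)ˣ) : FF N))
    (Units.ne_zero _)
    (fun σ => ⟨div_ne_zero ((galU N σ ((heckeU N e he heN)^[n * max k₁ k₂] g)).ne_zero)
      (Units.ne_zero _), fun v => by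
        have := hgD σ σ.2 v
        rwa [Units.val_div_eq_div_val] at this⟩)
    hgE ⟨Units.ne_zero _, iterate_heckeU_mem_Dm N e he heN _ f.2⟩ hfE ⟨s, hs⟩
    (fun z h1 h2 h3 => hs' z h1 h2 (S19.Mod.fixK_iff.1 h3))
  rw [Units.val_div_eq_div_val]
  exact key

end Fermat.Agent.S15.B
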