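import Fermat.Agent.S15.B.Depth

/-!
# S15 / B / Move : moving lemmas (E3)

`T` = a non special set of `g` places of `Ft` (`Geo0.exists_nonspecial_finset`), off a given finite set `B`.
Every class is moved so that its divisor is supported in the residue discs of `T`, WITHOUT losing the depth.
-/

set_option autoImplicit false
set_option linter.unusedSectionVars false

namespace Fermat.Agent.S15.B

open AlgebraicCurve Fermat.Agent.S26 Fermat.Agent.S37.Red Fermat.Agent.S19.Geo0 Fermat.Agent.S15.W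

variable {K k : Type*} [Field K] [Field k] {A : ValuationSubring K} {π : A →+* k}
variable {F Ft : Type*} [Field F] [Field Ft] [Algebra K F] [Algebra k Ft]
variable [IsAlgClosed K] [CharZero K] [FF1 K F] [IsAlgClosed k] [FF1 k Ft]
variable {V : VFF A π F Ft} {y : F} {yt : Ft}
variable {Γ : Type*} [Group Γ] {α : Γ →* SemilinearAut K F}

/-- TASK S15/B-Move-Const.  A function without zeros and poles is constant (`ft ∈ LSpace 0`, `S26`: `finrank (LSpace 0) = 1` / `LSpace_zero`; look for the lemma used in `Geo0.eq_of_effective_of_finrank_eq_one`). -/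
theorem exists_const_of_divisorOf_eq_zero {Ω 𝕃 : Type*} [Field Ω] [Field 𝕃] [Algebra Ω 𝕃]
    [IsAlgClosed Ω] [FF1 Ω 𝕃] {f : 𝕃} (h : divisorOf (Ω := Ω) f = 0) :
    ∃ c : Ω, f = algebraMap Ω 𝕃 c := by
  have h1 : ∀ v : Place Ω 𝕃, 0 ≤ v.ord f := by
    intro v
    rw [← divisorOf_apply, h]
    simp
  obtain ⟨c, hc⟩ := mem_range_algebraMap_of_forall_ord_nonneg h1
  exact ⟨c, hc.symm⟩

/-- TASK S15/B-Move-Const.  `finrank L(E) = 1`, `E ≥ 0`: `L(E)` = constants (`1 ∈ L(E)`, `finrank_eq_one_iff_of_nonzero'`). -/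
theorem exists_const_of_mem_LSpace {Ω 𝕃 : Type*} [Field Ω] [Field 𝕃] [Algebra Ω 𝕃]
    [IsAlgClosed Ω] [FF1 Ω 𝕃] {E : Divisor Ω 𝕃} (hE : ∀ v, 0 ≤ E v)
    (h1 : Module.finrank Ω (LSpace E) = 1) {f : 𝕃} (hf : f ∈ LSpace E) :
    ∃ c : Ω, f = algebraMap Ω 𝕃 c := by
  have h2 : (1 : 𝕃) ∈ LSpace E := one_mem_LSpace hE
  have h3 := (finrank_eq_one_iff_of_nonzero' (⟨1, h2⟩ : LSpace E)
    (by intro h; exact one_ne_zero (congrArg Subtype.val h))).1 h1 ⟨f, hf⟩
  obtain ⟨c, hc⟩ := h3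
  refine ⟨c, ?_⟩
  have h4 := congrArg Subtype.val hc
  simp only [SetLike.mk_smul_mk] at h4
  rw [← h4, Algebra.smul_def, mul_one]

/-- TASK S15/B-Move-Const.  `f ^ e ∈ L(e E) ⟹ f ∈ L(E)`  (`ord (f^e) = e ord f`). -/
theorem mem_LSpace_of_pow {Ω 𝕃 : Type*} [Field Ω] [Field 𝕃] [Algebra Ω 𝕃]
    {E : Divisor Ω 𝕃} {e : ℕ} (he : e ≠ 0) {f : 𝕃} (hf : f ^ e ∈ LSpace (e • E)) : f ∈ LSpace E := by
  rcases hf with hf | hf
  · exact Or.inl (pow_eq_zero_iff he |>.1 hf)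
  · refine Or.inr fun v => ?_
    have h1 := hf v
    rw [Fermat.Agent.S24.FF.ord_pow, Finsupp.smul_apply, nsmul_eq_mul, ← mul_add] at h1
    have he' : (0 : ℤ) < e := by exact_mod_cast Nat.pos_of_ne_zero he
    exact nonneg_of_mul_nonneg_right h1 he'

/-- TASK S15/B-Move-Best.  **Best approximation by a constant.**  `f` non constant ⟹ `f = a + μ κ`, `κ ∈ O` with NON CONSTANT reduction.
Proof.  `D :=` the polar divisor of `f` (`poleDivisor f`; `D ≥ 0`, so `1, f ∈ L(D)`).  `SemiKey_exists_basis hG D` + `span_lift_eq` + `linearIndependent_of_red`: `b_i ∈ L(D)`, `Red (b_i) (bt_i)`,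
`bt` linearly independent, `b` spans `L(D)`.  Write `1 = ∑ d_i b_i`, `f = ∑ c_i b_i`.  `mem_O_iff_of_red`: `d_i ∈ A`; reducing, `1 = ∑ res(d_i) bt_i`, so some `d_{i₀}` is a unit.
`a := c_{i₀}/d_{i₀}`; `f - a = ∑ γ_i b_i ≠ 0` with `γ_{i₀} = 0`; `exists_scale_fin`: `μ := γ_j` with `γ_i/μ ∈ A` for all `i`; `κ := (f - a)/μ = ∑ (γ_i/μ) b_i`, `κt = ∑ res(γ_i/μ) bt_i`, whose `j`-th coordinate is `1`
and whose `i₀`-th coordinate is `0`.  If `κt = c = c ∑ res(d_i) bt_i` then (coordinate `i₀`) `c = 0`, so `κt = 0`, contradiction with coordinate `j`. -/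
theorem exists_best_const (hG : Good V y yt) {f : F} (hf : ∀ c : K, f ≠ algebraMap K F c) :
    ∃ (a μ : K) (κ : F) (κt : Ft), μ ≠ 0 ∧ V.Red κ κt ∧ (∀ c : k, κt ≠ algebraMap k Ft c) ∧
      f = algebraMap K F a + algebraMap K F μ * κ := by
  classical
  set D : Divisor K F := poleDivisor (Ω := K) f with hD
  have hD0 : ∀ v, 0 ≤ D v := fun v => by
    rw [hD, poleDivisor_apply]; exact le_max_left _ _
  have h1D : (1 : F) ∈ LSpace D := one_mem_LSpace hD0
  have hfD : f ∈ LSpace D := Or.inr fun v => by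
    rw [hD, poleDivisor_apply]
    have := le_max_right 0 (-v.ord f)
    omega
  obtain ⟨b, bt, hb, hred, hli, hspan⟩ := SemiKey_exists_basis hG D
  have hsp := span_lift_eq hG D b bt hb hred hli hspan
  rw [← hsp] at h1D hfD
  obtain ⟨d, hd⟩ := (Submodule.mem_span_range_iff_exists_fun K).1 h1D
  obtain ⟨c, hc⟩ := (Submodule.mem_span_range_iff_exists_fun K).1 hfD
  have hdA : ∀ i, d i ∈ A :=
    (mem_O_iff_of_red V hred hli d).1 (by rw [hd]; exact V.O.one_mem)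
  have hred1 : V.Red (∑ i, algebraMap K F (d i) * b i)
      (∑ i, algebraMap k Ft (res π (d i)) * bt i) :=
    V.red_sum _ _ _ fun i _ => (V.red_const (hdA i)).mul (hred i)
  have hd' : ∑ i, algebraMap K F (d i) * b i = 1 := by
    rw [← hd]
    exact Finset.sum_congr rfl fun i _ => (Algebra.smul_def _ _).symm
  rw [hd'] at hred1
  have hone : ∑ i, algebraMap k Ft (res π (d i)) * bt i = 1 := hred1.unique V.red_one
  obtain ⟨i₀, hi₀⟩ : ∃ i, res π (d i) ≠ 0 := by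
    by_contra hall
    push Not at hall
    rw [Finset.sum_eq_zero (fun i _ => by rw [hall i, map_zero, zero_mul])] at hone
    exact zero_ne_one hone
  have hdi₀ : d i₀ ≠ 0 := by
    intro h
    rw [h, res_zero] at hi₀
    exact hi₀ rfl
  obtain ⟨a, ha⟩ : ∃ a : K, a = c i₀ / d i₀ := ⟨_, rfl⟩
  obtain ⟨γ, hγ⟩ : ∃ γ : Fin (Module.finrank k (ImL V D)) → K, ∀ i, γ i = c i - a * d i :=
    ⟨fun i => c i - a * d i, fun _ => rfl⟩
  have hγi₀ : γ i₀ = 0 := by
    rw [hγ, ha, div_mul_cancel₀ _ hdi₀, sub_self]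
  have hsumγ : ∑ i, algebraMap K F (γ i) * b i = f - algebraMap K F a := by
    have h1 : algebraMap K F a = algebraMap K F a * ∑ i, algebraMap K F (d i) * b i := by
      rw [hd', mul_one]
    rw [← hc, h1, Finset.mul_sum, ← Finset.sum_sub_distrib]
    refine Finset.sum_congr rfl fun i _ => ?_
    rw [Algebra.smul_def, hγ, map_sub, map_mul]
    ring
  have hγ0 : γ ≠ 0 := by
    intro h0
    apply hf a
    have h1 : ∑ i, algebraMap K F (γ i) * b i = 0 :=
      Finset.sum_eq_zero fun i _ => by rw [h0, Pi.zero_apply, map_zero, zero_mul]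
    rw [hsumγ] at h1
    exact sub_eq_zero.1 h1
  obtain ⟨j, hj, hA⟩ := exists_scale_fin (A := A) γ hγ0
  refine ⟨a, γ j, ∑ i, algebraMap K F (γ i / γ j) * b i,
    ∑ i, algebraMap k Ft (res π (γ i / γ j)) * bt i, hj,
    V.red_sum _ _ _ fun i _ => (V.red_const (hA i)).mul (hred i), ?_, ?_⟩
  · intro e he
    have h0 : ∑ i, (res π (γ i / γ j) - e * res π (d i)) • bt i = 0 := by
      have h1 : ∑ i, (res π (γ i / γ j) - e * res π (d i)) • bt i =
          ∑ i, algebraMap k Ft (res π (γ i / γ j)) * bt i -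
            algebraMap k Ft e * ∑ i, algebraMap k Ft (res π (d i)) * bt i := by
        rw [Finset.mul_sum, ← Finset.sum_sub_distrib]
        refine Finset.sum_congr rfl fun i _ => ?_
        rw [Algebra.smul_def, map_sub, map_mul]
        ring
      rw [h1, hone, mul_one, he, sub_self]
    have hall := (Fintype.linearIndependent_iff.1 hli) _ h0
    have h1 := hall i₀
    rw [hγi₀, zero_div, res_zero, zero_sub, neg_eq_zero, mul_eq_zero] at h1
    have he0 : e = 0 := h1.resolve_right hi₀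
    have h2 := hall j
    rw [div_self hj, res_one, he0, zero_mul, sub_zero] at h2
    exact one_ne_zero h2
  · have h1 : algebraMap K F (γ j) * ∑ i, algebraMap K F (γ i / γ j) * b i =
        ∑ i, algebraMap K F (γ i) * b i := by
      rw [Finset.mul_sum]
      refine Finset.sum_congr rfl fun i _ => ?_
      rw [← mul_assoc, ← map_mul, mul_div_cancel₀ _ hj]
    rw [h1, hsumγ]
    ring

/-- TASK S15/B-Move-Pow.  `m` with `Red m 1`: either `m ^ e ∈ K^× (1 + e O)`, or `m ^ e = a (1 + ν X)` with `e / ν ∈ m_A`, `ν ∈ m_A` and `Red X (κt ^ e)`, `κt` non constant.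
Proof.  If `m` is constant: left (`x = 0`).  Otherwise `m = a₀ + μ κ` (`exists_best_const`).  `μ ∈ m_A` and `a₀ ∈ A`, `res a₀ = 1`: if `μ ∉ m_A` then `μ⁻¹ ∈ A`, `a₀/μ = m/μ - κ ∈ O ∩ K = A` (`V.algebraMap_mem_iff`) and
`κt = res(μ⁻¹) - res(a₀/μ)` is constant.  Put `μ' = μ/a₀ ∈ m_A`, `z = μ' κ`, `m = a₀ (1 + z)`.  In the commutative ring `V.O`: `(1 + z)^e = 1 + z^e + e z r`, `r ∈ O` (`exists_add_pow_prime_eq he 1 z`).
Valuation ring: either `μ'^e / e ∈ A` (left: `x = (μ'^e/e) κ^e + z r`) or `e / μ'^e ∈ m_A` (right: `ν = μ'^e`, `X = κ^e + (e/μ'^e) μ' κ r`, which reduces to `κt^e`). -/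
theorem pow_dichotomy (hG : Good V y yt) {e : ℕ} (he : e.Prime) (heA : (e : K) ∈ A.nonunits) {m : F}
    (hm : V.Red m 1) :
    (∃ a : K, a ≠ 0 ∧ One V (e : K) (algebraMap K F a * m ^ e)) ∨
    (∃ (a ν : K) (X : F) (κt : Ft), a ≠ 0 ∧ ν ≠ 0 ∧ ν ∈ A.nonunits ∧ (e : K) / ν ∈ A.nonunits ∧
      V.Red X (κt ^ e) ∧ (∀ c : k, κt ≠ algebraMap k Ft c) ∧
      algebraMap K F a * m ^ e = 1 + algebraMap K F ν * X) := by
  have hπ := V.π_surjective
  have hm0 : m ≠ 0 := hm.ne_zero one_ne_zero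
  have he0 : (e : K) ≠ 0 := Nat.cast_ne_zero.2 he.ne_zero
  by_cases hc : ∃ c : K, m = algebraMap K F c
  · obtain ⟨c, rfl⟩ := hc
    have hc0 : c ≠ 0 := by
      rintro rfl
      exact hm0 (map_zero _)
    refine Or.inl ⟨(c ^ e)⁻¹, inv_ne_zero (pow_ne_zero _ hc0), 0, 0, V.red_zero, ?_⟩
    rw [← map_pow, ← map_mul, inv_mul_cancel₀ (pow_ne_zero _ hc0), map_one, mul_zero, add_zero]
  · push Not at hc
    obtain ⟨a₀, μ, κ, κt, hμ0, hκ, hnc, hmeq⟩ := exists_best_const hG hc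
    have hμF : algebraMap K F μ ≠ 0 := (_root_.map_ne_zero _).2 hμ0
    -- `μ ∈ m_A`
    have hμ : μ ∈ A.nonunits := by
      by_contra hμ
      have hinv : μ⁻¹ ∈ A := by
        rw [ValuationSubring.mem_nonunits_iff, not_lt] at hμ
        rw [← A.valuation_le_one_iff, map_inv₀]
        exact inv_le_one_of_one_le₀ hμ
      have h1 : V.Red (algebraMap K F μ⁻¹ * m) (algebraMap k Ft (res π μ⁻¹) * 1) :=
        (V.red_const hinv).mul hm
      have h2 : algebraMap K F (a₀ * μ⁻¹) = algebraMap K F μ⁻¹ * m - κ := by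
        rw [hmeq, map_mul, map_inv₀]
        field_simp
        ring
      have h3 : a₀ * μ⁻¹ ∈ A := by
        rw [← V.algebraMap_mem_iff, h2]
        exact (h1.sub hκ).mem
      have h4 : V.Red κ (algebraMap k Ft (res π μ⁻¹) * 1 - algebraMap k Ft (res π (a₀ * μ⁻¹))) := by
        have h5 := h1.sub (V.red_const h3)
        rwa [h2, sub_sub_cancel] at h5
      refine hnc (res π μ⁻¹ - res π (a₀ * μ⁻¹)) ?_
      rw [hκ.unique h4, mul_one, map_sub]
    have hμA : μ ∈ A := mem_of_mem_nonunits hμ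
    have hμκ : V.Red (algebraMap K F μ * κ) 0 := by
      have h := (V.red_const hμA).mul hκ
      rwa [(res_eq_zero_iff hπ hμA).2 hμ, map_zero, zero_mul] at h
    have ha₀r : V.Red (algebraMap K F a₀) 1 := by
      have h := hm.sub hμκ
      rwa [hmeq, add_sub_cancel_right, sub_zero] at h
    have ha₀A : a₀ ∈ A := (V.algebraMap_mem_iff a₀).1 ha₀r.mem
    have hres : res π a₀ = 1 := by
      have h := (V.red_const ha₀A).unique ha₀r
      exact (algebraMap k Ft).injective (by rw [h, map_one])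
    have hres0 : res π a₀ ≠ 0 := by rw [hres]; exact one_ne_zero
    obtain ⟨-, ha₀i⟩ := inv_mem_of_res_ne_zero hπ hres0
    have ha₀0 : a₀ ≠ 0 := by
      rintro rfl
      exact hres0 res_zero
    have ha₀F : algebraMap K F a₀ ≠ 0 := (_root_.map_ne_zero _).2 ha₀0
    set μ' : K := μ * a₀⁻¹ with hμ'
    have hμ'0 : μ' ≠ 0 := mul_ne_zero hμ0 (inv_ne_zero ha₀0)
    have hμ'A : μ' ∈ A := mul_mem hμA ha₀i
    have hμ'n : μ' ∈ A.nonunits := by
      rw [← res_eq_zero_iff hπ hμ'A, hμ', res_mul hμA ha₀i, (res_eq_zero_iff hπ hμA).2 hμ, zero_mul]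
    have hz : V.Red (algebraMap K F μ' * κ) 0 := by
      have h := (V.red_const hμ'A).mul hκ
      rwa [(res_eq_zero_iff hπ hμ'A).2 hμ'n, map_zero, zero_mul] at h
    set z : F := algebraMap K F μ' * κ with hzdef
    have hmz : m = algebraMap K F a₀ * (1 + z) := by
      rw [hmeq, hzdef, hμ', map_mul, map_inv₀]
      field_simp
    obtain ⟨r, rt, hr, hexp⟩ : ∃ (r : F) (rt : Ft), V.Red r rt ∧
        (1 + z) ^ e = 1 + z ^ e + algebraMap K F (e : K) * (z * r) := by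
      obtain ⟨r, hr⟩ := exists_add_pow_prime_eq he (1 : V.O) ⟨z, hz.mem⟩
      refine ⟨r, V.red r, ⟨r.2, rfl⟩, ?_⟩
      have h := congrArg (Subtype.val) hr
      simp only [one_pow, mul_one] at h
      push_cast at h
      rw [h, map_natCast]
      ring
    have hame : algebraMap K F (a₀ ^ e)⁻¹ * m ^ e = (1 + z) ^ e := by
      rw [hmz, mul_pow, map_inv₀, map_pow]
      field_simp
    have hzr : V.Red (z * r) 0 := by
      have h := hz.mul hr
      rwa [zero_mul] at h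
    have hzpow : z ^ e = algebraMap K F (μ' ^ e) * κ ^ e := by
      rw [hzdef, mul_pow, map_pow]
    by_cases ht : μ' ^ e / (e : K) ∈ A
    · refine Or.inl ⟨(a₀ ^ e)⁻¹, inv_ne_zero (pow_ne_zero _ ha₀0),
        algebraMap K F (μ' ^ e / (e : K)) * κ ^ e + z * r, _,
        ((V.red_const ht).mul (hκ.pow e)).add hzr, ?_⟩
      have h1 : algebraMap K F (e : K) * algebraMap K F (μ' ^ e / (e : K)) = algebraMap K F (μ' ^ e) := by
        rw [← map_mul, mul_div_cancel₀ _ he0]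
      rw [hame, hexp, hzpow, ← h1]
      ring
    · have ht' := inv_mem_nonunits_of_not_mem ht
      rw [inv_div] at ht'
      have ht'A := mem_of_mem_nonunits ht'
      have hν0 : μ' ^ e ≠ 0 := pow_ne_zero _ hμ'0
      refine Or.inr ⟨(a₀ ^ e)⁻¹, μ' ^ e, κ ^ e + algebraMap K F ((e : K) / μ' ^ e) * (z * r), κt,
        inv_ne_zero (pow_ne_zero _ ha₀0), hν0, ?_, ht', ?_, hnc, ?_⟩
      · rw [← res_eq_zero_iff hπ (pow_mem hμ'A e), res_pow hμ'A, (res_eq_zero_iff hπ hμ'A).2 hμ'n,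
          zero_pow he.ne_zero]
      · have h := (hκ.pow e).add ((V.red_const ht'A).mul hzr)
        rwa [mul_zero, add_zero] at h
      · have h1 : algebraMap K F (μ' ^ e) * algebraMap K F ((e : K) / μ' ^ e) = algebraMap K F (e : K) := by
          rw [← map_mul, mul_div_cancel₀ _ hν0]
        rw [hame, hexp, hzpow, ← h1]
        ring

theorem MoveDepth_sumDiv_nonneg {Ω 𝕃 : Type*} [Field Ω] [Field 𝕃] [Algebra Ω 𝕃]
    (T : Finset (Place Ω 𝕃)) (v : Place Ω 𝕃) : 0 ≤ sumDiv T v := by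
  classical
  unfold sumDiv
  rw [Finsupp.finsetSum_apply]
  refine Finset.sum_nonneg fun w _ => ?_
  rw [Finsupp.single_apply]
  split_ifs <;> simp

theorem MoveDepth_divisorOf_const_mul {Ω 𝕃 : Type*} [Field Ω] [Field 𝕃] [Algebra Ω 𝕃]
    [FF1 Ω 𝕃] {c : Ω} (hc : c ≠ 0) (f : 𝕃) :
    divisorOf (Ω := Ω) (algebraMap Ω 𝕃 c * f) = divisorOf f := by
  by_cases hf : f = 0
  · rw [hf, mul_zero]
  ext v
  rw [divisorOf_apply, divisorOf_apply, v.ord_mul ((_root_.map_ne_zero _).2 hc) hf,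
    Fermat.Agent.S24.FF.ord_algebraMap, zero_add]

/-- TASK S15/B-Move-Depth.  **The depth survives the moving.**  `h ∈ L(Δ)`, `Δ ≥ 0`, `rD Δ = e T` with `L(T) = k`, `rD (div h) = 0`, `h ∈ K^× F^{×e} (1 + e O)` ⟹ `h ∈ K^× (1 + e O)`.
Proof.  `h = c m^e w`.  Scale `m` (`V.exists_scale'`): `Red (c₁ m) mt`, `mt ≠ 0`; `Red w 1` (`One.red`).  `rD_divisorOf` for `(c₁ m)^e w`: `0 = rD (div h) = div (mt^e) = e div mt`, so `div mt = 0`, `mt = ` a constant `≠ 0`
(`exists_const_of_divisorOf_eq_zero`); divide by a lift (`exists_res_eq`): WLOG `Red m 1`.  `pow_dichotomy`: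
left: `a m^e ∈ 1 + eO`, times `w` (`One.mul`): done.
right: `a m^e w = (1 + ν X)(1 + e x) = 1 + ν X'`, `X' = X + (e/ν) x (1 + ν X)`, `Red X' (κt^e)`.  `X' = (a m^e w - 1)/ν ∈ L(Δ)` (`h ∈ L(Δ)`, `1 ∈ L(Δ)` as `Δ ≥ 0`), so `κt^e ∈ ImL V Δ ≤ L(rD Δ) = L(e T)` (`ImL_le`),
`κt ∈ L(T)` (`mem_LSpace_of_pow`), constant (`exists_const_of_mem_LSpace`): contradiction. -/
theorem depth_core (hG : Good V y yt) {e : ℕ} (he : e.Prime) (heA : (e : K) ∈ A.nonunits)
    {T : Finset (Place k Ft)} (hT : Module.finrank k (LSpace (sumDiv T)) = 1)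
    {h : F} {Δ : Divisor K F} (hΔ0 : ∀ v, 0 ≤ Δ v) (hΔ : h ∈ LSpace Δ)
    (hrΔ : rD hG Δ = e • sumDiv T) (hdiv : rD hG (divisorOf h) = 0) (hh : Dp V e h) :
    ∃ c : K, c ≠ 0 ∧ One V (e : K) (algebraMap K F c * h) := by
  obtain ⟨c, m, w, hc, hm, hw, hEq⟩ := hh
  have heA' : (e : K) ∈ A := mem_of_mem_nonunits heA
  have hw1 : V.Red w 1 := hw.red heA
  have hcF : algebraMap K F c ≠ 0 := (_root_.map_ne_zero _).2 hc
  obtain ⟨c₁, mt, hc₁, hmt, hred⟩ := V.exists_scale' hm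
  have hW : V.Red ((algebraMap K F c₁ * m) ^ e * w) (mt ^ e * 1) := (hred.pow e).mul hw1
  have hWeq : (algebraMap K F c₁ * m) ^ e * w = algebraMap K F (c₁ ^ e / c) * h := by
    rw [hEq, map_div₀, map_pow, mul_pow]
    field_simp
  have hdivmt : divisorOf (Ω := k) mt = 0 := by
    have h1 := rD_divisorOf hG hW (mul_ne_zero (pow_ne_zero _ hmt) one_ne_zero)
    rw [hWeq, MoveDepth_divisorOf_const_mul (div_ne_zero (pow_ne_zero _ hc₁) hc), hdiv,
      mul_one] at h1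
    ext Q
    have h2 := congrArg (fun D => D Q) h1
    simp only [divisorOf_apply, Finsupp.coe_zero, Pi.zero_apply] at h2
    rw [Fermat.Agent.S24.FF.ord_pow] at h2
    rw [divisorOf_apply]
    have he0 : (e : ℤ) ≠ 0 := by exact_mod_cast he.ne_zero
    simpa using (mul_eq_zero.1 h2.symm).resolve_left he0
  obtain ⟨cb, hcb⟩ := exists_const_of_divisorOf_eq_zero hdivmt
  have hcb0 : cb ≠ 0 := by
    rintro rfl
    rw [map_zero] at hcb
    exact hmt hcb
  obtain ⟨a₀, ha₀, hres⟩ := exists_res_eq V.π_surjective cb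
  have ha₀0 : a₀ ≠ 0 := by
    rintro rfl
    rw [res_zero] at hres
    exact hcb0 hres.symm
  have ha₀F : algebraMap K F a₀ ≠ 0 := (_root_.map_ne_zero _).2 ha₀0
  obtain ⟨m', hm'def⟩ : ∃ m' : F, m' = algebraMap K F c₁ * m / algebraMap K F a₀ := ⟨_, rfl⟩
  have hm' : V.Red m' 1 := by
    have h1 := hred.div (V.red_const ha₀) (by rw [hres]; exact (_root_.map_ne_zero _).2 hcb0)
    rwa [hres, ← hcb, div_self hmt, ← hm'def] at h1
  have key : ∀ a : K, algebraMap K F a * m' ^ e * w =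
      algebraMap K F (a * c₁ ^ e / (a₀ ^ e * c)) * h := by
    intro a
    rw [hEq, hm'def, map_div₀, map_mul, map_mul, map_pow, map_pow, div_pow, mul_pow]
    field_simp
  rcases pow_dichotomy hG he heA hm' with
    ⟨a, ha, hone⟩ | ⟨a, ν, X, κt, ha, hν, hνA, heν, hX, hκ, hEq2⟩
  · refine ⟨a * c₁ ^ e / (a₀ ^ e * c), div_ne_zero (mul_ne_zero ha (pow_ne_zero _ hc₁))
      (mul_ne_zero (pow_ne_zero _ ha₀0) hc), ?_⟩
    rw [← key]
    exact hone.mul heA' hw
  · exfalso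
    obtain ⟨x, xt, hx, hwx⟩ := hw
    have hνF : algebraMap K F ν ≠ 0 := (_root_.map_ne_zero _).2 hν
    obtain ⟨X', hX'⟩ : ∃ X' : F,
      X' = X + algebraMap K F ((e : K) / ν) * x * (1 + algebraMap K F ν * X) := ⟨_, rfl⟩
    have h1 : algebraMap K F a * m' ^ e * w = 1 + algebraMap K F ν * X' := by
      rw [hEq2, hwx, hX', map_div₀]
      field_simp
      ring
    have hredX' : V.Red X' (κt ^ e) := by
      have h2 : V.Red (algebraMap K F ((e : K) / ν)) 0 := by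
        have h := V.red_const (mem_of_mem_nonunits heν)
        rwa [(res_eq_zero_iff V.π_surjective (mem_of_mem_nonunits heν)).2 heν, map_zero] at h
      have h3 : V.Red (1 + algebraMap K F ν * X) (1 + algebraMap k Ft (res π ν) * κt ^ e) :=
        V.red_one.add ((V.red_const (mem_of_mem_nonunits hνA)).mul hX)
      have h4 := hX.add ((h2.mul hx).mul h3)
      rwa [zero_mul, zero_mul, add_zero, ← hX'] at h4
    have hmem : X' ∈ LSpace Δ := by
      have h5 : X' = ν⁻¹ • ((a * c₁ ^ e / (a₀ ^ e * c)) • h - 1) := by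
        rw [Algebra.smul_def, Algebra.smul_def, ← key, h1, map_inv₀, add_sub_cancel_left,
          inv_mul_cancel_left₀ hνF]
      rw [h5]
      exact Submodule.smul_mem _ _
        (Submodule.sub_mem _ (Submodule.smul_mem _ _ hΔ) (one_mem_LSpace hΔ0))
    have h6 : κt ^ e ∈ LSpace (e • sumDiv T) := by
      rw [← hrΔ]
      exact ImL_le hG Δ ⟨X', hmem, hredX'⟩
    obtain ⟨c', hc'⟩ := exists_const_of_mem_LSpace (MoveDepth_sumDiv_nonneg T) hT
      (mem_LSpace_of_pow he.ne_zero h6)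
    exact hκ c' hc'

/-- TASK S15/B-Move-Iso.  **Moving a class of depth `≥ 1`.**
Proof.  `g` := genus (`exists_isGenus` for `F` and `Ft`, `genus_eq`), `T` non special off `B` (`exists_nonspecial_finset`, on `Ft`), `D₀` with `rD D₀ = sumDiv T` and `D₀ ≥ 0`
(lift each point: `rP_surjective`; `D₀ := ∑ Q ∈ T, single (P Q) 1`).  `D := Dv K e f`.  `rD D` is principal: `f = c m₀^e w`, so `e • rD D = rD (div f) = e • div(m₀t)` (scale `m₀`; `rD_divisorOf`, `One.red`), divisors are torsion free.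
`exists_unique_effective hG hg (E := sumDiv T) .. (D + D₀)`: `D₂ ≥ 0`, `D₂ - (D + D₀)` principal `= div m` (`exists_eq_add_divisorOf`), `rD D₂ = sumDiv T`.  `h := f m^e`: `div h = e (D₂ - D₀)`, so `h ∈ L(e D₀)`,
`rD (div h) = 0`, `Dp V e h` (`Dp.mul_pow`).  `depth_core` with `Δ = e • D₀`.  The supports of `D₂, D₀` lie over `T` (`RatPolar_apply_le_rD`), hence off `B`; there `ord h = 0`, so `x = (c h - 1)/e` is regular. -/
theorem iso_move (hG : Good V y yt) {e : ℕ} (he : e.Prime) (heA : (e : K) ∈ A.nonunits) {f : F}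
    (hf : IsDm K e f) (hd : Dp V e f) (B : Set (Place k Ft)) (hB : B.Finite) :
    ∃ (c : K) (m x : F) (xt : Ft), c ≠ 0 ∧ m ≠ 0 ∧ V.Red x xt ∧
      algebraMap K F c * (f * m ^ e) = 1 + algebraMap K F (e : K) * x ∧
      (∀ v : Place K F, rP hG v ∈ B → v.ord (f * m ^ e) = 0 ∧ Reg v x) := by
  classical
  obtain ⟨g, hg⟩ := exists_isGenus (Ω := K) (𝕃 := F)
  obtain ⟨gt, hgt⟩ := exists_isGenus (Ω := k) (𝕃 := Ft)
  obtain rfl := genus_eq hG hg hgt
  obtain ⟨T, hTc, hTB, hT1⟩ := exists_nonspecial_finset hgt B hB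
  choose P hP using rP_surjective hG
  set D₀ : Divisor K F := ∑ Q ∈ T, Finsupp.single (P Q) (1 : ℤ) with hD₀
  have hrD₀ : rD hG D₀ = sumDiv T := by
    rw [hD₀, map_sum]
    unfold sumDiv
    exact Finset.sum_congr rfl fun Q _ => by rw [rD_single, hP]
  have hD₀pos : ∀ v, 0 ≤ D₀ v := by
    intro v
    rw [hD₀, Finsupp.finsetSum_apply]
    refine Finset.sum_nonneg fun Q _ => ?_
    rw [Finsupp.single_apply]
    split_ifs <;> simp
  have hTpos : ∀ Q, 0 ≤ sumDiv T Q := by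
    intro Q
    rw [← hrD₀]
    exact rD_nonneg hG hD₀pos Q
  have hTdeg : Divisor.degree (sumDiv T) = g := by
    rw [degree_sumDiv_of_deg_eq_one (fun v => deg_eq_one_of_isAlgClosed v) T, hTc]
  have he0 : (e : ℤ) ≠ 0 := Int.natCast_ne_zero.mpr he.ne_zero
  have hd' := hd
  obtain ⟨c₀, m₀, w, hc₀, hm₀, hw, hfe⟩ := hd
  obtain ⟨c₁, mt, hc₁, hmt, hmr⟩ := V.exists_scale' hm₀
  have hwr : V.Red w 1 := hw.red heA
  have hw0 : w ≠ 0 := hw.ne_zero heA
  have hc₀F : algebraMap K F c₀ ≠ 0 := (_root_.map_ne_zero _).2 hc₀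
  have hc₁F : algebraMap K F c₁ ≠ 0 := (_root_.map_ne_zero _).2 hc₁
  have hrD : rD hG (Dv K e f) = divisorOf mt := by
    have h1 : divisorOf (Ω := K) f = divisorOf ((algebraMap K F c₁ * m₀) ^ e * w) := by
      ext v
      rw [divisorOf_apply, divisorOf_apply, hfe,
        v.ord_mul (mul_ne_zero hc₀F (pow_ne_zero e hm₀)) hw0,
        v.ord_mul hc₀F (pow_ne_zero e hm₀),
        v.ord_mul (pow_ne_zero e (mul_ne_zero hc₁F hm₀)) hw0,
        Fermat.Agent.S24.FF.ord_pow, Fermat.Agent.S24.FF.ord_pow, v.ord_mul hc₁F hm₀,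
        Fermat.Agent.S24.FF.ord_algebraMap, Fermat.Agent.S24.FF.ord_algebraMap]
      ring
    have h2 : rD hG (divisorOf f) = divisorOf (mt ^ e * 1) := by
      rw [h1]
      exact rD_divisorOf hG ((hmr.pow e).mul hwr) (by simp [hmt])
    rw [← nsmul_Dv hf, map_zsmul] at h2
    ext Q
    have h3 := DFunLike.congr_fun h2 Q
    rw [Finsupp.smul_apply, divisorOf_apply, mul_one, Fermat.Agent.S24.FF.ord_pow,
      smul_eq_mul] at h3
    rw [divisorOf_apply]
    exact mul_left_cancel₀ he0 h3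
  have hprin : rD hG (Dv K e f + D₀) - sumDiv T ∈ Divisor.principal (K := k) (F := Ft) := by
    rw [map_add, hrD₀, add_sub_cancel_right, hrD]
    exact ⟨mt, hmt, fun v => divisorOf_apply mt v⟩
  obtain ⟨D₂, ⟨hD₂p, hD₂pos, hrD₂⟩, -⟩ :=
    exists_unique_effective hG hg hTpos hTdeg hT1 (Dv K e f + D₀) hprin
  obtain ⟨m, hm, hD₂⟩ := exists_eq_add_divisorOf hD₂p
  have hf0 : f ≠ 0 := hf.1
  have hord : ∀ v : Place K F, v.ord (f * m ^ e) = (e : ℤ) * (D₂ v - D₀ v) := by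
    intro v
    have h1 := DFunLike.congr_fun hD₂ v
    have h2 := DFunLike.congr_fun (nsmul_Dv hf) v
    rw [Finsupp.add_apply, Finsupp.add_apply, divisorOf_apply] at h1
    rw [Finsupp.smul_apply, divisorOf_apply, smul_eq_mul] at h2
    rw [v.ord_mul hf0 (pow_ne_zero e hm), Fermat.Agent.S24.FF.ord_pow, ← h2, h1]
    ring
  have hdivh : divisorOf (Ω := K) (f * m ^ e) = (e : ℤ) • (D₂ - D₀) := by
    ext v
    rw [divisorOf_apply, hord, Finsupp.smul_apply, Finsupp.sub_apply, smul_eq_mul]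
  obtain ⟨c, hc, x, xt, hx, hcx⟩ := depth_core hG he heA hT1 (h := f * m ^ e) (Δ := e • D₀)
    (fun v => by
      rw [Finsupp.smul_apply]
      exact nsmul_nonneg (hD₀pos v) e)
    (Or.inr fun v => by
      rw [hord, Finsupp.smul_apply, nsmul_eq_mul]
      have := mul_nonneg (Int.natCast_nonneg e) (hD₂pos v)
      linarith)
    (by rw [map_nsmul, hrD₀])
    (by rw [hdivh, map_zsmul, map_sub, hrD₂, hrD₀, sub_self, smul_zero])
    (hd'.mul_pow hm)
  refine ⟨c, m, x, xt, hc, hm, hx, hcx, fun v hv => ?_⟩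
  have hvT : rP hG v ∉ T := fun h => hTB _ h hv
  have h2 : D₂ v = 0 := by
    have h := RatPolar_apply_le_rD hG hD₂pos v
    rw [hrD₂, sumDiv_apply_of_notMem hvT] at h
    exact le_antisymm h (hD₂pos v)
  have h0 : D₀ v = 0 := by
    have h := RatPolar_apply_le_rD hG hD₀pos v
    rw [hrD₀, sumDiv_apply_of_notMem hvT] at h
    exact le_antisymm h (hD₀pos v)
  have hov : v.ord (f * m ^ e) = 0 := by rw [hord, h2, h0, sub_self, mul_zero]
  refine ⟨hov, ?_⟩
  have heK : (e : K) ≠ 0 := Nat.cast_ne_zero.mpr he.ne_zero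
  have heF : algebraMap K F (e : K) ≠ 0 := (_root_.map_ne_zero _).2 heK
  have hxe : x = algebraMap K F (e : K)⁻¹ * (algebraMap K F c * (f * m ^ e) - 1) := by
    rw [hcx, add_sub_cancel_left, map_inv₀, inv_mul_cancel_left₀ heF]
  rw [hxe]
  exact (reg_algebraMap v _).mul v (((reg_algebraMap v _).mul v
    ((reg_iff_ord v).2 hov.ge)).sub v (reg_one v))

/-! ### the rational side -/

/-- TASK S15/B-Move-Mod.  `div g mod e` is `Γ`-invariant, so `div g = e Y' - Y` with `Y` fixed.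
`Y v := (- ord_v g) % e`, (finitely supported: `Finsupp.mapRange` of `divisorOf g`), `Y' v := (ord_v g + Y v) / e`.  `Y (σ v) = Y v`: `ord_{σ v} g = ord_v (σ⁻¹ g)` (`SemilinearAut.ord_smul`) and
`e ∣ ord_v (σ⁻¹ g / g)`.  (`(σ • D) v = D (σ⁻¹ • v)`: see the lemmas used in `Geo0.FixF.fixD_divisorOf`.) -/
theorem exists_fix_mod {e : ℕ} (he : e ≠ 0) {g : F} (hg0 : g ≠ 0)
    (hg : ∀ σ : Γ, IsDm K e (α σ • g / g)) :
    ∃ Y Y' : Divisor K F, FixD α Y ∧ divisorOf (Ω := K) g = (e : ℤ) • Y' - Y := by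
  set Y : Divisor K F := (divisorOf (Ω := K) g).mapRange (fun n => (-n) % (e : ℤ)) (by simp)
    with hY
  set Y' : Divisor K F :=
    (divisorOf (Ω := K) g).mapRange (fun n => (n + (-n) % (e : ℤ)) / (e : ℤ)) (by simp) with hY'
  have hYa : ∀ v, Y v = (- v.ord g) % (e : ℤ) := fun v => by
    rw [hY, Finsupp.mapRange_apply, divisorOf_apply]
  have hYa' : ∀ v, Y' v = (v.ord g + (- v.ord g) % (e : ℤ)) / (e : ℤ) := fun v => by
    rw [hY', Finsupp.mapRange_apply, divisorOf_apply]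
  refine ⟨Y, Y', ?_, ?_⟩
  · intro σ
    ext w
    rw [SemilinearAut.divisor_smul_apply, hYa, hYa]
    have h := SemilinearAut.ord_smul (α σ) ((α σ)⁻¹ • w) g
    rw [smul_inv_smul] at h
    have h2 := (hg σ).2 w
    have hσg : α σ • g ≠ 0 := by simpa using hg0
    rw [div_eq_mul_inv, w.ord_mul hσg (inv_ne_zero hg0), Place.ord_inv, h] at h2
    refine Int.modEq_iff_dvd.mpr ?_
    have h3 : -w.ord g - -((α σ)⁻¹ • w).ord g = ((α σ)⁻¹ • w).ord g + -w.ord g := by ring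
    rw [h3]
    exact h2
  · ext v
    rw [divisorOf_apply, Finsupp.sub_apply, Finsupp.smul_apply, hYa, hYa', smul_eq_mul]
    have h1 : (e : ℤ) ∣ v.ord g + (- v.ord g) % (e : ℤ) := by
      have h2 := Int.emod_add_mul_ediv (- v.ord g) (e : ℤ)
      exact ⟨-((- v.ord g) / (e : ℤ)), by linarith⟩
    rw [Int.mul_ediv_cancel' h1]
    ring

/-- TASK S15/B-Move-FixEff.  A fixed divisor whose reduction is `∼ T` is `∼` (by a FIXED function) an effective fixed divisor `∑ P Q` with FIXED points, `rP (P Q) = Q`.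
Proof.  `deg D = g` (`degree_rD`, principal divisors have degree `0`), so `L(D) ≠ 0` (`IsGenus`, Riemann); it is `Γ`-stable (`smul_mem_LSpace hD`), hence spanned by fixed vectors (`span_fix_eq hR.fix_span`): there is a fixed
`n ≠ 0` in `L(D)`.  `D' := D + div n ≥ 0`, fixed (`FixF.fixD_divisorOf`), `rD D' = sumDiv T` (`effective_unique`, with `exists_unique_effective`).  `exists_points`: `D' = ∑ Q ∈ T, single (P Q) 1`, `rP (P Q) = Q`.
`σ (P Q)` is in the support of `σ D' = D'`, so it is `P Q'`, and `Q' = rP (σ (P Q)) = rP (P Q) = Q` (`rP_smul`). -/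
theorem exists_fix_effective (hG : Good V y yt) {ϖ : K} (hR : RatStr α V ϖ y) {g : ℕ}
    (hg : IsGenus K F g) {T : Finset (Place k Ft)} (hTc : T.card = g)
    (hT : Module.finrank k (LSpace (sumDiv T)) = 1) {D : Divisor K F} (hD : FixD α D)
    (hr : rD hG D - sumDiv T ∈ Divisor.principal (K := k) (F := Ft)) :
    ∃ (n : F) (P : Place k Ft → Place K F), n ≠ 0 ∧ FixF α n ∧
      (∀ Q ∈ T, FixP α (P Q) ∧ rP hG (P Q) = Q) ∧
      D + divisorOf n = ∑ Q ∈ T, Finsupp.single (P Q) (1 : ℤ) := by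
  classical
  have hE : ∀ Q, 0 ≤ sumDiv T Q := by
    intro Q
    by_cases hQ : Q ∈ T
    · rw [LiftV_sumDiv_apply_of_mem hQ]; exact zero_le_one
    · rw [sumDiv_apply_of_notMem hQ]
  have hdegD : Divisor.degree D = g := by
    have h0 := LiftV_degree_of_mem_principal hr
    rw [map_sub, degree_rD, degree_sumDiv_of_deg_eq_one deg_eq_one_of_isAlgClosed, hTc] at h0
    linarith
  have h1 := hg.1 D
  have hpos : 0 < Module.finrank K (LSpace D) := by
    rw [hdegD] at h1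
    omega
  -- a fixed nonzero element of `L(D)`
  obtain ⟨n, hnL, hnfix, hn0⟩ : ∃ n : F, n ∈ LSpace D ∧ FixF α n ∧ n ≠ 0 := by
    by_contra hcon
    push Not at hcon
    have hspan := span_fix_eq hR.fix_span (LSpace D) (fun σ w hw => smul_mem_LSpace hD σ hw)
    have hbot : LSpace D = ⊥ := by
      rw [← hspan, Submodule.span_eq_bot]
      rintro w ⟨hw, hwf⟩
      exact hcon w hw hwf
    rw [hbot, finrank_bot] at hpos
    exact lt_irrefl _ hpos
  have hD'pos : ∀ v, 0 ≤ (D + divisorOf (Ω := K) n) v := by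
    intro v
    have := (hnL.resolve_left hn0) v
    rw [Finsupp.add_apply, divisorOf_apply]
    omega
  have hD'fix : FixD α (D + divisorOf (Ω := K) n) := hD.add hnfix.fixD_divisorOf
  have hpr : D + divisorOf (Ω := K) n - D ∈ Divisor.principal (K := K) (F := F) :=
    add_divisorOf_sub_mem_principal D hn0
  have hrD' : rD hG (D + divisorOf (Ω := K) n) = sumDiv T :=
    (effective_unique hG hE hT hr hpr hD'pos hpr hD'pos).2
  obtain ⟨P, hP, hDP⟩ := exists_points hG hD'pos hrD'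
  refine ⟨n, P, hn0, hnfix, fun Q hQ => ⟨fun σ => ?_, hP Q hQ⟩, hDP⟩
  have hval : ∀ w, (D + divisorOf (Ω := K) n) w ≠ 0 → ∃ Q' ∈ T, w = P Q' := by
    intro w hw
    by_contra hcon
    push Not at hcon
    apply hw
    rw [hDP, Finsupp.finsetSum_apply]
    refine Finset.sum_eq_zero fun Q' hQ' => ?_
    rw [Finsupp.single_apply, if_neg (fun h => hcon Q' hQ' h.symm)]
  have hPQ : (D + divisorOf (Ω := K) n) (P Q) ≠ 0 := by
    have h2 : 1 ≤ (D + divisorOf (Ω := K) n) (P Q) := by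
      rw [hDP, Finsupp.finsetSum_apply]
      calc (1 : ℤ) = (Finsupp.single (P Q) (1 : ℤ)) (P Q) := by simp
        _ ≤ ∑ Q' ∈ T, (Finsupp.single (P Q') (1 : ℤ)) (P Q) :=
            Finset.single_le_sum (f := fun Q' => (Finsupp.single (P Q') (1 : ℤ)) (P Q))
              (fun Q' _ => by
                show 0 ≤ (Finsupp.single (P Q') (1 : ℤ)) (P Q)
                rw [Finsupp.single_apply]; split_ifs <;> simp) hQ
    omega
  obtain ⟨Q', hQ', hw⟩ := hval (α σ • P Q) (by rw [hD'fix.apply_smul]; exact hPQ)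
  have hQQ : Q' = Q := by
    rw [← hP Q' hQ', ← hw, rP_smul hG hR, hP Q hQ]
  rw [hw, hQQ]

/-- TASK S15/B-Move-FixRed.  Every element of `Ft` is the reduction of a FIXED function.
Proof.  `c` from `exists_ImL_eq_of_degree hG`.  `E := poleDivisor ft + N • single Q₀ 1` with `N` large (degree `≥ c`), `ft ∈ L(E)`.  `exists_fix_divisor hG hR E`: `D` with fixed points, `rD D = E`; `FixD α D`; `deg D = deg E` (`degree_rD`);
`ImL V D = L(E) ∋ ft`; `exists_fix_lift hG hR`. -/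
theorem exists_fix_red (hG : Good V y yt) {ϖ : K} (hR : RatStr α V ϖ y) (ft : Ft) :
    ∃ f : F, FixF α f ∧ V.Red f ft := by
  obtain ⟨c, hc⟩ := exists_ImL_eq_of_degree hG
  obtain ⟨Q₀⟩ : Nonempty (Place k Ft) := nonempty_place
  -- a divisor of large degree with `ft ∈ L(E)`
  obtain ⟨E, hE⟩ : ∃ E : Divisor k Ft, E = poleDivisor ft + Finsupp.single Q₀ (c.toNat : ℤ) :=
    ⟨_, rfl⟩
  have hftE : ft ∈ LSpace E := by
    rw [mem_LSpace]
    right
    intro v
    rw [hE, Finsupp.add_apply, poleDivisor_apply]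
    have h1 : (0 : ℤ) ≤ (Finsupp.single Q₀ (c.toNat : ℤ) : Divisor k Ft) v := by
      classical
      rw [Finsupp.single_apply]
      split_ifs
      · exact Int.natCast_nonneg _
      · exact le_rfl
    have h2 := le_max_right 0 (-v.ord ft)
    omega
  have hdeg : c ≤ Divisor.degree E := by
    rw [hE, map_add, Divisor.degree_single, deg_eq_one_of_isAlgClosed]
    have h1 : 0 ≤ Divisor.degree (poleDivisor (Ω := k) ft) :=
      degree_nonneg (fun v => by rw [poleDivisor_apply]; exact le_max_left _ _)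
    have h2 := Int.self_le_toNat c
    simp only [Nat.cast_one, mul_one] at *
    omega
  obtain ⟨D, hDfix, hrD, -⟩ := exists_fix_divisor hG hR E
  have hD : FixD α D := fixD_of_support hDfix
  have hIm : ImL V D = LSpace (rD hG D) := hc D (by rw [← degree_rD hG D, hrD]; exact hdeg)
  have hmem : ft ∈ ImL V D := by rw [hIm, hrD]; exact hftE
  obtain ⟨f, hf, -, hred⟩ := exists_fix_lift hG hR hD hmem
  exact ⟨f, hf, hred⟩

/-- TASK S15/B-Move-FixOne.  A fixed function with constant reduction is a constant times an element of `1 + ϖ O`.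
Proof.  `hR.exists_zpow_red`: `Red (ϖ^n ν) νt`, `νt ≠ 0`; `rD_divisorOf`: `div νt = 0`, so `νt = c̄` constant; `hR.res_surj`: `a` fixed, `res a = c̄`, a unit of `A` (`inv_mem_of_res_ne_zero`);
`ν' := ϖ^n ν / a` is fixed with `Red ν' 1`; `ν' - 1` is fixed with reduction `0`: `hR.div_unif_mem`: `x := ϖ⁻¹ (ν' - 1) ∈ O`. -/
theorem one_of_fix (hG : Good V y yt) {ϖ : K} (hR : RatStr α V ϖ y) {ν : F} (hν : FixF α ν)
    (h0 : ν ≠ 0) (hdiv : rD hG (divisorOf ν) = 0) :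
    ∃ c : K, c ≠ 0 ∧ One V ϖ (algebraMap K F c * ν) := by
  obtain ⟨n, νt, hνt, hred⟩ := hR.exists_zpow_red hν h0
  have hϖ := hR.unif_ne
  have hϖn : ϖ ^ n ≠ 0 := zpow_ne_zero _ hϖ
  have hϖnF : algebraMap K F (ϖ ^ n) ≠ 0 :=
    (map_ne_zero_iff _ (algebraMap K F).injective).2 hϖn
  have hd : divisorOf (Ω := K) (algebraMap K F (ϖ ^ n) * ν) = divisorOf ν := by
    ext v
    rw [divisorOf_apply, divisorOf_apply, v.ord_mul hϖnF h0, Fermat.Agent.S24.FF.ord_algebraMap,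
      zero_add]
  have h1 := rD_divisorOf hG hred hνt
  rw [hd, hdiv] at h1
  obtain ⟨cb, hcb⟩ := exists_const_of_divisorOf_eq_zero h1.symm
  have hcb0 : cb ≠ 0 := by
    rintro rfl
    rw [map_zero] at hcb
    exact hνt hcb
  obtain ⟨a, haA, hafix, hares⟩ := hR.res_surj cb
  have hares0 : res π a ≠ 0 := by rw [hares]; exact hcb0
  obtain ⟨-, hainv⟩ := inv_mem_of_res_ne_zero V.π_surjective hares0
  have ha0 : a ≠ 0 := by
    rintro rfl
    rw [res_zero] at hares0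
    exact hares0 rfl
  refine ⟨a⁻¹ * ϖ ^ n, mul_ne_zero (inv_ne_zero ha0) hϖn, ?_⟩
  have hfix : FixF α (algebraMap K F (a⁻¹ * ϖ ^ n) * ν) :=
    (FixF.algebraMap (hafix.inv.mul (hR.unif_fix.zpow n))).mul hν
  have hred1 : V.Red (algebraMap K F (a⁻¹ * ϖ ^ n) * ν) 1 := by
    have h2 := (V.red_const hainv).mul hred
    rw [← mul_assoc, ← map_mul, hcb, ← map_mul, res_inv V.π_surjective hares0, hares,
      inv_mul_cancel₀ hcb0, map_one] at h2
    exact h2
  have hred0 : V.Red (algebraMap K F (a⁻¹ * ϖ ^ n) * ν - 1) 0 := by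
    have h2 := hred1.sub V.red_one
    rwa [sub_self] at h2
  have hmem := hR.div_unif_mem (hfix.sub FixF.one) hred0
  obtain ⟨xt, hxt⟩ := V.exists_red hmem
  refine ⟨_, xt, hxt, ?_⟩
  rw [← mul_assoc, ← map_mul, mul_inv_cancel₀ hϖ, map_one, one_mul]
  ring

/-- TASK S15/B-Move-DpGE.  `GE` + constant reduction ⟹ `Dp`.
Proof.  `h = c n m^e w`.  Scale `m`: `Red (c₁ m) mt`, `mt ≠ 0`.  `m₂` fixed with `Red m₂ mt` (`exists_fix_red`), `m₂ ≠ 0`.  `ν := n m₂^e` is fixed; `rD (div ν) = rD (div h) - e rD (div (m/m₂)) - rD (div w) = 0`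
(`rD_divisorOf`: `c₁ m / m₂` and `w` reduce to `1`; `divisorOf_mul`-type lemmas, constants have divisor `0`).  `one_of_fix`: `c₂ ν ∈ 1 + eO`.  `h = (c / c₂) (m/m₂)^e ((c₂ ν) w)`, `One.mul`. -/
theorem dp_of_gE (hG : Good V y yt) {e : ℕ} (hR : RatStr α V (e : K) y) {h : F} (hh : GE α V e h)
    (hdiv : rD hG (divisorOf h) = 0) : Dp V e h := by
  obtain ⟨c, n, m, w, hc, hn, hnfix, hm, hw, rfl⟩ := hh
  have heA : (e : K) ∈ A.nonunits := hR.unif_nonunit
  have heA' : (e : K) ∈ A := ValuationSubring.nonunits_subset heA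
  obtain ⟨c₁, mt, hc₁, hmt, hred⟩ := V.exists_scale' hm
  obtain ⟨m₂, hm₂fix, hm₂red⟩ := exists_fix_red hG hR mt
  have hm₂0 : m₂ ≠ 0 := hm₂red.ne_zero hmt
  have hc₁F : algebraMap K F c₁ ≠ 0 := (_root_.map_ne_zero _).2 hc₁
  have hcF : algebraMap K F c ≠ 0 := (_root_.map_ne_zero _).2 hc
  set ν : F := n * m₂ ^ e with hν
  have hνfix : FixF α ν := hnfix.mul (hm₂fix.pow e)
  have hν0 : ν ≠ 0 := mul_ne_zero hn (pow_ne_zero e hm₂0)
  set r : F := algebraMap K F c₁ * m / m₂ with hr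
  have hr0 : r ≠ 0 := div_ne_zero (mul_ne_zero hc₁F hm) hm₂0
  have hrred : V.Red r 1 := by
    have h1 := hred.div hm₂red hmt
    rwa [div_self hmt] at h1
  have hwred : V.Red w 1 := hw.red heA
  set u : F := r ^ e * w with hu
  have hured : V.Red u 1 := by
    have h1 := (hrred.pow e).mul hwred
    rwa [one_pow, one_mul] at h1
  have hu0 : u ≠ 0 := hured.ne_zero one_ne_zero
  have hconst : ∀ a : K, divisorOf (Ω := K) (algebraMap K F a) = 0 := by
    intro a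
    ext v
    rw [divisorOf_apply, Fermat.Agent.S24.FF.ord_algebraMap]
    rfl
  have hone : divisorOf (Ω := k) (1 : Ft) = 0 := by
    have h1 : divisorOf (Ω := k) (algebraMap k Ft 1) = 0 := by
      ext v
      rw [divisorOf_apply, Fermat.Agent.S24.FF.ord_algebraMap]
      rfl
    rwa [map_one] at h1
  have heq : algebraMap K F c * n * m ^ e * w = algebraMap K F (c / c₁ ^ e) * (ν * u) := by
    rw [hν, hu, hr, map_div₀, map_pow, div_pow, mul_pow]
    field_simp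
  have ha0 : algebraMap K F (c / c₁ ^ e) ≠ 0 :=
    (_root_.map_ne_zero _).2 (div_ne_zero hc (pow_ne_zero e hc₁))
  have hdivν : rD hG (divisorOf ν) = 0 := by
    rw [heq, divisorOf_mul ha0 (mul_ne_zero hν0 hu0), hconst, zero_add, divisorOf_mul hν0 hu0,
      map_add, rD_divisorOf hG hured one_ne_zero, hone, add_zero] at hdiv
    exact hdiv
  obtain ⟨c₂, hc₂, hone₂⟩ := one_of_fix hG hR hνfix hν0 hdivν
  have hc₂F : algebraMap K F c₂ ≠ 0 := (_root_.map_ne_zero _).2 hc₂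
  refine ⟨c / (c₁ ^ e * c₂), r, algebraMap K F c₂ * ν * w,
    div_ne_zero hc (mul_ne_zero (pow_ne_zero e hc₁) hc₂), hr0, hone₂.mul heA' hw, ?_⟩
  rw [heq, hu, map_div₀, map_div₀, map_mul, map_pow]
  field_simp

/-- helper for `loc_move`: `div (m ^ e) = e div m`. -/
theorem MoveLoc_divisorOf_pow (m : F) (e : ℕ) :
    divisorOf (Ω := K) (m ^ e) = (e : ℤ) • divisorOf (Ω := K) m := by
  ext v
  rw [divisorOf_apply, Finsupp.smul_apply, divisorOf_apply, Fermat.Agent.S24.FF.ord_pow, smul_eq_mul]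

/-- helper for `loc_move`: a sum of points is effective. -/
theorem MoveLoc_sum_single_nonneg {Ω 𝕃 : Type*} [Field Ω] [Field 𝕃] [Algebra Ω 𝕃] {ι : Type*}
    (T : Finset ι) (P : ι → Place Ω 𝕃) (v : Place Ω 𝕃) :
    0 ≤ (∑ Q ∈ T, Finsupp.single (P Q) (1 : ℤ)) v := by
  classical
  rw [Finsupp.finsetSum_apply]
  refine Finset.sum_nonneg fun Q _ => ?_
  rw [Finsupp.single_apply]
  split_ifs <;> simp

/-- helper for `loc_move`: the support of a sum of points. -/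
theorem MoveLoc_sum_single_support {ι : Type*} (T : Finset ι) (P : ι → Place K F) {v : Place K F}
    (hv : (∑ Q ∈ T, Finsupp.single (P Q) (1 : ℤ)) v ≠ 0) : ∃ Q ∈ T, P Q = v := by
  classical
  by_contra hcon
  apply hv
  rw [Finsupp.finsetSum_apply]
  refine Finset.sum_eq_zero fun Q hQ => ?_
  rw [Finsupp.single_apply, if_neg]
  exact fun h => hcon ⟨Q, hQ, h⟩

/-- helper for `loc_move`: the reduction of a sum of points over `T`. -/
theorem MoveLoc_rD_sum (hG : Good V y yt) (T : Finset (Place k Ft)) (P : Place k Ft → Place K F)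
    (hP : ∀ Q ∈ T, rP hG (P Q) = Q) :
    rD hG (∑ Q ∈ T, Finsupp.single (P Q) (1 : ℤ)) = sumDiv T := by
  rw [map_sum]
  unfold sumDiv
  exact Finset.sum_congr rfl fun Q hQ => by rw [rD_single, hP Q hQ]

/-- TASK S15/B-Move-Loc.  **Moving `g`.**   (the main statement of this file)
Proof.  `exists_fix_mod`: `div g = e Y' - Y`, `Y` fixed.  `exists_fix_divisor hG hR (rD Y')`: `Y₁` with fixed points (so `FixD`), `rD Y₁ = rD Y'`; replace `(Y', Y)` by `(Y' - Y₁, Y - e Y₁)`: WLOG `rD Y' = 0`.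
`T` non special off `B`, `#T = g`; `P₀ Q` fixed places over `Q ∈ T` (`exists_fix_place`), `D₀ := ∑ single (P₀ Q) 1` (fixed, `rD D₀ = sumDiv T`).
* `exists_unique_effective` for `Y' + D₀` (`rD = sumDiv T`): `D₂ ≥ 0`, `D₂ = Y' + D₀ + div m`, `rD D₂ = sumDiv T`.
* `rD Y = e rD Y' - rD (div g) = - div gt` is principal (scale `g`), so `exists_fix_effective` applies to `Y + D₀`: `n` fixed, `Y + D₀ + div n = ∑ single (P₃ Q) 1`.
* `h := g m^e / n`: `div h = e D₂ - ∑ P₃ - (e-1) D₀`; `rD (div h) = 0`; `GE α V e h` (`GE.mul_pow_div`), so `Dp V e h` (`dp_of_gE`); `h ∈ L(Δ)`, `Δ := ∑ P₃ + (e-1) D₀ ≥ 0`, `rD Δ = e sumDiv T`; `depth_core`. -/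
theorem loc_move (hG : Good V y yt) {e : ℕ} (he : e.Prime) (hR : RatStr α V (e : K) y) {g : F}
    (hg0 : g ≠ 0) (hg : ∀ σ : Γ, IsDm K e (α σ • g / g)) (hgE : GE α V e g)
    (B : Set (Place k Ft)) (hB : B.Finite) :
    ∃ (c : K) (m n x : F) (xt : Ft) (T : Finset (Place k Ft)) (P₀ P₃ : Place k Ft → Place K F)
      (D₂ : Divisor K F),
      c ≠ 0 ∧ m ≠ 0 ∧ n ≠ 0 ∧ FixF α n ∧ V.Red x xt ∧
      algebraMap K F c * (g * m ^ e / n) = 1 + algebraMap K F (e : K) * x ∧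
      (∀ Q ∈ T, Q ∉ B) ∧
      (∀ Q ∈ T, FixP α (P₀ Q) ∧ rP hG (P₀ Q) = Q) ∧ (∀ Q ∈ T, FixP α (P₃ Q) ∧ rP hG (P₃ Q) = Q) ∧
      (∀ v, 0 ≤ D₂ v) ∧ rD hG D₂ = sumDiv T ∧
      divisorOf (Ω := K) (g * m ^ e / n) = (e : ℤ) • D₂ - ∑ Q ∈ T, Finsupp.single (P₃ Q) (1 : ℤ)
        - ((e : ℤ) - 1) • ∑ Q ∈ T, Finsupp.single (P₀ Q) (1 : ℤ) := by
  classical
  have heA : (e : K) ∈ A.nonunits := hR.unif_nonunit
  obtain ⟨Y0, Y0', hY0, hdiv0⟩ := exists_fix_mod (K := K) (α := α) he.ne_zero hg0 hg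
  obtain ⟨Y₁, hY₁fix, hY₁r, -⟩ := exists_fix_divisor hG hR (rD hG Y0')
  have hY₁ : FixD α Y₁ := fixD_of_support hY₁fix
  -- normalise: `rD Y' = 0`
  obtain ⟨Y', hY'def⟩ : ∃ Y' : Divisor K F, Y' = Y0' - Y₁ := ⟨_, rfl⟩
  obtain ⟨Y, hYdef⟩ : ∃ Y : Divisor K F, Y = Y0 - e • Y₁ := ⟨_, rfl⟩
  have hY : FixD α Y := by rw [hYdef]; exact hY0.sub (hY₁.nsmul e)
  have hrY' : rD hG Y' = 0 := by rw [hY'def, map_sub, hY₁r, sub_self]
  have hdiv : divisorOf (Ω := K) g = (e : ℤ) • Y' - Y := by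
    rw [hdiv0, hY'def, hYdef, smul_sub, natCast_zsmul, natCast_zsmul]; abel
  -- the genus, `T`, `D₀`
  obtain ⟨gg, hgen⟩ := exists_isGenus (Ω := K) (𝕃 := F)
  obtain ⟨gt, hgent⟩ := exists_isGenus (Ω := k) (𝕃 := Ft)
  have hgg : gg = gt := genus_eq hG hgen hgent
  subst hgg
  obtain ⟨T, hTc, hTB, hT1⟩ := exists_nonspecial_finset hgent B hB
  choose P₀ hP₀fix hP₀r using fun Q : Place k Ft => exists_fix_place hG hR Q
  obtain ⟨D₀, hD₀def⟩ : ∃ D₀ : Divisor K F, D₀ = ∑ Q ∈ T, Finsupp.single (P₀ Q) (1 : ℤ) := ⟨_, rfl⟩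
  have hrD₀ : rD hG D₀ = sumDiv T := by
    rw [hD₀def]; exact MoveLoc_rD_sum hG T P₀ fun Q _ => hP₀r Q
  have hD₀fix : FixD α D₀ := fixD_of_support fun v hv => by
    rw [hD₀def] at hv
    obtain ⟨Q, -, rfl⟩ := MoveLoc_sum_single_support T P₀ hv
    exact hP₀fix Q
  have hD₀pos : ∀ v, 0 ≤ D₀ v := fun v => by
    rw [hD₀def]; exact MoveLoc_sum_single_nonneg T P₀ v
  have hTpos : ∀ Q, 0 ≤ sumDiv T Q := fun Q => MoveLoc_sum_single_nonneg T (fun Q => Q) Q
  have hTdeg : Divisor.degree (sumDiv T) = gg := by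
    rw [degree_sumDiv_of_deg_eq_one (fun v => deg_eq_one_of_isAlgClosed v), hTc]
  -- `D₂`
  obtain ⟨D₂, ⟨hD₂p, hD₂pos, hD₂r⟩, -⟩ := exists_unique_effective hG hgen hTpos hTdeg hT1 (Y' + D₀)
    (by rw [map_add, hrY', hrD₀, zero_add, sub_self]; exact zero_mem _)
  obtain ⟨m, hm0, hD₂⟩ := exists_eq_add_divisorOf hD₂p
  -- `rD Y` is principal
  have hrY : rD hG Y ∈ Divisor.principal (K := k) (F := Ft) := by
    have h1 : rD hG (divisorOf (Ω := K) g) ∈ Divisor.principal (K := k) (F := Ft) :=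
      rD_mem_principal hG ⟨g, hg0, fun v => divisorOf_apply g v⟩
    rw [hdiv, map_sub, map_zsmul, hrY', smul_zero, zero_sub] at h1
    exact neg_mem_iff.mp h1
  obtain ⟨n, P₃, hn0, hnfix, hP₃, hn⟩ := exists_fix_effective hG hR hgen hTc hT1 (D := Y + D₀)
    (hY.add hD₀fix) (by rw [map_add, hrD₀, add_sub_cancel_right]; exact hrY)
  obtain ⟨D₃, hD₃def⟩ : ∃ D₃ : Divisor K F, D₃ = ∑ Q ∈ T, Finsupp.single (P₃ Q) (1 : ℤ) := ⟨_, rfl⟩
  rw [← hD₃def] at hn
  have hrD₃ : rD hG D₃ = sumDiv T := by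
    rw [hD₃def]; exact MoveLoc_rD_sum hG T P₃ fun Q hQ => (hP₃ Q hQ).2
  have hD₃pos : ∀ v, 0 ≤ D₃ v := fun v => by
    rw [hD₃def]; exact MoveLoc_sum_single_nonneg T P₃ v
  -- `h`
  have hdivh : divisorOf (Ω := K) (g * m ^ e / n) = (e : ℤ) • D₂ - D₃ - ((e : ℤ) - 1) • D₀ := by
    have h1 : divisorOf (Ω := K) n = D₃ - (Y + D₀) := eq_sub_of_add_eq' hn
    rw [div_eq_mul_inv, divisorOf_mul (mul_ne_zero hg0 (pow_ne_zero _ hm0)) (inv_ne_zero hn0),
      divisorOf_mul hg0 (pow_ne_zero _ hm0), divisorOf_inv, MoveLoc_divisorOf_pow, hdiv, h1, hD₂]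
    simp only [smul_add, sub_smul, one_smul]
    abel
  have he1 : (0 : ℤ) ≤ (e : ℤ) - 1 := by have := he.one_lt; omega
  have hrdivh : rD hG (divisorOf (Ω := K) (g * m ^ e / n)) = 0 := by
    rw [hdivh, map_sub, map_sub, map_zsmul, map_zsmul, hD₂r, hrD₃, hrD₀, sub_smul, one_smul]
    abel
  have hGE : GE α V e (g * m ^ e / n) := hgE.mul_pow_div hm0 hn0 hnfix
  have hDp : Dp V e (g * m ^ e / n) := dp_of_gE hG hR hGE hrdivh
  have hΔ0 : ∀ v, 0 ≤ (D₃ + ((e : ℤ) - 1) • D₀) v := fun v => by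
    rw [Finsupp.add_apply, Finsupp.smul_apply, smul_eq_mul]
    exact add_nonneg (hD₃pos v) (mul_nonneg he1 (hD₀pos v))
  have hΔ : g * m ^ e / n ∈ LSpace (D₃ + ((e : ℤ) - 1) • D₀) := Or.inr fun v => by
    rw [← divisorOf_apply, hdivh, ← Finsupp.add_apply]
    have h2 : (e : ℤ) • D₂ - D₃ - ((e : ℤ) - 1) • D₀ + (D₃ + ((e : ℤ) - 1) • D₀) = (e : ℤ) • D₂ := by
      abel
    rw [h2, Finsupp.smul_apply, smul_eq_mul]
    exact mul_nonneg (by positivity) (hD₂pos v)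
  have hrΔ : rD hG (D₃ + ((e : ℤ) - 1) • D₀) = e • sumDiv T := by
    rw [map_add, map_zsmul, hrD₃, hrD₀, sub_smul, one_smul, natCast_zsmul]
    abel
  obtain ⟨c, hc, x, xt, hx, heq⟩ := depth_core hG he heA hT1 hΔ0 hΔ hrΔ hrdivh hDp
  refine ⟨c, m, n, x, xt, T, P₀, P₃, D₂, hc, hm0, hn0, hnfix, hx, heq, hTB,
    fun Q _ => ⟨hP₀fix Q, hP₀r Q⟩, hP₃, hD₂pos, hD₂r, ?_⟩
  rw [hdivh, hD₃def, hD₀def]

end Fermat.Agent.S15.B
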